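import Fermat.Agent.H11Q.CuspPlace

/-!
# The level package from two charts and a cusp
-/

set_option autoImplicit false
set_option linter.unusedSectionVars false

noncomputable section

open IsLocalRing ModularCurve Module AlgebraicCurve Fermat.Agent.H28 IsDedekindDomain

attribute [-instance] HahnSeries.instModule HahnSeries.instSMul HahnSeries.instDistribMulAction
  HahnSeries.instSMulZeroClass

namespace Fermat.Agent.H11Q

namespace Cusp

variable {L : Type*} [Field L] [IsAlgClosed L] {A : ValuationSubring L} {F Fb : Type*}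
  [Field F] [Field Fb] [Algebra L F] [Algebra (ResidueField A) Fb]
  {D : RedData A F Fb} {C : TwoCharts D} (Z : Cusp C)

/-- the functions with a pole of order `≤ n` at the cusp, and no other pole -/
def Vn (n : ℕ) : Submodule L F := riemannRochSpace (Finsupp.single Z.P (n : ℤ))

theorem mem_Vn {n : ℕ} {x : F} : x ∈ Z.Vn n ↔ Z.PolP x ∧ Low (Z.e x) (-n) := by
  unfold Vn
  rw [mem_riemannRochSpace_iff]
  rcases eq_or_ne x 0 with rfl | hx
  · refine ⟨fun _ => ⟨fun v _ => zero_mem _, by rw [map_zero]; exact low_zero _⟩,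
      fun _ v => Or.inl rfl⟩
  · constructor
    · intro h
      refine ⟨fun v hv => ?_, ?_⟩
      · have := (h v).resolve_left hx
        rw [Finsupp.single_eq_of_ne hv, neg_zero] at this
        exact (H18.mem_iff v).2 this
      · rw [Z.low_iff_ord hx]
        have := (h Z.P).resolve_left hx
        rwa [Finsupp.single_eq_same] at this
    · rintro ⟨h1, h2⟩ v
      right
      by_cases hv : v = Z.P
      · subst hv
        rw [Finsupp.single_eq_same, ← Z.low_iff_ord hx]
        exact h2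
      · rw [Finsupp.single_eq_of_ne hv, neg_zero]
        exact (H18.mem_iff v).1 (h1 v hv)

section RR

variable [CharZero L] [FF.FunField L F]

instance (n : ℕ) : FiniteDimensional L (Z.Vn n) := FF.L_finite _

theorem finrank_Vn {n : ℕ} (hn : 2 * genusFF L F ≤ n) :
    finrank L (Z.Vn n) + genusFF L F = n + 1 := by
  have h1 : Divisor.degree (Finsupp.single Z.P (n : ℤ) : Divisor L F) = n := by
    rw [Divisor.degree_single, FF.deg_eq_one]
    push_cast
    ring
  have h2 : FF.hh (Finsupp.single Z.P (n : ℤ) : Divisor L F) = 0 :=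
    FF.hh_eq_zero_of_degree_ge (by rw [h1]; exact_mod_cast hn)
  have h3 := FF.riemannRoch (Finsupp.single Z.P (n : ℤ) : Divisor L F)
  rw [h2, h1] at h3
  have h4 : finrank L (Z.Vn n) = FF.ell (Finsupp.single Z.P (n : ℤ) : Divisor L F) := rfl
  rw [h4]
  push_cast at h3
  omega

/-- the expansion as a family with one element -/
def e₁ : Unit → F →ₗ[L] LaurentSeries L := fun _ => Z.e.toLinearMap

theorem jatt (n : ℕ) : JAtt A (Z.Vn n) Z.e₁ := by
  intro v hv hv0
  have h1 := (Z.mem_Vn.1 hv).1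
  obtain ⟨c, hc, hne⟩ := C.h₁.prim v hv0 (PolP.mem_CR₁ Z h1)
  have hc0 : c ≠ 0 := by
    rintro rfl
    apply hne
    have : (⟨(0 : L) • v, C.h₁.mem _ hc⟩ : D.Z) = 0 := Subtype.ext (zero_smul L v)
    rw [this, map_zero]
  refine ⟨c, hc0, fun _ => ?_, ⟨(), ?_⟩⟩
  · have h2 := Z.e_int ⟨c • v, C.h₁.mem _ hc⟩
    change IsInt A (c • Z.e v)
    rw [← map_smul]
    exact h2
  · change rd A (c • Z.e v) ≠ 0
    rw [← map_smul]
    have h3 := Z.e_rd ⟨c • v, C.h₁.mem _ hc⟩
    rw [h3]
    intro h4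
    exact hne (Z.eb.toRingHom.injective (by rw [map_zero]; exact h4))

theorem finrank_red {n : ℕ} (hn : 2 * genusFF L F ≤ n) :
    FiniteDimensional (ResidueField A) (redSpace A (Z.Vn n) Z.e₁) ∧
    finrank (ResidueField A) (redSpace A (Z.Vn n) Z.e₁) + genusFF L F = n + 1 :=
  ⟨redSpace_finiteDimensional (Z.jatt n), by
    rw [finrank_redSpace (Z.jatt n)]; exact Z.finrank_Vn hn⟩

/-- the ring of expansions of functions on the special fibre with poles only at the cusp -/
def O : Subalgebra (ResidueField A) (LaurentSeries (ResidueField A)) := Z.OO.map Z.eb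

theorem mem_O {a : LaurentSeries (ResidueField A)} :
    a ∈ Z.O ↔ ∃ y ∈ Z.OO, Z.eb y = a := Subalgebra.mem_map

theorem O_dim : ∃ n₀ : ℕ, ∀ n : ℕ, n₀ ≤ n →
    ∀ W : Submodule (ResidueField A) (LaurentSeries (ResidueField A)),
    (∀ a, a ∈ W ↔ a ∈ Z.O ∧ Low a (-n)) →
      FiniteDimensional (ResidueField A) W ∧
        finrank (ResidueField A) W + genusFF L F = n + 1 := by
  obtain ⟨n₁, hn₁⟩ := Z.exists_n₁
  refine ⟨n₁ + 2 * genusFF L F, fun n hn W hW => ?_⟩
  obtain ⟨hfd, hdim⟩ := Z.finrank_red (n := n) (by omega)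
  let ε : (Unit → LaurentSeries (ResidueField A)) ≃ₗ[ResidueField A]
      LaurentSeries (ResidueField A) := LinearEquiv.funUnique Unit _ _
  have hmap : (redSpace A (Z.Vn n) Z.e₁).map ε.toLinearMap = W := by
    ext a
    rw [hW, mem_O]
    constructor
    · rintro ⟨y, ⟨v, hv, hi, hy⟩, rfl⟩
      obtain ⟨hv1, hv2⟩ := Z.mem_Vn.1 hv
      have hvi : IsInt A (Z.e v) := hi ()
      have hya : ε.toLinearMap y = rd A (Z.e v) := hy ()
      rw [hya]
      have hvZ := Z.mem_Z v hvi
      refine ⟨⟨D.ρ ⟨v, hvZ⟩, Z.red_mem_OO (x := ⟨v, hvZ⟩) hv1, ?_⟩, hv2.rd⟩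
      rw [← Z.e_rd]
    · rintro ⟨⟨y, hy, rfl⟩, hlow⟩
      obtain ⟨x, hx1, hx2, hx3⟩ := hn₁ n (by omega) y hy hlow
      refine ⟨fun _ => Z.eb y, ⟨x, Z.mem_Vn.2 ⟨hx1, hx2⟩, fun _ => Z.e_int x, fun _ => ?_⟩, rfl⟩
      change Z.eb y = rd A (Z.e (x : F))
      rw [Z.e_rd, hx3]
  have hfin : finrank (ResidueField A) W =
      finrank (ResidueField A) (redSpace A (Z.Vn n) Z.e₁) := by
    rw [← hmap]
    exact (LinearEquiv.finrank_map_eq ε _)
  refine ⟨?_, by rw [hfin]; exact hdim⟩
  rw [← hmap]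
  exact Module.Finite.map _ _

end RR

end Cusp

section Pack

variable {K : Type*} [Field K] [IsAlgClosed K] [CharZero K] {A : ValuationSubring K}
  {E : IntermediateField K (LaurentSeries K)}
  {Eb : IntermediateField (ResidueField A) (LaurentSeries (ResidueField A))}
  [FF.FunField K E] [IsAlgClosed (ResidueField A)]
  {D : RedData A E Eb} {C : TwoCharts D}

theorem polInf_iff (Z : Cusp C) (hZe : Z.e = E.val) {x : E} : PolInf x ↔ Z.PolP x := by
  have hord : ∀ z : E, z ≠ 0 → Z.P.ord z = (z : LaurentSeries K).order := by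
    intro z hz
    rw [← Z.order_P z hz, hZe]
    rfl
  constructor
  · intro h v hv
    apply h
    by_contra hcon
    push Not at hcon
    apply hv
    have h1 : v.toValuationSubring = Z.P.toValuationSubring := by
      ext z
      rw [H18.mem_iff, H18.mem_iff]
      rcases eq_or_ne z 0 with rfl | hz
      · rw [Place.ord_zero, Place.ord_zero]
      · rw [hcon z hz, hord z hz]
    exact Place.ext h1
  · rintro h v ⟨z, hz, hne⟩
    apply h
    rintro rfl
    exact hne (hord z hz)

/-- **The level package.** -/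
def levelPack (Z : Cusp C) (hZe : Z.e = E.val) (hZeb : Z.eb = Eb.val) (q : ℕ)
    (hfrob : ∀ φ : ResidueField A →+* ResidueField A, (∀ c, φ c = c ^ q) →
      ∃ (S T : E → E), (∀ x, PolInf x → IsInt A (x : LaurentSeries K) → PolInf (S x) ∧
        IsInt A (S x : LaurentSeries K) ∧
        rd A (S x : LaurentSeries K) = coeffMap φ (rd A (x : LaurentSeries K))) ∧
      (∀ x, PolInf x → IsInt A (x : LaurentSeries K) → PolInf (T x) ∧
        IsInt A (T x : LaurentSeries K) ∧
        coeffMap φ (rd A (T x : LaurentSeries K)) = rd A (x : LaurentSeries K))) :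
    LevelPack A E Eb q where
  O := Z.O
  O_le a ha := by
    obtain ⟨y, _, rfl⟩ := Z.mem_O.1 ha
    rw [hZeb]
    exact y.2
  O_int a ha := by
    rintro ⟨p, hp, hc, hpa⟩
    choose y hy hy2 using fun i => Z.mem_O.1 (hc i)
    have hl : p ∈ Polynomial.lifts (algebraMap Eb (LaurentSeries (ResidueField A))) := by
      rw [Polynomial.lifts_iff_coeff_lifts]
      intro n
      refine ⟨y n, ?_⟩
      rw [← hy2 n, hZeb]
      rfl
    obtain ⟨r, hr, -, hrm⟩ := Polynomial.lifts_and_natDegree_eq_and_monic hl hp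
    refine Z.mem_O.2 ⟨⟨a, ha⟩, Z.OO_int r hrm (fun i => ?_) ?_, by rw [hZeb]; rfl⟩
    · have h1 : r.coeff i = y i := by
        apply Subtype.ext
        have h2 : (p.coeff i) = algebraMap Eb (LaurentSeries (ResidueField A)) (r.coeff i) := by
          rw [← hr, Polynomial.coeff_map]
        have h3 : ((r.coeff i : Eb) : LaurentSeries (ResidueField A)) = p.coeff i := h2.symm
        rw [h3, ← hy2 i, hZeb]
        rfl
      rw [h1]
      exact hy i
    · apply (algebraMap Eb (LaurentSeries (ResidueField A))).injective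
      rw [map_zero, ← Polynomial.eval₂_at_apply, ← Polynomial.eval_map, hr]
      exact hpa
  O_const a ha hlow := by
    obtain ⟨y, hy, rfl⟩ := Z.mem_O.1 ha
    obtain ⟨c, hc⟩ := Z.OO_const hy hlow
    exact ⟨c, by rw [← hc, Z.eb.commutes]⟩
  g' := genusFF K E
  g'_eq := rfl
  O_dim := Z.O_dim
  lift a ha := by
    obtain ⟨y, hy, rfl⟩ := Z.mem_O.1 ha
    obtain ⟨x, hx, rfl⟩ := Z.exists_lift_OO hy
    have h1 := Z.e_int x
    have h2 := Z.e_rd x
    rw [hZe] at h1 h2
    exact ⟨x, (polInf_iff Z hZe).2 hx, h1, h2⟩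
  red x hx hi := by
    have h1 : IsInt A (Z.e x) := by rw [hZe]; exact hi
    refine Z.mem_O.2 ⟨D.ρ ⟨x, Z.mem_Z x h1⟩,
      Z.red_mem_OO (x := ⟨x, Z.mem_Z x h1⟩) ((polInf_iff Z hZe).1 hx), ?_⟩
    rw [← Z.e_rd, hZe]
    rfl
  exact := by
    obtain ⟨n₀, hn₀⟩ := Z.exists_unitLead
    refine ⟨n₀, fun n hn => ?_⟩
    obtain ⟨x, hx, hu⟩ := hn₀ n hn
    rw [hZe] at hu
    exact ⟨x, (polInf_iff Z hZe).2 hx, hu⟩
  O_frob φ hφ a := by
    obtain ⟨S, T, hS, hT⟩ := hfrob φ hφ
    have hlift : ∀ a ∈ Z.O, ∃ x : E, PolInf x ∧ IsInt A (x : LaurentSeries K) ∧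
        rd A (x : LaurentSeries K) = a := by
      intro a ha
      obtain ⟨y, hy, rfl⟩ := Z.mem_O.1 ha
      obtain ⟨x, hx, rfl⟩ := Z.exists_lift_OO hy
      have h1 := Z.e_int x
      have h2 := Z.e_rd x
      rw [hZe] at h1 h2
      exact ⟨x, (polInf_iff Z hZe).2 hx, h1, h2⟩
    have hred : ∀ x : E, PolInf x → IsInt A (x : LaurentSeries K) →
        rd A (x : LaurentSeries K) ∈ Z.O := by
      intro x hx hi
      have h1 : IsInt A (Z.e x) := by rw [hZe]; exact hi
      refine Z.mem_O.2 ⟨D.ρ ⟨x, Z.mem_Z x h1⟩,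
        Z.red_mem_OO (x := ⟨x, Z.mem_Z x h1⟩) ((polInf_iff Z hZe).1 hx), ?_⟩
      rw [← Z.e_rd, hZe]
      rfl
    constructor
    · intro h
      obtain ⟨x, hx, hi, hxa⟩ := hlift _ h
      obtain ⟨h1, h2, h3⟩ := hT x hx hi
      have h4 : rd A (T x : LaurentSeries K) = a := by
        have h5 : coeffMap φ (rd A (T x : LaurentSeries K)) = coeffMap φ a := by rw [h3, hxa]
        ext n
        have h6 := congrArg (fun z : LaurentSeries (ResidueField A) => z.coeff n) h5
        simp only [coeffMap_coeff] at h6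
        exact φ.injective h6
      rw [← h4]
      exact hred _ h1 h2
    · intro h
      obtain ⟨x, hx, hi, rfl⟩ := hlift _ h
      obtain ⟨h1, h2, h3⟩ := hS x hx hi
      rw [← h3]
      exact hred _ h1 h2

end Pack

end Fermat.Agent.H11Q
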