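import Fermat.Agent.H11Q.LevelOfCusp
import Fermat.Agent.H28.ModRed
import Fermat.Agent.Q.ToricAll

/-!
# The level package of the modular function field, from two charts
-/

set_option autoImplicit false
set_option linter.unusedSectionVars false

noncomputable section

open IsLocalRing ModularCurve Module AlgebraicCurve Fermat.Agent.H28 IsDedekindDomain

attribute [-instance] HahnSeries.instModule HahnSeries.instSMul HahnSeries.instDistribMulAction
  HahnSeries.instSMulZeroClass

namespace Fermat.Agent.H11Q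

local notation "Qb" => AlgebraicClosure ℚ

variable {M : ℕ} {A : ValuationSubring Qb}

theorem isInt_modRed (z : (modRed M A).Z) :
    IsInt A ((z : modularFunctionFieldBar M) : LaurentSeries Qb) := by
  obtain ⟨y, hy, -⟩ := mem_laurentRed.1 z.2
  rw [← hy]
  exact isInt_emb A y

theorem rd_modRed (z : (modRed M A).Z) :
    rd A ((z : modularFunctionFieldBar M) : LaurentSeries Qb) =
      (((modRed M A).ρ z : modularFunctionFieldFullC (ResidueField A) M) :
        LaurentSeries (ResidueField A)) := by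
  obtain ⟨y, hy, -⟩ := mem_laurentRed.1 z.2
  rw [laurentRed_ρ z hy, ← hy]
  exact rd_emb A y

theorem mem_modRed [NeZero M] {ℓ : ℕ} (hℓ : ℓ.Prime) (hA : A.LiesOverPrime ℓ)
    (hM : (M : ResidueField A) ≠ 0) (z : modularFunctionFieldBar M)
    (hz : IsInt A (z : LaurentSeries Qb)) : z ∈ (modRed M A).Z := by
  refine mem_laurentRed.2 ⟨toA A _ hz, emb_toA A _ hz, ?_⟩
  have h1 : coeffMap (residue A) (toA A _ hz) = rd A (z : LaurentSeries Qb) := by
    conv_rhs => rw [← emb_toA A _ hz]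
    rw [rd_emb]
  rw [h1]
  exact Q.red_mem_full hℓ hA hM (Q.mem_full_of_bar z.2) (Q.red_rd hz)

theorem unitLead_jqModC : UnitLead A (jqModC Qb) (-1) where
  int := by
    have h : coeffMap A.subtype (jqModC A) = jqModC Qb := coeffMap_jqModC A.subtype
    rw [← h]
    exact isInt_emb A _
  below i hi := coeff_jqModC_of_lt Qb hi
  lead := by
    rw [coeff_jqModC_neg_one, resid_one]
    exact one_ne_zero

/-- the cusp `∞` for two charts given by `j` and `1/j` -/
def cuspMod [NeZero M] {ℓ : ℕ} (hℓ : ℓ.Prime) (hA : A.LiesOverPrime ℓ)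
    (hM : (M : ResidueField A) ≠ 0) (C : TwoCharts (modRed M A))
    (hC : (C.t₁ : modularFunctionFieldBar M) = jBar M) : Cusp C where
  e := (modularFunctionFieldBar M).val
  eb := (modularFunctionFieldFullC (ResidueField A) M).val
  e_int := isInt_modRed
  e_rd := rd_modRed
  mem_Z := mem_modRed hℓ hA hM
  lead := by
    have h1 : (C.t₂ : modularFunctionFieldBar M) = (jBar M)⁻¹ := by
      rw [← hC]
      exact eq_inv_of_mul_eq_one_right C.mul_eq
    rw [h1, map_inv₀]
    have h2 := (unitLead_jqModC (A := A)).inv.1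
    rw [neg_neg] at h2
    exact h2
  P := (H05.exists_place_infinity_bc Qb M).choose
  order_P z _ := ((H05.exists_place_infinity_bc Qb M).choose_spec z).symm

open scoped Pointwise in
theorem IsFrobAt_inv {ℓ : ℕ} {σ : Qb ≃ₐ[ℚ] Qb} (hσ : A.IsFrobeniusAt σ ℓ) (x : A) :
    ∃ hx : (σ⁻¹ : Qb ≃ₐ[ℚ] Qb) (x : Qb) ∈ A,
      (residue A ⟨(σ⁻¹ : Qb ≃ₐ[ℚ] Qb) (x : Qb), hx⟩) ^ ℓ = residue A x := by
  obtain ⟨hx, -⟩ := Q.decomposition_residue σ⁻¹ (inv_mem hσ.mem_decompositionSubgroup) x
  refine ⟨hx, ?_⟩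
  obtain ⟨hy, h2⟩ := Q.frobenius_residue hσ ⟨_, hx⟩
  rw [← h2]
  congr 1
  apply Subtype.ext
  change σ (σ⁻¹ (x : Qb)) = x
  rw [← AlgEquiv.mul_apply, mul_inv_cancel]
  rfl

theorem polInf_smul {x : modularFunctionFieldBar M} (hx : PolInf x) (σ : Qb ≃ₐ[ℚ] Qb) :
    PolInf (arithmeticGalois (modularFunctionFieldFull M) σ • x) := by
  have hord : ∀ (τ : Qb ≃ₐ[ℚ] Qb) (z : modularFunctionFieldBar M),
      ((arithmeticGalois (modularFunctionFieldFull M) τ • z : modularFunctionFieldBar M) :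
        LaurentSeries Qb).order = (z : LaurentSeries Qb).order := by
    intro τ z
    obtain ⟨P, hP⟩ := H05.exists_place_infinity_bc Qb M
    rcases eq_or_ne z 0 with rfl | hz
    · rw [smul_zero]
    · rw [coe_arithmeticGalois_smul]
      have hz' : (z : LaurentSeries Qb) ≠ 0 := fun h => hz (Subtype.ext h)
      have hz2 : coeffMap (τ : Qb →+* Qb) (z : LaurentSeries Qb) ≠ 0 := by
        rw [Ne, map_eq_zero]; exact hz'
      apply le_antisymm
      · apply HahnSeries.order_le_of_coeff_ne_zero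
        rw [coeffMap_coeff]
        exact (map_ne_zero _).2 (mt HahnSeries.coeff_order_eq_zero.1 hz')
      · apply HahnSeries.order_le_of_coeff_ne_zero
        have h := mt HahnSeries.coeff_order_eq_zero.1 hz2
        rw [coeffMap_coeff] at h
        exact fun h0 => h (by rw [h0, map_zero])
  intro v hv
  set g := arithmeticGalois (modularFunctionFieldFull M) σ with hg
  have hv' : (g⁻¹ • v).ord x = v.ord (g • x) := by
    have := SemilinearAut.ord_smul g⁻¹ v (g • x)
    rwa [inv_smul_smul] at this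
  have h1 := hx (g⁻¹ • v) (by
    obtain ⟨z, hz, hne⟩ := hv
    refine ⟨g⁻¹ • z, (smul_ne_zero_iff_ne _).2 hz, ?_⟩
    rw [SemilinearAut.ord_smul, hg, ← map_inv, hord]
    exact hne)
  rw [H18.mem_iff] at h1 ⊢
  rwa [hv'] at h1

/-- **The level package of the modular function field.** -/
theorem exists_levelPack [NeZero M] {ℓ : ℕ} (hℓ : ℓ.Prime) (hA : A.LiesOverPrime ℓ)
    (hM : (M : ResidueField A) ≠ 0) (C : TwoCharts (modRed M A))
    (hC : (C.t₁ : modularFunctionFieldBar M) = jBar M) :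
    Nonempty (LevelPack A (modularFunctionFieldBar M)
      (modularFunctionFieldFullC (ResidueField A) M) ℓ) := by
  haveI := isAlgClosed_residueField A
  obtain ⟨σ, hσ⟩ := H05.exists_isFrobeniusAt hℓ hA
  refine ⟨levelPack (cuspMod hℓ hA hM C hC) rfl rfl ℓ ?_⟩
  intro φ hφ
  refine ⟨fun x => arithmeticGalois (modularFunctionFieldFull M) σ • x,
    fun x => arithmeticGalois (modularFunctionFieldFull M) σ⁻¹ • x, ?_, ?_⟩
  · intro x hx hi
    refine ⟨polInf_smul hx σ, ?_, ?_⟩
    · intro n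
      rw [coe_arithmeticGalois_smul, coeffMap_coeff]
      exact (Q.frobenius_residue hσ ⟨_, hi n⟩).1
    · ext n
      rw [rd_coeff, coe_arithmeticGalois_smul, coeffMap_coeff, coeffMap_coeff, rd_coeff, hφ]
      obtain ⟨h1, h2⟩ := Q.frobenius_residue hσ ⟨_, hi n⟩
      rw [resid_of_mem A h1, h2, resid_of_mem A (hi n)]
  · intro x hx hi
    refine ⟨polInf_smul hx σ⁻¹, ?_, ?_⟩
    · intro n
      rw [coe_arithmeticGalois_smul, coeffMap_coeff]
      exact (IsFrobAt_inv hσ ⟨_, hi n⟩).1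
    · ext n
      rw [coeffMap_coeff, rd_coeff, coe_arithmeticGalois_smul, coeffMap_coeff, rd_coeff, hφ]
      obtain ⟨h1, h2⟩ := IsFrobAt_inv hσ ⟨_, hi n⟩
      have h3 : ((σ⁻¹ : Qb ≃ₐ[ℚ] Qb) : Qb →+* Qb) ((x : LaurentSeries Qb).coeff n) ∈ A := h1
      rw [resid_of_mem A h3, resid_of_mem A (hi n)]
      exact h2

/-- level packages exist if the charts exist -/
theorem hasPacks_of_charts {ℓ : ℕ} (hℓ : ℓ.Prime) (hA : A.LiesOverPrime ℓ)
    (h : ∀ (M : ℕ) [NeZero M], Nat.Coprime ℓ M → (2 ∣ M ∨ 3 ∣ M) →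
      ∃ C : TwoCharts (modRed M A), (C.t₁ : modularFunctionFieldBar M) = jBar M) :
    Q.HasPacks A ℓ := by
  intro M hM hc hd
  obtain ⟨C, hC⟩ := h M hc hd
  exact exists_levelPack hℓ hA (Q.natCast_residue_ne_zero hℓ hA hc) C hC

end Fermat.Agent.H11Q
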