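import Fermat.Agent.H11Q.LevelMod
import Fermat.Agent.H28.ModCharts
import Fermat.Agent.H29.GR

/-!
# The level packages exist
-/

set_option autoImplicit false

noncomputable section

namespace Fermat.Agent.H11Q

open ModularCurve

local notation "Qb" => AlgebraicClosure ℚ

/-- **Level packages exist at all levels divisible by `2` or `3`.** -/
theorem hasPacks {A : ValuationSubring Qb} {ℓ : ℕ} (hℓ : ℓ.Prime) (hA : A.LiesOverPrime ℓ) :
    Q.HasPacks A ℓ := by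
  refine hasPacks_of_charts hℓ hA fun M hM hc hd => ?_
  have hdiv : ¬ ℓ ∣ M := (Nat.Prime.coprime_iff_not_dvd hℓ).1 hc
  have hyp : ¬ ℓ ∣ M ∧ ((2 ∣ M ∧ ℓ ≠ 2) ∨ (3 ∣ M ∧ ℓ ≠ 3)) := by
    refine ⟨hdiv, ?_⟩
    rcases hd with h | h
    · exact Or.inl ⟨h, fun h0 => hdiv (h0 ▸ h)⟩
    · exact Or.inr ⟨h, fun h0 => hdiv (h0 ▸ h)⟩
  exact ⟨H28.modCharts M A (H29.isChart_j hℓ hA hyp) (H29.isChart_jinv hℓ hA hyp), rfl⟩

end Fermat.Agent.H11Q
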