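import Fermat.Agent.H11Q.Basic
import Fermat.Agent.FF.Basic

/-!
# The residue field is algebraically closed; roots of unity in Laurent series
-/

set_option autoImplicit false

noncomputable section

open IsLocalRing ModularCurve Module

attribute [-instance] HahnSeries.instModule HahnSeries.instSMul HahnSeries.instDistribMulAction
  HahnSeries.instSMulZeroClass

namespace Fermat.Agent.H11Q

theorem isAlgClosed_residueField {K : Type*} [Field K] [IsAlgClosed K] (A : ValuationSubring K) :
    IsAlgClosed (ResidueField A) := by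
  apply IsAlgClosed.of_exists_root
  intro p hp hirr
  have hlift : p ∈ Polynomial.lifts (residue A) :=
    (Polynomial.lifts_iff_coeff_lifts p).2 fun n => residue_surjective _
  obtain ⟨P, hP, hdeg, hmon⟩ := Polynomial.lifts_and_natDegree_eq_and_monic hlift hp
  have hdeg' : (P.map A.subtype).degree ≠ 0 := by
    rw [Polynomial.degree_map_eq_of_injective (Subtype.val_injective)]
    rw [Polynomial.degree_eq_natDegree hmon.ne_zero, hdeg]
    have := hirr.natDegree_pos
    exact_mod_cast this.ne'
  obtain ⟨x, hx⟩ := IsAlgClosed.exists_root _ hdeg'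
  have hint : IsIntegral A x := by
    refine ⟨P, hmon, ?_⟩
    rw [Polynomial.IsRoot.def, Polynomial.eval_map] at hx
    exact hx
  obtain ⟨y, hy⟩ := IsIntegrallyClosed.isIntegral_iff.1 hint
  refine ⟨residue A y, ?_⟩
  rw [← hP, Polynomial.eval_map, Polynomial.eval₂_hom]
  have h1 : P.eval y = 0 := by
    apply Subtype.val_injective
    change A.subtype (P.eval y) = A.subtype 0
    rw [map_zero, ← Polynomial.eval₂_hom, ← Polynomial.eval_map]
    have h2 : A.subtype y = x := hy
    rw [h2]
    exact hx
  rw [h1, map_zero]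

/-- elements with the same `m`-th power differ by a constant -/
theorem exists_const_of_pow_eq {k : Type*} [Field k] [IsAlgClosed k] {L : Type*} [Field L]
    [Algebra k L] {x y : L} {m : ℕ} (hm : m ≠ 0) (h : x ^ m = y ^ m) :
    ∃ c : k, c ^ m = 1 ∧ x = algebraMap k L c * y := by
  rcases eq_or_ne y 0 with rfl | hy
  · rw [zero_pow hm] at h
    exact ⟨1, one_pow m, by rw [pow_eq_zero_iff hm |>.1 h, mul_zero]⟩
  have h1 : (x / y) ^ m = 1 := by
    rw [div_pow, h, div_self (pow_ne_zero _ hy)]
  have h2 : x / y ∈ Set.range (algebraMap k L) := by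
    by_contra hcon
    have h3 := FF.transcendental_of_not_mem_range hcon
    apply h3
    refine ⟨Polynomial.X ^ m - 1, ?_, ?_⟩
    · exact (Polynomial.monic_X_pow_sub_C (1 : k) hm).ne_zero
    · rw [map_sub, map_pow, Polynomial.aeval_X, map_one, h1, sub_self]
  obtain ⟨c, hc⟩ := h2
  refine ⟨c, ?_, ?_⟩
  · rw [← hc, ← map_pow] at h1
    exact (algebraMap k L).injective (by rw [h1, map_one])
  · rw [hc, div_mul_cancel₀ _ hy]

end Fermat.Agent.H11Q
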