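import Fermat.Agent.H11Q.Connected

/-!
# Connectedness: the contradiction
-/

set_option autoImplicit false

noncomputable section

open IsLocalRing ModularCurve Module AlgebraicCurve

attribute [-instance] HahnSeries.instModule HahnSeries.instSMul HahnSeries.instDistribMulAction
  HahnSeries.instSMulZeroClass

namespace Fermat.Agent.H11Q

universe uK uF

variable {K : Type uK} [Field K] {A : ValuationSubring K} {F : Type uF} [Field F] [Algebra K F]
variable {T : TwoComp K A F}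

theorem numF_zero : NumF (0 : LaurentSeries K) := by
  have := numF_algebraMap (0 : K)
  rwa [map_zero] at this

theorem nice_sum {ι : Type*} (s : Finset ι) (x : ι → LaurentSeries K)
    (h : ∀ i ∈ s, NumF (x i) ∧ Bdd A (x i)) : NumF (∑ i ∈ s, x i) ∧ Bdd A (∑ i ∈ s, x i) := by
  classical
  induction s using Finset.induction_on with
  | empty =>
    rw [Finset.sum_empty]
    exact ⟨numF_zero, IsInt.zero.bdd⟩
  | insert a s ha ih =>
    rw [Finset.sum_insert ha]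
    have h1 := h a (Finset.mem_insert_self _ _)
    have h2 := ih fun i hi => h i (Finset.mem_insert_of_mem hi)
    exact ⟨h1.1.add h2.1, h1.2.add h2.2⟩

theorem low_sum {R ι : Type*} [CommRing R] (s : Finset ι) (x : ι → LaurentSeries R) {n : ℤ}
    (h : ∀ i ∈ s, Low (x i) n) : Low (∑ i ∈ s, x i) n := by
  classical
  induction s using Finset.induction_on with
  | empty => rw [Finset.sum_empty]; exact low_zero n
  | insert a s ha ih =>
    rw [Finset.sum_insert ha]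
    exact (h a (Finset.mem_insert_self _ _)).add (ih fun i hi => h i (Finset.mem_insert_of_mem hi))

variable {p : ℕ} {f : F} {w : Good T p f} {ζ : K} (c : Cov w ζ)

theorem Cov.Mem.nice {c : Cov w ζ} {x : c.L} (hx : c.Mem x) (t : ℕ) (j : Fin 2) :
    NumF (c.e t j x) ∧ Bdd A (c.e t j x) := by
  obtain ⟨z, hz, rfl⟩ := hx
  rw [c.e_sum]
  refine nice_sum _ _ fun i _ => ?_
  have h := (w.pow (i : ℕ)).G_nice (hz i) j
  exact ⟨h.1.smul _, h.2.smul _⟩

section Main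

variable [IsAlgClosed K] [FF.FunField K F]
variable [CharZero K] [Algebra.IsAlgebraic ℤ K] {q : ℕ} (hq : q.Prime)
  (hqA : (q : K) ∈ A.nonunits)

include hq hqA

/-- `w.pow i` has trivial twists if `w` does -/
theorem IsZeta.pow_one {ν : NodeData T} (h : IsZeta ν w 1) (i : ℕ) : IsZeta ν (w.pow i) 1 := by
  obtain ⟨ζ', hζ'⟩ := exists_isZeta hq hqA ν (w.pow i)
  have := h.pow' hζ'
  rw [_root_.one_pow] at this
  rwa [this] at hζ'

theorem Cov.exists_E (ν : NodeData T) (hζ : IsPrimitiveRoot ζ p) (hp : p.Prime)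
    (hpA : resid A (p : K) ≠ 0) (h1 : IsZeta ν w 1) :
    ∃ E : c.L, c.Mem E ∧ (∀ t < p, ∀ j, IsInt A (c.e t j E)) ∧
      ∀ t < p, ∀ j, rd A (c.e t j E) = if t = 1 then 1 else 0 := by
  have hpA' := (resid_ne_zero_iff A (natCast_mem A p)).1 hpA
  have hζA : ζ ∈ A := mem_of_pow_eq_one hp.ne_zero hζ.pow_eq_one
  have hζA' : ζ⁻¹ ∈ A := mem_of_pow_eq_one (n := p) hp.ne_zero (by
    rw [inv_pow, hζ.pow_eq_one, inv_one])
  have hex : ∀ i : Fin p, ∃ z, ∃ hz : (w.pow (i : ℕ)).IsM z,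
      ∀ j, ((w.pow (i : ℕ)).R z hz j : LaurentSeries (ResidueField A)) =
        algebraMap _ _ (resid A ((p : K)⁻¹ * (ζ⁻¹) ^ (i : ℕ))) := by
    intro i
    obtain ⟨n₀, hn₀⟩ := (h1.pow_one hq hqA (i : ℕ)).surj
    set a : Fin 2 → T.O := fun _ => algebraMap _ _ (resid A ((p : K)⁻¹ * (ζ⁻¹) ^ (i : ℕ))) with ha
    have haX : a ∈ XO T n₀ := by
      intro j
      change Low (algebraMap _ _ (resid A ((p : K)⁻¹ * (ζ⁻¹) ^ (i : ℕ)))) _
      rw [algebraMap_laurentSeries_eq_single]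
      intro l hl
      rw [HahnSeries.coeff_single_of_ne (by omega)]
    obtain ⟨z, -, hz, hR⟩ := hn₀ n₀ le_rfl a haX (fun l => by
      rw [Pi.one_apply, one_mul, ha, AlgHom.commutes, AlgHom.commutes])
    exact ⟨z, hz, fun j => by rw [hR]; rfl⟩
  choose z hz hR using hex
  have hG : ∀ (i : Fin p) j, rd A ((w.pow (i : ℕ)).G j (z i)) =
      algebraMap _ _ (resid A ((p : K)⁻¹ * (ζ⁻¹) ^ (i : ℕ))) := fun i j => hR i j
  have hcA : ∀ i : ℕ, (p : K)⁻¹ * (ζ⁻¹) ^ i ∈ A := fun i =>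
    A.mul_mem _ _ hpA'.1 (A.toSubring.pow_mem hζA' _)
  have hint : ∀ t j, ∀ i : Fin p, IsInt A ((ζ ^ (t * (i : ℕ))) • (w.pow (i : ℕ)).G j (z i)) :=
    fun t j i => ((hz i).2 j).smul (A.toSubring.pow_mem hζA _)
  refine ⟨∑ i : Fin p, algebraMap F c.L (z i) * c.h ^ (i : ℕ), ⟨z, fun i => (hz i).1, rfl⟩,
    fun t _ j => ?_, fun t ht j => ?_⟩
  · rw [c.e_sum]
    exact IsInt.sum _ _ fun i _ => hint t j i
  · rw [c.e_sum, rd_sum _ _ fun i _ => hint t j i]
    have h2 : ∀ i : Fin p, rd A ((ζ ^ (t * (i : ℕ))) • (w.pow (i : ℕ)).G j (z i)) =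
        algebraMap (ResidueField A) (LaurentSeries (ResidueField A))
          (resid A ((p : K)⁻¹ * (ζ ^ t * (ζ⁻¹) ^ 1) ^ (i : ℕ))) := by
      intro i
      rw [rd_smul (A.toSubring.pow_mem hζA _) ((hz i).2 j), hG, Algebra.smul_def, ← map_mul,
        ← resid_mul A (A.toSubring.pow_mem hζA _) (hcA i)]
      congr 2
      rw [mul_pow, ← pow_mul, pow_one]
      ring
    rw [Finset.sum_congr rfl fun i _ => h2 i, ← map_sum]
    have h3 : ∀ s : Finset (Fin p), ∑ i ∈ s, resid A ((p : K)⁻¹ * (ζ ^ t * (ζ⁻¹) ^ 1) ^ (i : ℕ)) =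
        resid A (∑ i ∈ s, (p : K)⁻¹ * (ζ ^ t * (ζ⁻¹) ^ 1) ^ (i : ℕ)) ∧
        (∑ i ∈ s, (p : K)⁻¹ * (ζ ^ t * (ζ⁻¹) ^ 1) ^ (i : ℕ)) ∈ A := by
      classical
      intro s
      induction s using Finset.induction_on with
      | empty =>
        rw [Finset.sum_empty, Finset.sum_empty, resid_zero]
        exact ⟨rfl, A.zero_mem⟩
      | insert a s ha ih =>
        have h4 : (p : K)⁻¹ * (ζ ^ t * (ζ⁻¹) ^ 1) ^ (a : ℕ) ∈ A :=
          A.mul_mem _ _ hpA'.1 (A.toSubring.pow_mem (A.mul_mem _ _ (A.toSubring.pow_mem hζA _)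
            (A.toSubring.pow_mem hζA' _)) _)
        rw [Finset.sum_insert ha, Finset.sum_insert ha, ih.1, resid_add A h4 ih.2]
        exact ⟨rfl, A.add_mem _ _ h4 ih.2⟩
    rw [(h3 _).1]
    have h4 : ∑ i : Fin p, (p : K)⁻¹ * (ζ ^ t * (ζ⁻¹) ^ 1) ^ (i : ℕ) = if t = 1 then 1 else 0 := by
      rw [← Finset.mul_sum, Fin.sum_univ_eq_sum_range (fun i => (ζ ^ t * (ζ⁻¹) ^ 1) ^ i) p,
        orth hζ ht hp.one_lt]
      split_ifs
      · exact inv_mul_cancel₀ hpA'.2
      · exact mul_zero _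
    rw [h4]
    split_ifs
    · rw [resid_one, map_one]
    · rw [resid_zero, map_zero]

omit [Algebra.IsAlgebraic ℤ K] in
omit hq hqA in
/-- a function with poles only on copy `0` -/
theorem Cov.exists_Z (hp : p.Prime) :
    ∃ Z : c.L, c.Mem Z ∧ Z ≠ 0 ∧ (∀ t, 1 ≤ t → t < p → ∀ j, Low (c.e t j Z) 0) ∧
      (c.e 1 0 Z).coeff 0 = 0 := by
  classical
  -- choose a large level
  set g := genusFF K F with hg
  set n : ℕ := p * g + g with hn
  have hp2 := hp.two_le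
  let V : Type _ := ∀ i : Fin p, T.M (w.pow (i : ℕ)).D n
  have hdimM : ∀ i : Fin p, finrank K (T.M (w.pow (i : ℕ)).D n) + g = 2 * n + 1 := by
    intro i
    have h1 := TwoComp.finrank_M (T := T) (w.pow (i : ℕ)).D (n := n) (by
      rw [TwoComp.degree_eq_zero w.m_ne (w.pow (i : ℕ)).hD]
      have : g ≤ n := by rw [hn]; omega
      omega)
    rw [TwoComp.degree_eq_zero w.m_ne (w.pow (i : ℕ)).hD] at h1
    omega
  have hdimV : finrank K V + p * g = p * (2 * n + 1) := by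
    have h1 : finrank K V = ∑ i : Fin p, finrank K (T.M (w.pow (i : ℕ)).D n) :=
      finrank_pi_fintype K
    have h2 : ∑ i : Fin p, (finrank K (T.M (w.pow (i : ℕ)).D n) + g) = ∑ _i : Fin p, (2 * n + 1) :=
      Finset.sum_congr rfl fun i _ => hdimM i
    rw [Finset.sum_add_distrib] at h2
    simp only [Finset.sum_const, Finset.card_univ, Fintype.card_fin, smul_eq_mul] at h2
    rw [h1]
    omega
  -- the conditions
  let ε : ℕ → Fin 2 → V →ₗ[K] LaurentSeries K := fun t j =>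
    ∑ i : Fin p, (ζ ^ (t * (i : ℕ))) •
      (((w.pow (i : ℕ)).Glin j).comp ((T.M (w.pow (i : ℕ)).D n).subtype.comp (LinearMap.proj i)))
  have hε : ∀ t j (z : V), ε t j z = c.e t j (∑ i : Fin p, algebraMap F c.L (z i) * c.h ^ (i : ℕ)) := by
    intro t j z
    rw [c.e_sum]
    change (∑ i : Fin p, (ζ ^ (t * (i : ℕ))) • _ : V →ₗ[K] LaurentSeries K) z = _
    rw [LinearMap.sum_apply]
    rfl
  let J : Type := (Fin (p - 1) × Fin 2 × Fin n) ⊕ Unit
  let Ψ : V →ₗ[K] (J → K) := LinearMap.pi fun x => match x with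
    | Sum.inl (t, j, l) => (coeffL K (-((l : ℕ) + 1 : ℤ))).comp (ε ((t : ℕ) + 1) j)
    | Sum.inr _ => (coeffL K 0).comp (ε 1 0)
  have hlt : finrank K (J → K) < finrank K V := by
    have h1 : finrank K (J → K) = (p - 1) * (2 * n) + 1 := by
      rw [finrank_fintype_fun_eq_card]
      simp [J]
    rw [h1]
    obtain ⟨p', rfl⟩ : ∃ p', p = p' + 1 := ⟨p - 1, by omega⟩
    rw [Nat.add_sub_cancel]
    nlinarith
  have hfin : FiniteDimensional K V := Module.Finite.pi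
  have hker := LinearMap.ker_ne_bot_of_finrank_lt (f := Ψ) hlt
  obtain ⟨z, hzker, hz0⟩ := Submodule.exists_mem_ne_zero_of_ne_bot hker
  rw [LinearMap.mem_ker] at hzker
  refine ⟨∑ i : Fin p, algebraMap F c.L (z i) * c.h ^ (i : ℕ),
    ⟨fun i => z i, fun i => (w.pow (i : ℕ)).M_le_MM _ (z i).2, rfl⟩, ?_, fun t ht1 ht2 j => ?_, ?_⟩
  · intro h
    apply hz0
    have h1 := c.indep (fun i => (z i : F)) h
    funext i
    exact Subtype.ext (congrFun h1 i)
  · intro l hl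
    rcases lt_or_ge l (-(n : ℤ)) with h1 | h1
    · have h2 : Low (c.e t j (∑ i : Fin p, algebraMap F c.L (z i) * c.h ^ (i : ℕ))) (-n) := by
        rw [c.e_sum]
        exact low_sum _ _ fun i _ => ((w.pow (i : ℕ)).G_low (z i).2 j).smul _
      exact h2 l h1
    · have h2 := congrFun hzker (Sum.inl (⟨t - 1, by omega⟩, j, ⟨(-l - 1).toNat, by omega⟩))
      change (ε (t - 1 + 1) j z).coeff (-((((-l - 1).toNat : ℕ) : ℤ) + 1)) = 0 at h2
      rw [hε, show t - 1 + 1 = t by omega, show -((((-l - 1).toNat : ℕ) : ℤ) + 1) = l by omega] at h2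
      exact h2
  · have h2 := congrFun hzker (Sum.inr ())
    change (ε 1 0 z).coeff 0 = 0 at h2
    rwa [hε] at h2

omit [IsAlgClosed K] [FF.FunField K F] in
theorem exists_pow_isInt {x y : LaurentSeries K} (hx : IsInt A x) (hx' : NumF x) (hx0 : rd A x = 0)
    (hy : Bdd A y) : ∃ r₀ : ℕ, ∀ r : ℕ, r₀ ≤ r → IsInt A (x ^ r * y) := by
  rcases eq_or_ne x 0 with h0 | h0
  · refine ⟨1, fun r hr => ?_⟩
    rw [h0, zero_pow (by omega), zero_mul]
    exact IsInt.zero
  · obtain ⟨c, hc0, hc, hcx⟩ := (att_of_numF_bdd hq hqA hx' hx.bdd h0).exists_of_rd_eq_zero hx0 hx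
    obtain ⟨d, hd, hdy⟩ := hy
    obtain ⟨r₀, hr₀⟩ := exists_pow_mul_mem (A := A) hq hqA (ε := c) (B := d⁻¹) hc
    have hcA : c ∈ A := A.nonunits_subset hc
    refine ⟨r₀, fun r hr => ?_⟩
    obtain ⟨l, rfl⟩ := Nat.exists_eq_add_of_le hr
    have h1 : x ^ (r₀ + l) * y = (c ^ l * (c ^ r₀ * d⁻¹)) • ((c⁻¹ • x) ^ (r₀ + l) * (d • y)) := by
      rw [smul_pow, smul_mul_smul_comm, smul_smul]
      have h2 : c ^ l * (c ^ r₀ * d⁻¹) * (c⁻¹ ^ (r₀ + l) * d) = 1 := by
        rw [inv_pow, pow_add]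
        field_simp
      rw [h2, one_smul]
    rw [h1]
    exact ((hcx.pow _).mul hdy).smul (A.mul_mem _ _ (A.toSubring.pow_mem hcA _) hr₀)

include c in
theorem Cov.false (ν : NodeData T) (hs : 0 < ν.s) (hζ : IsPrimitiveRoot ζ p) (hp : p.Prime)
    (hpA : resid A (p : K) ≠ 0) (h1 : IsZeta ν w 1) : False := by
  classical
  have hpA' := (resid_ne_zero_iff A (natCast_mem A p)).1 hpA
  have hζA : ζ ∈ A := mem_of_pow_eq_one hp.ne_zero hζ.pow_eq_one
  have hζA' : ζ⁻¹ ∈ A := mem_of_pow_eq_one (n := p) hp.ne_zero (by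
    rw [inv_pow, hζ.pow_eq_one, inv_one])
  obtain ⟨E, hE, hEi, hEr⟩ := c.exists_E hq hqA ν hζ hp hpA h1
  obtain ⟨Z, hZ, hZ0, hZlow, hZ1⟩ := c.exists_Z (ζ := ζ) hp
  have hinj : ∀ t j, c.e t j Z ≠ 0 := fun t j h => hZ0 ((c.e t j).injective (by rw [h, map_zero]))
  -- scale `Z`
  obtain ⟨lam, hlam, hlami, j₀, hj₀⟩ := exists_common_att (A := A) (fun j : Fin 2 => c.e 1 j Z)
    (fun j => att_of_numF_bdd hq hqA (hZ.nice 1 j).1 (hZ.nice 1 j).2 (hinj 1 j))
  set Z' : c.L := algebraMap F c.L (algebraMap K F lam) * Z with hZ'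
  have hZ'm : c.Mem Z' := by
    have h2 := Cov.mem_hom (c := c) (a := 0) (z := algebraMap K F lam) (by
      rw [pow_zero, mul_one]
      exact pow_mem (Subalgebra.algebraMap_mem _ _) _)
    rw [pow_zero, mul_one] at h2
    exact h2.mul hZ
  have hZ'e : ∀ t j, c.e t j Z' = lam • c.e t j Z := by
    intro t j
    rw [hZ', map_mul, c.e_alg, AlgHom.commutes, Algebra.smul_def]
  -- choose a large power
  have hr : ∀ t : Fin p, ∀ j : Fin 2, (t : ℕ) ≠ 1 →
      ∃ r₀ : ℕ, ∀ r : ℕ, r₀ ≤ r → IsInt A (c.e t j E ^ r * c.e t j Z') := by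
    intro t j ht
    refine exists_pow_isInt hq hqA (hEi t t.2 j) (hE.nice t j).1 ?_ (hZ'm.nice t j).2
    rw [hEr t t.2 j, if_neg ht]
  choose! r₀ hr₀ using hr
  set r := Finset.univ.sup fun tj : Fin p × Fin 2 => r₀ tj.1 tj.2 with hrdef
  set Y : c.L := E ^ r * Z' with hY
  have hYm : c.Mem Y := (hE.pow r).mul hZ'm
  have hYint : ∀ t < p, ∀ j, IsInt A (c.e t j Y) := by
    intro t ht j
    rw [hY, map_mul, map_pow]
    by_cases h2 : t = 1
    · subst h2
      refine ((hEi 1 ht j).pow r).mul ?_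
      rw [hZ'e]
      exact hlami j
    · exact hr₀ ⟨t, ht⟩ j h2 r (Finset.le_sup (f := fun tj : Fin p × Fin 2 => r₀ tj.1 tj.2)
        (Finset.mem_univ (⟨⟨t, ht⟩, j⟩ : Fin p × Fin 2)))
  obtain ⟨y, hy, hYy⟩ := hYm
  have hGy : ∀ (l : Fin p) j, IsInt A ((w.pow (l : ℕ)).G j (y l)) := by
    intro l j
    have h2 := c.fourier hζ j y l
    rw [← hYy] at h2
    have h3 : (w.pow (l : ℕ)).G j (y l) = (p : K)⁻¹ •
        ∑ t ∈ Finset.range p, ((ζ⁻¹) ^ (l : ℕ)) ^ t • c.e t j Y := by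
      rw [h2, smul_smul, inv_mul_cancel₀ hpA'.2, one_smul]
    rw [h3]
    refine (IsInt.sum _ _ fun t ht => ?_).smul hpA'.1
    exact (hYint t (Finset.mem_range.1 ht) j).smul
      (A.toSubring.pow_mem (A.toSubring.pow_mem hζA' _) _)
  have hyM : ∀ l : Fin p, (w.pow (l : ℕ)).IsM (y l) := fun l => ⟨hy l, hGy l⟩
  -- the reductions on copy `1`
  let b : Fin 2 → T.O := fun j =>
    ∑ i : Fin p, resid A (ζ ^ (i : ℕ)) • (w.pow (i : ℕ)).R (y i) (hyM i) j
  have hb : ∀ j, (b j : LaurentSeries (ResidueField A)) = rd A (c.e 1 j Y) := by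
    intro j
    rw [hYy, c.e_sum, rd_sum _ _ fun i _ => (hGy i j).smul (A.toSubring.pow_mem hζA _)]
    change ((∑ i : Fin p, resid A (ζ ^ (i : ℕ)) • (w.pow (i : ℕ)).R (y i) (hyM i) j : T.O) :
      LaurentSeries (ResidueField A)) = _
    rw [AddSubmonoidClass.coe_finsetSum]
    refine Finset.sum_congr rfl fun i _ => ?_
    rw [one_mul, rd_smul (A.toSubring.pow_mem hζA _) (hGy i j)]
    rfl
  have hcompat : ∀ l, ν.α l (b 0) = ν.β l (b 1) := by
    intro l
    change ν.α l (∑ i : Fin p, _) = ν.β l (∑ i : Fin p, _)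
    rw [map_sum, map_sum]
    refine Finset.sum_congr rfl fun i _ => ?_
    rw [map_smul, map_smul, (h1.pow_one hq hqA (i : ℕ)).rel (y i) (hyM i) l, Pi.one_apply, one_mul]
  have hb' : ∀ j, (b j : LaurentSeries (ResidueField A)) = rd A (lam • c.e 1 j Z) := by
    intro j
    rw [hb, hY, map_mul, map_pow, hZ'e, rd_mul ((hEi 1 hp.one_lt j).pow r) (hlami j),
      rd_pow (hEi 1 hp.one_lt j), hEr 1 hp.one_lt j, if_pos rfl, _root_.one_pow, one_mul]
  have hblow : ∀ j, Low (b j : LaurentSeries (ResidueField A)) 0 := by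
    intro j
    rw [hb']
    exact ((hZlow 1 le_rfl hp.one_lt j).smul _).rd
  choose k hk using fun j => T.O_const (b j) (b j).2 (hblow j)
  have hbk : ∀ j, b j = algebraMap _ _ (k j) := fun j => Subtype.ext (hk j)
  have h01 : k 0 = k 1 := by
    have h2 := hcompat ⟨0, hs⟩
    rw [hbk 0, hbk 1, AlgHom.commutes, AlgHom.commutes] at h2
    exact h2
  have hk0 : k 0 = 0 := by
    have h2 : (b 0 : LaurentSeries (ResidueField A)).coeff 0 = 0 := by
      rw [hb', rd_coeff, coeff_smul', hZ1, mul_zero, resid_zero]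
    rw [hk 0, algebraMap_laurentSeries_eq_single, HahnSeries.coeff_single_same] at h2
    exact h2
  have hkj : k j₀ = 0 := by
    have h2 : j₀ = 0 ∨ j₀ = 1 := by omega
    rcases h2 with h2 | h2
    · rw [h2]; exact hk0
    · rw [h2, ← h01]; exact hk0
  apply hj₀
  rw [← hb', hk, hkj, map_zero]

end Main

end Fermat.Agent.H11Q
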