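import Fermat.Agent.H11Q.Inject

/-!
# Transport of structure: Galois action on classes with trivial reduction
-/

set_option autoImplicit false

noncomputable section

open IsLocalRing ModularCurve Module AlgebraicCurve

attribute [-instance] HahnSeries.instModule HahnSeries.instSMul HahnSeries.instDistribMulAction
  HahnSeries.instSMulZeroClass

namespace Fermat.Agent.H11Q

universe uK uF

variable {K : Type uK} [Field K] {A : ValuationSubring K} {F : Type uF} [Field F] [Algebra K F]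
variable {T : TwoComp K A F}

/-- a semilinear automorphism compatible with all the data, and fixing the nodes -/
structure SemAct (T : TwoComp K A F) (ν : NodeData T) where
  σ : K →+* K
  S : F →+* F
  τ : ResidueField A →+* ResidueField A
  memA : ∀ a ∈ A, σ a ∈ A
  S_e : ∀ j z, T.e j (S z) = coeffMap σ (T.e j z)
  S_R : ∀ z ∈ T.Rg, S z ∈ T.Rg
  S_dvd : ∀ (m : ℕ) (z : F), z ≠ 0 → (∀ v : Place K F, (m : ℤ) ∣ v.ord z) →
    ∀ v : Place K F, (m : ℤ) ∣ v.ord (S z)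
  resid_σ : ∀ a ∈ A, resid A (σ a) = τ (resid A a)
  κ_τ : ∀ u ∈ T.κ, coeffMap τ u ∈ T.κ
  O_τ : ∀ u ∈ T.O, coeffMap τ u ∈ T.O
  α_τ : ∀ i (a : T.O), ν.α i ⟨coeffMap τ a, O_τ a a.2⟩ = τ (ν.α i a)
  β_τ : ∀ i (a : T.O), ν.β i ⟨coeffMap τ a, O_τ a a.2⟩ = τ (ν.β i a)

namespace SemAct

variable {ν : NodeData T} (s : SemAct T ν)

include s in
theorem isInt_map {x : LaurentSeries K} (hx : IsInt A x) : IsInt A (coeffMap s.σ x) :=
  fun n => s.memA _ (hx n)

theorem rd_map {x : LaurentSeries K} (hx : IsInt A x) :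
    rd A (coeffMap s.σ x) = coeffMap s.τ (rd A x) := by
  ext n
  rw [rd_coeff, coeffMap_coeff, coeffMap_coeff, rd_coeff, s.resid_σ _ (hx n)]

theorem unitLead_map {x : LaurentSeries K} {n : ℤ} (hx : UnitLead A x n) :
    UnitLead A (coeffMap s.σ x) n where
  int := s.isInt_map hx.int
  below i hi := by rw [coeffMap_coeff, hx.below i hi, map_zero]
  lead := by
    rw [coeffMap_coeff, s.resid_σ _ (hx.int n)]
    exact (map_ne_zero s.τ).2 hx.lead

theorem numF_map {x : LaurentSeries K} (hx : NumF x) : NumF (coeffMap s.σ x) := by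
  classical
  obtain ⟨S, hS⟩ := hx
  refine ⟨S.image s.σ, fun n => ?_⟩
  rw [coeffMap_coeff]
  have h1 : Subfield.closure (S : Set K) ≤
      (Subfield.closure ((S.image s.σ : Finset K) : Set K)).comap s.σ := by
    rw [Subfield.closure_le]
    intro a ha
    exact Subfield.subset_closure (by
      rw [Finset.coe_image]
      exact ⟨a, ha, rfl⟩)
  exact h1 (hS n)

section Main

variable [IsAlgClosed K] [FF.FunField K F]
variable [CharZero K]

/-- transport of good functions -/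
def mapGood {m : ℕ} {f : F} (w : Good T m f) : Good T m (s.S f) where
  m_ne := w.m_ne
  f_ne := (map_ne_zero s.S).2 w.f_ne
  f_mem := s.S_R _ w.f_mem
  D := (TwoComp.exists_D (K := K) (F := F) (m := m) (f := s.S f)
    (s.S_dvd m f w.f_ne fun v => ⟨w.D v, (w.hD v).symm⟩)).choose
  hD := (TwoComp.exists_D (K := K) (F := F) (m := m) (f := s.S f)
    (s.S_dvd m f w.f_ne fun v => ⟨w.D v, (w.hD v).symm⟩)).choose_spec
  H j := coeffMap s.σ (w.H j)
  n := w.n
  H_lead j := s.unitLead_map (w.H_lead j)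
  H_num j := s.numF_map (w.H_num j)
  H_pow j := by rw [← map_pow, w.H_pow, s.S_e]
  H_mem j := by
    rw [s.rd_map (w.H_lead j).int]
    exact s.κ_τ _ (w.H_mem j)

theorem map_G {m : ℕ} {f : F} (w : Good T m f) (j : Fin 2) (z : F) :
    (s.mapGood w).G j (s.S z) = coeffMap s.σ (w.G j z) := by
  change T.e j (s.S z) * coeffMap s.σ (w.H j) = coeffMap s.σ (T.e j z * w.H j)
  rw [s.S_e, map_mul]

theorem isZeta_map {m : ℕ} {f : F} {w : Good T m f} {ζ ζ' : Fin ν.s → ResidueField A}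
    (h : IsZeta ν w ζ) (h' : IsZeta ν (s.mapGood w) ζ') (i : Fin ν.s) : ζ' i = s.τ (ζ i) := by
  obtain ⟨z, hz, hb⟩ := h.exists_ne i
  have hM : (s.mapGood w).IsM (s.S z) := by
    refine ⟨?_, fun j => ?_⟩
    · rw [← map_pow, ← map_mul]
      exact s.S_R _ hz.1
    · rw [s.map_G]
      exact s.isInt_map (hz.2 j)
  have hR : ∀ j, (s.mapGood w).R (s.S z) hM j =
      ⟨coeffMap s.τ (w.R z hz j), s.O_τ _ (w.R z hz j).2⟩ := by
    intro j
    apply Subtype.ext
    change rd A ((s.mapGood w).G j (s.S z)) = coeffMap s.τ (rd A (w.G j z))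
    rw [s.map_G, s.rd_map (hz.2 j)]
  have h1 := h'.rel _ hM i
  rw [hR, hR, s.α_τ, s.β_τ, h.rel z hz i, hb, mul_one, map_one, mul_one] at h1
  exact h1.symm

variable [Algebra.IsAlgebraic ℤ K] {q : ℕ} (hq : q.Prime)
  (hqA : (q : K) ∈ A.nonunits)

include hq hqA

/-- the action on classes with trivial reductions is through a power map -/
theorem exists_eq_pow_mul {m N : ℕ} (hm : resid A (m : K) ≠ 0)
    (hN : ∀ c : ResidueField A, c ^ m = 1 → s.τ c = c ^ N) {f : F} (hf : InT T m f) :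
    ∃ g : F, g ≠ 0 ∧ s.S f = f ^ N * g ^ m := by
  obtain ⟨y, hy, ⟨w⟩⟩ := hf.exists_good hq hqA ν hm
  have hm0 : m ≠ 0 := w.m_ne
  obtain ⟨ζ, hζ⟩ := exists_isZeta hq hqA ν w
  obtain ⟨ζ', hζ'⟩ := exists_isZeta hq hqA ν (s.mapGood w)
  obtain ⟨ζ₂, hζ₂⟩ := exists_isZeta hq hqA ν (w.pow ((m - 1) * N))
  obtain ⟨ζ₃, hζ₃⟩ := exists_isZeta hq hqA ν ((s.mapGood w).mul (w.pow ((m - 1) * N)))
  have h1 := hζ'.mul hζ₂ hζ₃
  have h2 := hζ.pow' hζ₂
  have h3 : ∀ i, ζ₃ i = 1 := by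
    intro i
    rw [h1, h2, Pi.mul_apply, Pi.pow_apply, s.isZeta_map hζ hζ' i, hN _ (hζ.pow i), ← pow_add]
    have h4 : N + (m - 1) * N = m * N := by
      obtain ⟨n, rfl⟩ : ∃ n, m = n + 1 := Nat.exists_eq_succ_of_ne_zero hm0
      rw [Nat.add_sub_cancel]
      ring
    rw [h4, pow_mul, hζ.pow, one_pow]
  obtain ⟨g, hg⟩ := exists_pow_of_isZeta hq hqA ν m hm _ _ ζ₃ hζ₃ (fun i j => by rw [h3, h3])
  have hSy : s.S y ≠ 0 := (map_ne_zero s.S).2 hy
  have hf0 := hf.ne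
  have hSf : s.S f ≠ 0 := (map_ne_zero s.S).2 hf0
  have hg0 : g ≠ 0 := by
    rintro rfl
    rw [zero_pow hm0] at hg
    exact ((s.mapGood w).mul (w.pow ((m - 1) * N))).f_ne hg.symm
  refine ⟨g / (s.S y * y ^ ((m - 1) * N) * f ^ N),
    div_ne_zero hg0 (mul_ne_zero (mul_ne_zero hSy (pow_ne_zero _ hy)) (pow_ne_zero _ hf0)), ?_⟩
  rw [div_pow, hg, map_mul, map_pow, mul_pow, mul_pow, mul_pow]
  have h5 : (f ^ N) ^ m = f ^ ((m - 1) * N) * f ^ N := by
    rw [← pow_mul, ← pow_add]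
    congr 1
    obtain ⟨n, rfl⟩ : ∃ n, m = n + 1 := Nat.exists_eq_succ_of_ne_zero hm0
    rw [Nat.add_sub_cancel]
    ring
  have h6 : (y ^ m) ^ ((m - 1) * N) = (y ^ ((m - 1) * N)) ^ m := by
    rw [← pow_mul, ← pow_mul, mul_comm]
  rw [h5, h6]
  have hy1 : (y ^ ((m - 1) * N)) ^ m ≠ 0 := pow_ne_zero _ (pow_ne_zero _ hy)
  have hy2 : (s.S y) ^ m ≠ 0 := pow_ne_zero _ hSy
  have hf1 : f ^ ((m - 1) * N) ≠ 0 := pow_ne_zero _ hf0
  have hf2 : f ^ N ≠ 0 := pow_ne_zero _ hf0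
  field_simp

end Main

end SemAct

end Fermat.Agent.H11Q
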