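import Fermat.Agent.H11Q.Nodes3
import Fermat.Agent.H11Q.Galois
import Fermat.Agent.H11Q.Swap

/-!
# The final abstract theorems: Galois action on classes with trivial reductions
-/

set_option autoImplicit false

noncomputable section

open IsLocalRing ModularCurve Module AlgebraicCurve

attribute [-instance] HahnSeries.instModule HahnSeries.instSMul HahnSeries.instDistribMulAction
  HahnSeries.instSMulZeroClass

namespace Fermat.Agent.H11Q

universe uK uF

variable {K : Type uK} [Field K] {A : ValuationSubring K} {F : Type uF} [Field F] [Algebra K F]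
variable {T : TwoComp K A F}

/-- a semilinear automorphism compatible with the expansions -/
structure PreAct (T : TwoComp K A F) (q : ℕ) where
  σ : K →+* K
  S : F →+* F
  τ : ResidueField A →+* ResidueField A
  memA : ∀ a ∈ A, σ a ∈ A
  S_e : ∀ j z, T.e j (S z) = coeffMap σ (T.e j z)
  S_R : ∀ z ∈ T.Rg, S z ∈ T.Rg
  S_dvd : ∀ (m : ℕ) (z : F), z ≠ 0 → (∀ v : Place K F, (m : ℤ) ∣ v.ord z) →
    ∀ v : Place K F, (m : ℤ) ∣ v.ord (S z)
  resid_σ : ∀ a ∈ A, resid A (σ a) = τ (resid A a)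
  κ_τ : ∀ u ∈ T.κ, coeffMap τ u ∈ T.κ
  τ_or : (∀ c : ResidueField A, τ c = c) ∨ (∀ c : ResidueField A, τ c = c ^ q ^ 2)

/-- a semilinear automorphism exchanging the two expansions, inducing the Frobenius on the
residue field -/
structure PreSwap (T : TwoComp K A F) (q : ℕ) where
  σ : K →+* K
  S : F →+* F
  τ : ResidueField A →+* ResidueField A
  memA : ∀ a ∈ A, σ a ∈ A
  S_e0 : ∀ z, T.e 0 (S z) = coeffMap σ (T.e 1 z)
  S_e1 : ∀ z, T.e 1 (S z) = coeffMap σ (T.e 0 z)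
  S_R : ∀ z ∈ T.Rg, S z ∈ T.Rg
  S_dvd : ∀ (m : ℕ) (z : F), z ≠ 0 → (∀ v : Place K F, (m : ℤ) ∣ v.ord z) →
    ∀ v : Place K F, (m : ℤ) ∣ v.ord (S z)
  resid_σ : ∀ a ∈ A, resid A (σ a) = τ (resid A a)
  κ_τ : ∀ u ∈ T.κ, coeffMap τ u ∈ T.κ
  τ_pow : ∀ c : ResidueField A, τ c = c ^ q

namespace Raw

variable {q : ℕ} [NeZero q] (ρ : Raw T q) {ν : NodeData T}
  (hν : ∀ i (a : T.O), ν.α i a = ν.β i (ρ.V a) ∧ ν.β i a = ν.α i (ρ.V a))

include ρ in
theorem O_frob_mem (φ : ResidueField A →+* ResidueField A) (hφ : ∀ c, φ c = c ^ q)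
    {u : LaurentSeries (ResidueField A)} (hu : u ∈ T.O) : coeffMap φ u ∈ T.O :=
  (ρ.O_frob φ hφ u).2 hu

theorem V_coeffMap (hq : q.Prime) [CharP (ResidueField A) q]
    (φ : ResidueField A →+* ResidueField A) (hφ : ∀ c, φ c = c ^ q) (u : T.O) :
    ρ.V ⟨coeffMap φ u, ρ.O_frob_mem φ hφ u.2⟩ = u ^ q := by
  have : Fact q.Prime := ⟨hq⟩
  have h1 : φ = frobenius (ResidueField A) q := RingHom.ext hφ
  apply Subtype.ext
  rw [coe_V, SubmonoidClass.coe_pow, Q.pow_char q, ← h1]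

theorem coeffMap_comp (φ ψ : ResidueField A →+* ResidueField A)
    (u : LaurentSeries (ResidueField A)) :
    coeffMap (φ.comp ψ) u = coeffMap φ (coeffMap ψ u) := by
  ext n
  rw [coeffMap_coeff, coeffMap_coeff, coeffMap_coeff, RingHom.comp_apply]

include hν in
theorem α_frob (hq : q.Prime) [CharP (ResidueField A) q]
    (φ : ResidueField A →+* ResidueField A) (hφ : ∀ c, φ c = c ^ q) (i : Fin ν.s) (u : T.O) :
    ν.α i ⟨coeffMap φ u, ρ.O_frob_mem φ hφ u.2⟩ = φ (ν.β i u) := by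
  rw [(hν i _).1, ρ.V_coeffMap hq φ hφ, map_pow, hφ]

include hν in
theorem β_frob (hq : q.Prime) [CharP (ResidueField A) q]
    (φ : ResidueField A →+* ResidueField A) (hφ : ∀ c, φ c = c ^ q) (i : Fin ν.s) (u : T.O) :
    ν.β i ⟨coeffMap φ u, ρ.O_frob_mem φ hφ u.2⟩ = φ (ν.α i u) := by
  rw [(hν i _).2, ρ.V_coeffMap hq φ hφ, map_pow, hφ]

include hν in
theorem τ_nodes (hq : q.Prime) [CharP (ResidueField A) q]
    (τ : ResidueField A →+* ResidueField A)
    (hτ : (∀ c : ResidueField A, τ c = c) ∨ (∀ c : ResidueField A, τ c = c ^ q ^ 2))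
    (a : T.O) : ∃ h : coeffMap τ (a : LaurentSeries (ResidueField A)) ∈ T.O,
      (∀ i, ν.α i ⟨coeffMap τ a, h⟩ = τ (ν.α i a)) ∧
      ∀ i, ν.β i ⟨coeffMap τ a, h⟩ = τ (ν.β i a) := by
  rcases hτ with hτ | hτ
  · have h1 : coeffMap τ (a : LaurentSeries (ResidueField A)) = a := by
      ext n
      rw [coeffMap_coeff, hτ]
    have h2 : ∀ h, (⟨coeffMap τ (a : LaurentSeries (ResidueField A)), h⟩ : T.O) = a :=
      fun h => Subtype.ext h1
    refine ⟨by rw [h1]; exact a.2, fun i => ?_, fun i => ?_⟩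
    · rw [h2, hτ]
    · rw [h2, hτ]
  · have : Fact q.Prime := ⟨hq⟩
    set φ := frobenius (ResidueField A) q with hφdef
    have hφ : ∀ c, φ c = c ^ q := fun c => rfl
    have h1 : τ = φ.comp φ := by
      ext c
      rw [hτ, RingHom.comp_apply, hφ, hφ, ← pow_mul, pow_two]
    set b : T.O := ⟨coeffMap φ a, ρ.O_frob_mem φ hφ a.2⟩ with hb
    set c : T.O := ⟨coeffMap φ b, ρ.O_frob_mem φ hφ b.2⟩ with hc
    have h3 : coeffMap τ (a : LaurentSeries (ResidueField A)) = c := by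
      rw [h1, coeffMap_comp]
    have h2 : ∀ h, (⟨coeffMap τ (a : LaurentSeries (ResidueField A)), h⟩ : T.O) = c :=
      fun h => Subtype.ext h3
    refine ⟨by rw [h3]; exact c.2, fun i => ?_, fun i => ?_⟩
    · rw [h2, hc, ρ.α_frob hν hq φ hφ, hb, ρ.β_frob hν hq φ hφ, h1, RingHom.comp_apply]
    · rw [h2, hc, ρ.β_frob hν hq φ hφ, hb, ρ.α_frob hν hq φ hφ, h1, RingHom.comp_apply]

/-- a `PreAct` fixes the nodes -/
def semAct (hq : q.Prime) [CharP (ResidueField A) q] (s : PreAct T q) : SemAct T ν where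
  σ := s.σ
  S := s.S
  τ := s.τ
  memA := s.memA
  S_e := s.S_e
  S_R := s.S_R
  S_dvd := s.S_dvd
  resid_σ := s.resid_σ
  κ_τ := s.κ_τ
  O_τ u hu := (ρ.τ_nodes hν hq s.τ s.τ_or ⟨u, hu⟩).choose
  α_τ i a := (ρ.τ_nodes hν hq s.τ s.τ_or a).choose_spec.1 i
  β_τ i a := (ρ.τ_nodes hν hq s.τ s.τ_or a).choose_spec.2 i

/-- a `PreSwap` is compatible with the nodes -/
def swapAct (hq : q.Prime) [CharP (ResidueField A) q] (s : PreSwap T q) : SwapAct T ν where
  σ := s.σ
  S := s.S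
  τ := s.τ
  memA := s.memA
  S_e j z := by
    rcases fin2_cases j with rfl | rfl
    · rw [swp_zero]; exact s.S_e0 z
    · rw [swp_one]; exact s.S_e1 z
  S_R := s.S_R
  S_dvd := s.S_dvd
  resid_σ := s.resid_σ
  κ_τ := s.κ_τ
  O_τ _ hu := ρ.O_frob_mem s.τ s.τ_pow hu
  α_τ i a := ρ.α_frob hν hq s.τ s.τ_pow i a
  β_τ i a := ρ.β_frob hν hq s.τ s.τ_pow i a

end Raw

section Main

variable [IsAlgClosed K] [FF.FunField K F]
variable [CharZero K] [Algebra.IsAlgebraic ℤ K] {q : ℕ} [NeZero q] (hq : q.Prime)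
  (hqA : (q : K) ∈ A.nonunits)

include hq hqA

/-- **Main abstract theorem.** A semilinear automorphism over a residue automorphism `τ`
(trivial, or the square of Frobenius), acting on `μ_m` by the `N`-th power, acts on the classes
with trivial reductions by the `N`-th power. -/
theorem PreAct.exists_eq_pow_mul (ρ : Raw T q) (s : PreAct T q) {m N : ℕ}
    (hm : resid A (m : K) ≠ 0) (hN : ∀ c : ResidueField A, c ^ m = 1 → s.τ c = c ^ N) {f : F}
    (hf : InT T m f) : ∃ g : F, g ≠ 0 ∧ s.S f = f ^ N * g ^ m := by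
  obtain ⟨ν, hν⟩ := ρ.exists_nodeData hq hqA
  have := charP_residue (A := A) hq hqA
  exact (ρ.semAct hν hq s).exists_eq_pow_mul hq hqA hm hN hf

/-- **Main abstract theorem, second form.** A semilinear automorphism exchanging the two
components, over the Frobenius of the residue field, acts on the classes with trivial reductions
by the inverse of the `q`-th power. -/
theorem PreSwap.exists_mul_eq_pow (ρ : Raw T q) (s : PreSwap T q) {m : ℕ}
    (hm : resid A (m : K) ≠ 0) {f : F} (hf : InT T m f) :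
    ∃ g : F, g ≠ 0 ∧ s.S f * f ^ q = g ^ m := by
  obtain ⟨ν, hν⟩ := ρ.exists_nodeData hq hqA
  have := charP_residue (A := A) hq hqA
  exact (ρ.swapAct hν hq s).exists_mul_eq_pow hq hqA hm (fun c _ => s.τ_pow c) hf

end Main

end Fermat.Agent.H11Q
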