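import Fermat.Agent.H11Q.Connected2

/-!
# Injectivity of the twist vector
-/

set_option autoImplicit false

noncomputable section

open IsLocalRing ModularCurve Module AlgebraicCurve

attribute [-instance] HahnSeries.instModule HahnSeries.instSMul HahnSeries.instDistribMulAction
  HahnSeries.instSMulZeroClass

namespace Fermat.Agent.H11Q

universe uK uF

variable {K : Type uK} [Field K] {A : ValuationSubring K} {F : Type uF} [Field F] [Algebra K F]
variable {T : TwoComp K A F}

open Polynomial in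
theorem exists_cov {p : ℕ} (hp : p.Prime) {f : F} (w : Good T p f) {ζ : K} (hζ : ζ ^ p = 1)
    (hf : ∀ g : F, g ^ p ≠ f) : Nonempty (Cov w ζ) := by
  have hirr : Irreducible (X ^ p - C f : F[X]) := X_pow_sub_C_irreducible_of_prime hp hf
  have hfact : Fact (Irreducible (X ^ p - C f : F[X])) := ⟨hirr⟩
  have hev : ∀ t j, Polynomial.eval₂ (T.e j : F →+* LaurentSeries K) (ζ ^ t • w.H j)
      (X ^ p - C f : F[X]) = 0 := by
    intro t j
    rw [eval₂_sub, eval₂_X_pow, eval₂_C, _root_.smul_pow, w.H_pow, ← pow_mul, mul_comm t p, pow_mul, hζ,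
      one_pow, one_smul]
    exact sub_self _
  refine ⟨{
    L := AdjoinRoot (X ^ p - C f : F[X])
    field := inferInstance
    alg := inferInstance
    h := AdjoinRoot.root _
    h_pow := ?_
    e := fun t j => AdjoinRoot.lift (T.e j : F →+* LaurentSeries K) (ζ ^ t • w.H j) (hev t j)
    e_alg := fun t j z => AdjoinRoot.lift_of _
    e_h := fun t j => AdjoinRoot.lift_root _
    indep := ?_ }⟩
  · have h1 := AdjoinRoot.eval₂_root (X ^ p - C f : F[X])
    rw [eval₂_sub, eval₂_X_pow, eval₂_C, sub_eq_zero] at h1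
    exact h1
  · intro z hz
    set P : F[X] := ∑ i : Fin p, C (z i) * X ^ (i : ℕ) with hP
    have h1 : AdjoinRoot.mk (X ^ p - C f : F[X]) P = 0 := by
      rw [hP, map_sum, ← hz]
      refine Finset.sum_congr rfl fun i _ => ?_
      rw [map_mul, map_pow, AdjoinRoot.mk_C, AdjoinRoot.mk_X]
      rfl
    rw [AdjoinRoot.mk_eq_zero] at h1
    have hdeg : (X ^ p - C f : F[X]).degree = p := degree_X_pow_sub_C hp.pos f
    have h2 : P = 0 := by
      apply Polynomial.eq_zero_of_dvd_of_degree_lt h1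
      rw [hdeg, hP, Polynomial.degree_lt_iff_coeff_zero]
      intro l hl
      rw [finsetSum_coeff]
      refine Finset.sum_eq_zero fun i _ => ?_
      rw [coeff_C_mul, coeff_X_pow, if_neg (by have := i.2; omega), mul_zero]
    funext i
    have h3 := congrArg (fun Q : F[X] => Q.coeff i) h2
    simp only [hP, finsetSum_coeff, coeff_C_mul, coeff_X_pow, coeff_zero] at h3
    rw [Finset.sum_eq_single i] at h3
    · simpa using h3
    · intro b _ hb
      rw [if_neg (fun h => hb (Fin.ext h.symm)), mul_zero]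
    · intro h
      exact absurd (Finset.mem_univ _) h

section Main

variable [IsAlgClosed K] [FF.FunField K F]
variable [CharZero K] [Algebra.IsAlgebraic ℤ K] {q : ℕ} (hq : q.Prime)
  (hqA : (q : K) ∈ A.nonunits)

include hq hqA

/-- there is at least one node -/
theorem NodeData.s_pos (ν : NodeData T) : 0 < ν.s := by
  classical
  by_contra hs
  have hs0 : ν.s = 0 := by omega
  have hempty : IsEmpty (Fin ν.s) := by rw [hs0]; infer_instance
  let w : Good T 1 (1 : F) := Good.one T one_ne_zero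
  have hG : ∀ j z, w.G j z = T.e j z := fun j z => mul_one _
  obtain ⟨ζ, hζ⟩ := exists_isZeta hq hqA ν w
  obtain ⟨n₀, hn₀⟩ := hζ.surj
  -- `E` reduces to `(1, 0)`
  obtain ⟨E, -, hE, hER⟩ := hn₀ n₀ le_rfl ![1, 0] (by
    intro j
    fin_cases j
    · exact low_one.mono (by omega)
    · exact low_zero _) (fun i => hempty.elim i)
  have hE1 : E ∈ T.Rg := by
    have := hE.1
    rwa [pow_one, mul_one] at this
  have hEi : ∀ j, IsInt A (T.e j E) := fun j => by
    have := hE.2 j
    rwa [hG] at this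
  have hE0r : rd A (T.e 0 E) = 1 := by
    have h1 := congrFun hER 0
    have h2 := congrArg (Subtype.val) h1
    change rd A (w.G 0 E) = 1 at h2
    rwa [hG] at h2
  have hE1r : rd A (T.e 1 E) = 0 := by
    have h1 := congrFun hER 1
    have h2 := congrArg (Subtype.val) h1
    change rd A (w.G 1 E) = 0 at h2
    rwa [hG] at h2
  -- `z` with poles only at `P 1`, vanishing at `P 0`
  set D : Divisor K F := Finsupp.single (T.P 1) ((genusFF K F : ℤ) + 1) - Finsupp.single (T.P 0) 1
    with hD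
  have hdeg : Divisor.degree D = genusFF K F := by
    rw [hD, map_sub, Divisor.degree_single, Divisor.degree_single, FF.deg_eq_one, FF.deg_eq_one]
    push_cast
    ring
  obtain ⟨z, hz0, hz⟩ := FF.exists_effective (D := D) (by rw [hdeg])
  have hzv : ∀ v, 0 ≤ D v + v.ord z := by
    intro v
    have := hz v
    rw [Finsupp.add_apply, FF.div_apply] at this
    exact this
  have hzR : z ∈ T.Rg := by
    rw [TwoComp.mem_Rg_iff_ord]
    intro v h0 h1
    have h2 := hzv v
    rw [hD, Finsupp.sub_apply, Finsupp.single_eq_of_ne h1, Finsupp.single_eq_of_ne h0] at h2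
    omega
  have hz1 : Low (T.e 0 z) 1 := by
    rw [TwoComp.low_e_iff hz0]
    have h2 := hzv (T.P 0)
    rw [hD, Finsupp.sub_apply, Finsupp.single_eq_of_ne T.P_ne, Finsupp.single_eq_same] at h2
    omega
  obtain ⟨lam, hlam, hlami, hlamr⟩ := TwoComp.att_e hq hqA hzR hz0 0
  have hz'R : lam • z ∈ T.Rg := Subalgebra.smul_mem _ hzR _
  obtain ⟨r, hr⟩ := exists_pow_isInt hq hqA (hEi 1) (T.nice E hE1 1).1 hE1r
    (T.nice _ hz'R 1).2
  set Y := E ^ r * (lam • z) with hY
  have hYR : Y ∈ T.Rg := mul_mem (pow_mem hE1 _) hz'R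
  have hYi : ∀ j, IsInt A (T.e j Y) := by
    intro j
    have h2 : j = 0 ∨ j = 1 := by omega
    rcases h2 with rfl | rfl
    · rw [hY, map_mul, map_pow, map_smul]
      exact ((hEi 0).pow _).mul hlami
    · rw [hY, map_mul, map_pow]
      exact hr r le_rfl
  have h3 := T.res_O Y hYR hYi 0
  have h4 : rd A (T.e 0 Y) = rd A (lam • T.e 0 z) := by
    rw [hY, map_mul, map_pow, map_smul, rd_mul ((hEi 0).pow _) hlami, rd_pow (hEi 0), hE0r,
      one_pow, one_mul]
  have h5 : Low (rd A (T.e 0 Y)) 1 := by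
    rw [h4]
    exact (hz1.smul _).rd
  obtain ⟨k, hk⟩ := T.O_const _ h3 (h5.mono (by norm_num))
  have hk0 : k = 0 := by
    have h6 := h5 0 (by norm_num)
    rw [hk, algebraMap_laurentSeries_eq_single, HahnSeries.coeff_single_same] at h6
    exact h6
  apply hlamr
  rw [← h4, hk, hk0, map_zero]

/-- prime level, trivial twists -/
theorem exists_pow_of_isZeta_one (ν : NodeData T) {p : ℕ} (hp : p.Prime)
    (hpA : resid A (p : K) ≠ 0) {f : F} {w : Good T p f} (h : IsZeta ν w 1) :
    ∃ g : F, g ^ p = f := by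
  by_contra hcon
  push Not at hcon
  have hp0 : NeZero (p : K) := ⟨by exact_mod_cast hp.ne_zero⟩
  obtain ⟨ζ, hζ⟩ := HasEnoughRootsOfUnity.exists_primitiveRoot K p
  obtain ⟨c⟩ := exists_cov hp w hζ.pow_eq_one hcon
  exact c.false hq hqA ν (ν.s_pos hq hqA) hζ hp hpA h

omit [Algebra.IsAlgebraic ℤ K] [FF.FunField K F] in
omit hq hqA in
/-- roots of unity lift -/
theorem exists_root_of_unity_lift {p : ℕ} (hp : p ≠ 0)
    {c : ResidueField A} (hc : c ^ p = 1) : ∃ θ : K, θ ^ p = 1 ∧ resid A θ = c := by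
  classical
  obtain ⟨a, ha, rfl⟩ := resid_surjective A c
  have hp0 : NeZero (p : K) := ⟨by exact_mod_cast hp⟩
  obtain ⟨ζ, hζ⟩ := HasEnoughRootsOfUnity.exists_primitiveRoot K p
  have h1 := congrArg (Polynomial.eval a) (Polynomial.X_pow_sub_one_eq_prod (Nat.pos_of_ne_zero hp) hζ)
  rw [Polynomial.eval_prod, Polynomial.eval_sub, Polynomial.eval_pow, Polynomial.eval_X,
    Polynomial.eval_one] at h1
  simp only [Polynomial.eval_sub, Polynomial.eval_X, Polynomial.eval_C] at h1
  have hA : ∀ θ ∈ Polynomial.nthRootsFinset p (1 : K), θ ∈ A := fun θ hθ =>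
    mem_of_pow_eq_one hp ((Polynomial.mem_nthRootsFinset (Nat.pos_of_ne_zero hp) _).1 hθ)
  have h2 : ∀ s : Finset K, (∀ θ ∈ s, θ ∈ A) →
      (∏ θ ∈ s, (a - θ)) ∈ A ∧ resid A (∏ θ ∈ s, (a - θ)) = ∏ θ ∈ s, (resid A a - resid A θ) := by
    intro s
    induction s using Finset.induction_on with
    | empty =>
      intro _
      rw [Finset.prod_empty, Finset.prod_empty]
      exact ⟨A.one_mem, resid_one A⟩
    | insert b s hb ih =>
      intro hs
      obtain ⟨h3, h4⟩ := ih fun θ hθ => hs θ (Finset.mem_insert_of_mem hθ)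
      have h5 := hs b (Finset.mem_insert_self _ _)
      have h6 : a - b ∈ A := A.toSubring.sub_mem ha h5
      rw [Finset.prod_insert hb, Finset.prod_insert hb, resid_mul A h6 h3, resid_sub A ha h5, h4]
      exact ⟨A.mul_mem _ _ h6 h3, rfl⟩
  obtain ⟨h3, h4⟩ := h2 _ hA
  have h5 : resid A (a ^ p - 1) = 0 := by
    rw [resid_sub A (A.toSubring.pow_mem ha _) A.one_mem, resid_pow ha, hc, resid_one, sub_self]
  rw [h1, h4, Finset.prod_eq_zero_iff] at h5
  obtain ⟨θ, hθ, h6⟩ := h5
  exact ⟨θ, (Polynomial.mem_nthRootsFinset (Nat.pos_of_ne_zero hp) _).1 hθ, (sub_eq_zero.1 h6).symm⟩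

/-- prime level, constant twists -/
theorem exists_pow_of_prime (ν : NodeData T) {p : ℕ} (hp : p.Prime)
    (hpA : resid A (p : K) ≠ 0) {f : F} {w : Good T p f} {ζ : Fin ν.s → ResidueField A}
    (h : IsZeta ν w ζ) (hc : ∀ i j, ζ i = ζ j) : ∃ g : F, g ^ p = f := by
  let i₀ : Fin ν.s := ⟨0, ν.s_pos hq hqA⟩
  obtain ⟨θ, hθ, hθr⟩ := exists_root_of_unity_lift (A := A) hp.ne_zero (h.pow i₀)
  have hθ' : ∀ j, (![1, θ] : Fin 2 → K) j ^ p = 1 := by
    intro j
    fin_cases j
    · exact one_pow _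
    · exact hθ
  obtain ⟨ζ', hζ'⟩ := exists_isZeta hq hqA ν (w.twist ![1, θ] hθ')
  have h1 : ζ' = 1 := by
    funext i
    have h2 := h.twist hζ' i
    change resid A 1 * ζ i = ζ' i * resid A θ at h2
    rw [resid_one, one_mul, hθr, hc i i₀] at h2
    have h3 : ζ i₀ ≠ 0 := by
      intro h4
      have h5 := h.pow i₀
      rw [h4, zero_pow hp.ne_zero] at h5
      exact zero_ne_one h5
    exact (mul_right_cancel₀ h3 (by rw [← h2, Pi.one_apply, one_mul]))
  rw [h1] at hζ'
  exact exists_pow_of_isZeta_one hq hqA ν hp hpA hζ'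

/-- general level, constant twists -/
theorem exists_pow_of_isZeta (ν : NodeData T) (m : ℕ) : ∀ (_ : resid A (m : K) ≠ 0) (f : F)
    (w : Good T m f) (ζ : Fin ν.s → ResidueField A) (_ : IsZeta ν w ζ) (_ : ∀ i j, ζ i = ζ j),
    ∃ g : F, g ^ m = f := by
  induction m using Nat.strong_induction_on with
  | _ m ih =>
    intro hm f w ζ h hc
    rcases eq_or_ne m 1 with rfl | hm1
    · exact ⟨f, pow_one f⟩
    obtain ⟨p, hp, m', rfl⟩ := Nat.exists_prime_and_dvd hm1
    have hm' : m' ≠ 0 := by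
      rintro rfl
      exact w.m_ne (mul_zero p)
    have hpm : resid A (p : K) ≠ 0 ∧ resid A (m' : K) ≠ 0 := by
      rw [Nat.cast_mul, resid_mul A (natCast_mem A p) (natCast_mem A m')] at hm
      exact ⟨left_ne_zero_of_mul hm, right_ne_zero_of_mul hm⟩
    -- prime level
    obtain ⟨ζ₁, hζ₁⟩ := exists_isZeta hq hqA ν (w.lower hp.ne_zero)
    have h1 := h.lower hζ₁
    obtain ⟨g, hg⟩ := exists_pow_of_prime hq hqA ν hp hpm.1 hζ₁ (fun i j => by
      rw [h1, Pi.pow_apply, Pi.pow_apply, hc i j])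
    subst hg
    -- extract the root
    obtain ⟨θ, hθ, w', -, hw'⟩ := w.exists_root hp.ne_zero hm'
    obtain ⟨ζ₂, hζ₂⟩ := exists_isZeta hq hqA ν w'
    have h2 := h.root hp.ne_zero hθ hw' hζ₂
    have hθ1 : resid A (θ 1) ≠ 0 := resid_ne_zero_of_pow_eq_one w.m_ne (hθ 1)
    have hlt : m' < p * m' := by
      have := hp.two_le
      nlinarith [Nat.pos_of_ne_zero hm']
    obtain ⟨g', hg'⟩ := ih m' hlt hpm.2 g w' ζ₂ hζ₂ (fun i j => by
      have h3 := h2 i
      have h4 := h2 j
      rw [hc i j, h4] at h3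
      exact (mul_right_cancel₀ hθ1 h3).symm)
    exact ⟨g', by rw [mul_comm, pow_mul, hg']⟩

end Main

end Fermat.Agent.H11Q
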