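import Mathlib

/-!
# Finite dimensional algebras spanned by Frobenius-fixed elements
-/

set_option autoImplicit false

noncomputable section

open Module

namespace Fermat.Agent.H11Q

theorem isReduced_of_span {k B : Type*} [Field k] [CommRing B] [Algebra k B] {q : ℕ}
    (hq : q.Prime) [CharP k q] (S : Set B) (hS : Submodule.span k S = ⊤) {e : ℕ} (he : 0 < e)
    (hfix : ∀ b ∈ S, b ^ (q ^ e) = b) : IsReduced B := by
  classical
  rcases subsingleton_or_nontrivial B with hsub | hnt
  · exact ⟨fun x _ => Subsingleton.elim _ _⟩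
  have hchar : CharP B q := charP_of_injective_algebraMap (algebraMap k B).injective q
  have hprime : Fact q.Prime := ⟨hq⟩
  have hexp : ExpChar B q := ExpChar.prime hq
  let b := Basis.ofSpan hS.ge
  have hb : ∀ i, b i ∈ S := fun i => Basis.ofSpan_subset hS.ge ⟨i, rfl⟩
  have hb' : ∀ (l : ℕ) i, (b i) ^ (q ^ (e * l)) = b i := by
    intro l i
    induction l with
    | zero => rw [mul_zero, pow_zero, pow_one]
    | succ l ih => rw [mul_add, mul_one, pow_add, pow_mul, ih, hfix _ (hb i)]
  -- a power of Frobenius is injective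
  have hinj : ∀ (l : ℕ) (x : B), x ^ (q ^ (e * l)) = 0 → x = 0 := by
    intro l x hx
    have h1 : x = ∑ i ∈ (b.repr x).support, b.repr x i • b i := (b.linearCombination_repr x).symm
    have h2 : x ^ (q ^ (e * l)) =
        ∑ i ∈ (b.repr x).support, (b.repr x i) ^ (q ^ (e * l)) • b i := by
      conv_lhs => rw [h1]
      rw [sum_pow_char_pow]
      refine Finset.sum_congr rfl fun i _ => ?_
      rw [smul_pow, hb']
    rw [h2] at hx
    have h3 := linearIndependent_iff'.1 b.linearIndependent _ _ hx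
    rw [← b.repr.map_eq_zero_iff]
    ext i
    by_cases hi : i ∈ (b.repr x).support
    · exact pow_eq_zero_iff (pow_ne_zero _ hq.ne_zero) |>.1 (h3 i hi)
    · exact Finsupp.notMem_support_iff.1 hi
  refine ⟨fun x hx => ?_⟩
  obtain ⟨n, hn⟩ := hx
  apply hinj n x
  have h1 : n ≤ q ^ (e * n) := by
    calc n ≤ e * n := Nat.le_mul_of_pos_left n he
      _ ≤ q ^ (e * n) := (Nat.lt_pow_self hq.one_lt).le
  exact pow_eq_zero_of_le h1 hn

/-- a finite algebra in which every element is an `N`-th power is reduced -/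
theorem isReduced_of_pow_surj {k B : Type*} [Field k] [CommRing B] [Algebra k B]
    [Module.Finite k B] {N : ℕ} (hN : 2 ≤ N) (h : ∀ b : B, ∃ c, c ^ N = b) : IsReduced B := by
  have hart : IsArtinianRing B := IsArtinianRing.of_finite k B
  obtain ⟨e, he⟩ := IsArtinianRing.isNilpotent_nilradical (R := B)
  have hnil : ∀ x : B, IsNilpotent x → x ^ e = 0 := by
    intro x hx
    have h1 : x ^ e ∈ nilradical B ^ e := Ideal.pow_mem_pow (mem_nilradical.2 hx) e
    rw [he] at h1
    exact h1
  have hroot : ∀ (n : ℕ) (b : B), ∃ c, c ^ (N ^ n) = b := by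
    intro n
    induction n with
    | zero => exact fun b => ⟨b, by rw [pow_zero, pow_one]⟩
    | succ n ih =>
      intro b
      obtain ⟨c, hc⟩ := h b
      obtain ⟨d, hd⟩ := ih c
      exact ⟨d, by rw [pow_succ, pow_mul, hd, hc]⟩
  refine ⟨fun x hx => ?_⟩
  obtain ⟨c, hc⟩ := hroot e x
  have h1 : IsNilpotent c := by
    obtain ⟨m, hm⟩ := hx
    exact ⟨N ^ e * m, by rw [pow_mul, hc, hm]⟩
  have h2 : e ≤ N ^ e := (Nat.lt_pow_self (by omega)).le
  rw [← hc]
  exact pow_eq_zero_of_le h2 (hnil c h1)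

theorem exists_points {k B : Type*} [Field k] [IsAlgClosed k] [CommRing B] [Algebra k B]
    [Module.Finite k B] [IsReduced B] :
    ∃ (s : ℕ) (α : Fin s → (B →ₐ[k] k)), (∀ c : Fin s → k, ∃ a : B, ∀ i, α i a = c i) ∧
      ∀ a, (∀ i, α i a = 0) → a = 0 := by
  classical
  have hart : IsArtinianRing B := IsArtinianRing.of_finite k B
  have hfin : Finite (MaximalSpectrum B) := inferInstance
  obtain ⟨s, ⟨ε⟩⟩ := Finite.exists_equiv_fin (MaximalSpectrum B)
  have hbij : ∀ I : MaximalSpectrum B, Function.Bijective (algebraMap k (B ⧸ I.asIdeal)) := by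
    intro I
    have hI : I.asIdeal.IsMaximal := I.isMaximal
    have hdom : IsDomain (B ⧸ I.asIdeal) := Ideal.Quotient.isDomain _
    have hint : Algebra.IsIntegral k (B ⧸ I.asIdeal) := Algebra.IsIntegral.of_finite k _
    exact IsAlgClosed.algebraMap_bijective_of_isIntegral
  let φ : ∀ I : MaximalSpectrum B, (B ⧸ I.asIdeal) ≃ₐ[k] k := fun I =>
    (AlgEquiv.ofBijective (Algebra.ofId k (B ⧸ I.asIdeal)) (hbij I)).symm
  refine ⟨s, fun i => ((φ (ε.symm i)).toAlgHom).comp (Ideal.Quotient.mkₐ k (ε.symm i).asIdeal),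
    fun c => ?_, fun a ha => ?_⟩
  · obtain ⟨a, ha⟩ := (IsArtinianRing.equivPi B).surjective
      (fun I => (φ I).symm (c (ε I)))
    refine ⟨a, fun i => ?_⟩
    have h1 := congrFun ha (ε.symm i)
    change φ (ε.symm i) (Ideal.Quotient.mk _ a) = c i
    have h2 : (Ideal.Quotient.mk (ε.symm i).asIdeal a) = (φ (ε.symm i)).symm (c (ε (ε.symm i))) := h1
    rw [h2, AlgEquiv.apply_symm_apply, Equiv.apply_symm_apply]
  · apply (IsArtinianRing.equivPi B).injective
    rw [map_zero]
    funext I
    have h1 := ha (ε I)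
    change φ (ε.symm (ε I)) (Ideal.Quotient.mk _ a) = 0 at h1
    rw [map_eq_zero_iff _ (φ _).injective, Equiv.symm_apply_apply] at h1
    exact h1

end Fermat.Agent.H11Q
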