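import Fermat.Agent.H11Q.NumBdd

/-!
# Attained Gauss norms; roots and inverses of series with unit leading coefficient
-/

set_option autoImplicit false

noncomputable section

open IsLocalRing ModularCurve Module

attribute [-instance] HahnSeries.instModule HahnSeries.instSMul HahnSeries.instDistribMulAction
  HahnSeries.instSMulZeroClass

namespace Fermat.Agent.H11Q

variable {K : Type*} [Field K] {A : ValuationSubring K}

section Disc

variable [CharZero K] [Algebra.IsAlgebraic ℤ K] {q : ℕ} (hq : q.Prime)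
  (hqA : (q : K) ∈ A.nonunits)

include hq hqA

theorem att_of_numF_bdd {x : LaurentSeries K} (hx : NumF x) (hb : Bdd A x) (h0 : x ≠ 0) :
    Att A x := by
  classical
  obtain ⟨c, hc, hint⟩ := hb
  obtain ⟨S, hS⟩ := hx.smul c
  obtain ⟨D, hD, hdisc⟩ := valuation_disc (A := A) hq hqA S
  set y := c • x with hy
  have hy0 : y ≠ 0 := by
    intro h
    apply h0
    have : c⁻¹ • y = x := by rw [hy, smul_smul, inv_mul_cancel₀ hc, one_smul]
    rw [← this, h, smul_zero]
  have hq0 : A.valuation (q : K) ≠ 0 := by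
    rw [Valuation.ne_zero_iff]
    exact_mod_cast hq.ne_zero
  have hq1 : A.valuation (q : K) < 1 := valuation_q_lt_one hqA
  -- natural exponents
  have hex : ∀ n, y.coeff n ≠ 0 → ∃ e : ℕ, A.valuation (y.coeff n) ^ D = A.valuation (q : K) ^ e := by
    intro n hn
    obtain ⟨e, he⟩ := hdisc _ (hS n) hn
    have hle : A.valuation (y.coeff n) ^ D ≤ 1 :=
      pow_le_one₀ zero_le ((A.valuation_le_one_iff _).2 (hint n))
    have he0 : 0 ≤ e := by
      by_contra hneg
      rw [not_le] at hneg
      rw [he] at hle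
      have h1 : (1 : A.ValueGroup) < A.valuation (q : K) ^ e := one_lt_zpow_of_neg₀ (zero_lt_iff.2 hq0) hq1 hneg
      exact absurd hle (not_le.2 h1)
    obtain ⟨e', rfl⟩ := Int.eq_ofNat_of_zero_le he0
    exact ⟨e', by simpa using he⟩
  have hP : ∃ e : ℕ, ∃ n, y.coeff n ≠ 0 ∧ A.valuation (y.coeff n) ^ D = A.valuation (q : K) ^ e := by
    obtain ⟨n, hn⟩ : ∃ n, y.coeff n ≠ 0 := by
      by_contra hcon
      push Not at hcon
      exact hy0 (HahnSeries.ext (funext hcon))
    obtain ⟨e, he⟩ := hex n hn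
    exact ⟨e, n, hn, he⟩
  obtain ⟨n, hn0, hn⟩ := Nat.find_spec hP
  have hmin : ∀ m, A.valuation (y.coeff m) ≤ A.valuation (y.coeff n) := by
    intro m
    rcases eq_or_ne (y.coeff m) 0 with h | h
    · rw [h, map_zero]; exact zero_le
    · obtain ⟨e, he⟩ := hex m h
      have h1 : Nat.find hP ≤ e := Nat.find_min' hP ⟨m, h, he⟩
      have h2 : A.valuation (y.coeff m) ^ D ≤ A.valuation (y.coeff n) ^ D := by
        rw [he, hn]
        exact pow_le_pow_of_le_one zero_le hq1.le h1
      exact le_of_pow_le_pow_left₀ hD.ne' zero_le h2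
  have hvn : A.valuation (y.coeff n) ≠ 0 := (Valuation.ne_zero_iff _).2 hn0
  have hint' : IsInt A ((y.coeff n)⁻¹ • y) := by
    intro m
    rw [coeff_smul', ← A.valuation_le_one_iff, map_mul, map_inv₀]
    calc (A.valuation (y.coeff n))⁻¹ * A.valuation (y.coeff m)
        ≤ (A.valuation (y.coeff n))⁻¹ * A.valuation (y.coeff n) := mul_le_mul_right (hmin m) _
      _ = 1 := inv_mul_cancel₀ hvn
  refine ⟨(y.coeff n)⁻¹ * c, mul_ne_zero (inv_ne_zero hn0) hc, ?_, ?_⟩
  · rw [mul_smul]; exact hint'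
  · rw [mul_smul, ← hy]
    intro h
    have h1 := congrArg (fun z : LaurentSeries (ResidueField A) => z.coeff n) h
    simp only [rd_coeff, coeff_smul', inv_mul_cancel₀ hn0, resid_one] at h1
    exact one_ne_zero h1

/-- the valuation is archimedean -/
theorem exists_pow_mul_mem {ε B : K} (hε : ε ∈ A.nonunits) :
    ∃ r : ℕ, ε ^ r * B ∈ A := by
  classical
  rcases eq_or_ne B 0 with rfl | hB
  · exact ⟨0, by rw [mul_zero]; exact A.zero_mem⟩
  rcases eq_or_ne ε 0 with rfl | hε0
  · exact ⟨1, by rw [pow_one, zero_mul]; exact A.zero_mem⟩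
  obtain ⟨D, hD, hdisc⟩ := valuation_disc (A := A) hq hqA {ε, B}
  obtain ⟨e, he⟩ := hdisc ε (Subfield.subset_closure (by simp)) hε0
  obtain ⟨f, hf⟩ := hdisc B (Subfield.subset_closure (by simp)) hB
  have hq0 : A.valuation (q : K) ≠ 0 := by
    rw [Valuation.ne_zero_iff]
    exact_mod_cast hq.ne_zero
  have hq1 : A.valuation (q : K) < 1 := valuation_q_lt_one hqA
  have hε1 : A.valuation ε < 1 := (ValuationSubring.mem_nonunits_iff A).1 hε
  have he0 : 0 < e := by
    by_contra hneg
    rw [not_lt] at hneg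
    have h1 : A.valuation ε ^ D < 1 := pow_lt_one₀ zero_le hε1 hD.ne'
    rw [he] at h1
    have h2 : (1 : A.ValueGroup) ≤ A.valuation (q : K) ^ e :=
      one_le_zpow_of_nonpos₀ (zero_lt_iff.2 hq0) hq1.le hneg
    exact absurd h1 (not_lt.2 h2)
  refine ⟨f.natAbs, ?_⟩
  rw [← A.valuation_le_one_iff]
  have h3 : (A.valuation (ε ^ f.natAbs * B)) ^ D ≤ 1 := by
    rw [map_mul, map_pow, mul_pow, ← pow_mul, mul_comm f.natAbs D, pow_mul, he, hf,
      ← zpow_natCast, ← zpow_mul, ← zpow_add₀ hq0]
    apply zpow_le_one₀ (zero_lt_iff.2 hq0) hq1.le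
    have : -(f.natAbs : ℤ) ≤ f := by omega
    nlinarith
  exact (pow_le_one_iff_of_nonneg zero_le hD.ne').1 h3

end Disc

/-! ### series with unit leading coefficient -/

/-- `x = q^n * unit` over `A` -/
structure UnitLead (A : ValuationSubring K) (x : LaurentSeries K) (n : ℤ) : Prop where
  int : IsInt A x
  below : ∀ i < n, x.coeff i = 0
  lead : resid A (x.coeff n) ≠ 0

theorem UnitLead.rd_ne_zero {x : LaurentSeries K} {n : ℤ} (h : UnitLead A x n) : rd A x ≠ 0 := by
  intro h1
  apply h.lead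
  rw [← rd_coeff, h1]
  rfl

theorem UnitLead.ne_zero {x : LaurentSeries K} {n : ℤ} (h : UnitLead A x n) : x ≠ 0 := by
  rintro rfl
  exact h.rd_ne_zero (rd_zero A)

theorem UnitLead.coeff_ne_zero {x : LaurentSeries K} {n : ℤ} (h : UnitLead A x n) :
    x.coeff n ≠ 0 := ((resid_ne_zero_iff A (h.int n)).1 h.lead).2

theorem UnitLead.order {x : LaurentSeries K} {n : ℤ} (h : UnitLead A x n) : x.order = n := by
  apply le_antisymm (HahnSeries.order_le_of_coeff_ne_zero h.coeff_ne_zero)
  by_contra hlt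
  rw [not_le] at hlt
  exact (mt HahnSeries.coeff_order_eq_zero.1 h.ne_zero) (h.below _ hlt)

theorem UnitLead.order_rd {x : LaurentSeries K} {n : ℤ} (h : UnitLead A x n) :
    (rd A x).order = n := by
  apply le_antisymm (HahnSeries.order_le_of_coeff_ne_zero (by rw [rd_coeff]; exact h.lead))
  by_contra hlt
  rw [not_le] at hlt
  apply mt HahnSeries.coeff_order_eq_zero.1 h.rd_ne_zero
  rw [rd_coeff, h.below _ hlt, resid_zero]

theorem unitLead_of_order {x : LaurentSeries K} (hx : IsInt A x) (h0 : rd A x ≠ 0) 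
    (h : x.order ≥ (rd A x).order) : UnitLead A x (rd A x).order where
  int := hx
  below i hi := HahnSeries.coeff_eq_zero_of_lt_order (hi.trans_le h)
  lead := by rw [← rd_coeff]; exact mt HahnSeries.coeff_order_eq_zero.1 h0

/-- normal form over a subring -/
def RL (A : ValuationSubring K) (L : Subfield K) : Subring K := A.toSubring ⊓ L.toSubring

theorem coeff_single_mul_ofPowerSeries (n : ℤ) (u : K) (f : PowerSeries K) (i : ℤ) :
    (HahnSeries.single n u * HahnSeries.ofPowerSeries ℤ K f : LaurentSeries K).coeff i =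
      if i < n then 0 else u * PowerSeries.coeff (i - n).toNat f := by
  rw [HahnSeries.coeff_single_mul]
  split_ifs with h
  · have h1 : (HahnSeries.ofPowerSeries ℤ K f).coeff (i - n) = 0 := by
      have := PowerSeries.coeff_coe f (i - n)
      rw [if_pos (by omega)] at this
      exact this
    rw [h1, mul_zero]
  · have h1 : (HahnSeries.ofPowerSeries ℤ K f).coeff (i - n) = PowerSeries.coeff (i - n).toNat f := by
      have := PowerSeries.coeff_coe f (i - n)
      rw [if_neg (by omega)] at this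
      rw [show (i - n).toNat = (i - n).natAbs by omega]
      exact this
    rw [h1]

theorem UnitLead.exists_ps {x : LaurentSeries K} {n : ℤ} (h : UnitLead A x n) {L : Subfield K}
    (hL : CoefIn L.toSubring x) :
    ∃ f : PowerSeries (RL A L), PowerSeries.constantCoeff f = 1 ∧
      x = HahnSeries.single n (x.coeff n) *
        HahnSeries.ofPowerSeries ℤ K (PowerSeries.map (RL A L).subtype f) := by
  have hu := (resid_ne_zero_iff A (h.int n)).1 h.lead
  have hmem : ∀ i : ℤ, (x.coeff n)⁻¹ * x.coeff i ∈ RL A L := fun i =>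
    ⟨A.mul_mem _ _ hu.1 (h.int i), L.mul_mem (L.inv_mem (hL n)) (hL i)⟩
  refine ⟨PowerSeries.mk fun i => ⟨(x.coeff n)⁻¹ * x.coeff (n + i), hmem _⟩, ?_, ?_⟩
  · rw [← PowerSeries.coeff_zero_eq_constantCoeff_apply, PowerSeries.coeff_mk]
    apply Subtype.ext
    simp [hu.2]
  · ext i
    rw [coeff_single_mul_ofPowerSeries]
    split_ifs with hi
    · exact h.below i hi
    · rw [PowerSeries.coeff_map, PowerSeries.coeff_mk]
      change x.coeff i = x.coeff n * ((x.coeff n)⁻¹ * x.coeff (n + ((i - n).toNat : ℤ)))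
      rw [← mul_assoc, mul_inv_cancel₀ hu.2, one_mul]
      congr 1
      omega

theorem unitLead_of_ps {n : ℤ} {u : K} (hu : u ∈ A) (hu0 : resid A u ≠ 0) {L : Subfield K}
    (huL : u ∈ L) (f : PowerSeries (RL A L)) (hf : PowerSeries.constantCoeff f = 1) :
    UnitLead A (HahnSeries.single n u *
        HahnSeries.ofPowerSeries ℤ K (PowerSeries.map (RL A L).subtype f)) n ∧
      CoefIn L.toSubring (HahnSeries.single n u *
        HahnSeries.ofPowerSeries ℤ K (PowerSeries.map (RL A L).subtype f)) := by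
  have hc : (HahnSeries.single n u * HahnSeries.ofPowerSeries ℤ K
      (PowerSeries.map (RL A L).subtype f) : LaurentSeries K).coeff n = u := by
    rw [coeff_single_mul_ofPowerSeries, if_neg (lt_irrefl n), sub_self, Int.toNat_zero,
      PowerSeries.coeff_map, PowerSeries.coeff_zero_eq_constantCoeff_apply, hf]
    simp
  refine ⟨⟨fun i => ?_, fun i hi => ?_, by rwa [hc]⟩, fun i => ?_⟩
  · rw [coeff_single_mul_ofPowerSeries]
    split_ifs
    · exact A.zero_mem
    · rw [PowerSeries.coeff_map]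
      exact A.mul_mem _ _ hu (PowerSeries.coeff (i - n).toNat f).2.1
  · rw [coeff_single_mul_ofPowerSeries, if_pos hi]
  · rw [coeff_single_mul_ofPowerSeries]
    split_ifs
    · exact Subring.zero_mem _
    · rw [PowerSeries.coeff_map]
      exact L.mul_mem huL (PowerSeries.coeff (i - n).toNat f).2.2

/-- roots of series with unit leading coefficients -/
theorem UnitLead.exists_root [IsAlgClosed K] {x : LaurentSeries K} {n : ℤ} {m : ℕ} (hm0 : m ≠ 0)
    (hm : resid A (m : K) ≠ 0) (h : UnitLead A x (m * n)) (hx : NumF x) :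
    ∃ y : LaurentSeries K, y ^ m = x ∧ UnitLead A y n ∧ NumF y := by
  classical
  obtain ⟨S, hS⟩ := hx
  obtain ⟨w, hw⟩ := IsAlgClosed.exists_pow_nat_eq (x.coeff (m * n)) (Nat.pos_of_ne_zero hm0)
  set S' : Finset K := insert w S with hS'
  set L := Subfield.closure (S' : Set K) with hL
  have hxL : CoefIn L.toSubring x := hS.mono (closure_mono' (Finset.subset_insert _ _))
  have hwL : w ∈ L := Subfield.subset_closure (by simp [hS'])
  obtain ⟨f, hf, hxf⟩ := h.exists_ps hxL
  have hmA : (m : K) ∈ A := natCast_mem A m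
  have hmu := (resid_ne_zero_iff A hmA).1 hm
  have hmunit : IsUnit (m : RL A L) := by
    refine IsUnit.of_mul_eq_one ⟨(m : K)⁻¹, hmu.1, L.inv_mem (natCast_mem L m)⟩ ?_
    apply Subtype.ext
    simp [hmu.2]
  obtain ⟨g, hg, hgf⟩ := exists_ps_root hm0 hmunit f hf
  have hwA : w ∈ A := by
    have h1 : w ^ m ∈ A := by rw [hw]; exact h.int _
    rw [← A.valuation_le_one_iff] at h1 ⊢
    rw [map_pow] at h1
    exact (pow_le_one_iff_of_nonneg zero_le hm0).1 h1
  have hw0 : resid A w ≠ 0 := by
    intro h2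
    apply h.lead
    have h3 : ∀ j : ℕ, resid A (w ^ j) = resid A w ^ j := by
      intro j
      induction j with
      | zero => rw [pow_zero, pow_zero, resid_one]
      | succ j ih => rw [pow_succ, pow_succ, resid_mul A (A.toSubring.pow_mem hwA j) hwA, ih]
    rw [← hw, h3, h2, zero_pow hm0]
  obtain ⟨h4, h5⟩ := unitLead_of_ps (n := n) hwA hw0 hwL g hg
  refine ⟨_, ?_, h4, S', h5⟩
  rw [hxf, mul_pow, HahnSeries.single_pow, hw, ← map_pow, ← map_pow, hgf, nsmul_eq_mul]

theorem UnitLead.inv {x : LaurentSeries K} {n : ℤ} (h : UnitLead A x n) :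
    UnitLead A x⁻¹ (-n) ∧ ∀ L : Subfield K, CoefIn L.toSubring x → CoefIn L.toSubring x⁻¹ := by
  have hu := (resid_ne_zero_iff A (h.int n)).1 h.lead
  have hinvA : resid A (x.coeff n)⁻¹ ≠ 0 := by
    rw [resid_ne_zero_iff A hu.1, inv_inv]
    exact ⟨h.int n, inv_ne_zero hu.2⟩
  have key : ∀ L : Subfield K, CoefIn L.toSubring x →
      UnitLead A x⁻¹ (-n) ∧ CoefIn L.toSubring x⁻¹ := by
    intro L hL
    obtain ⟨f, hf, hxf⟩ := h.exists_ps hL
    have hfu : IsUnit f := PowerSeries.isUnit_iff_constantCoeff.2 (by rw [hf]; exact isUnit_one)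
    obtain ⟨g, hg⟩ := hfu.exists_right_inv
    have hg1 : PowerSeries.constantCoeff g = 1 := by
      have := congrArg PowerSeries.constantCoeff hg
      rwa [map_mul, hf, one_mul, map_one] at this
    obtain ⟨h4, h5⟩ := unitLead_of_ps (n := -n) hu.1 hinvA (L.inv_mem (hL n)) g hg1
    have hx : x⁻¹ = HahnSeries.single (-n) (x.coeff n)⁻¹ *
        HahnSeries.ofPowerSeries ℤ K (PowerSeries.map (RL A L).subtype g) := by
      apply inv_eq_of_mul_eq_one_right
      conv_lhs =>
        enter [1]
        rw [hxf]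
      rw [mul_mul_mul_comm, HahnSeries.single_mul_single, ← map_mul, ← map_mul, hg, map_one,
        map_one, mul_one, mul_inv_cancel₀ hu.2, add_neg_cancel]
      rfl
    rw [hx]
    exact ⟨h4, h5⟩
  refine ⟨(key ⊤ fun i => Subfield.mem_top _).1, fun L hL => (key L hL).2⟩

theorem UnitLead.numF_inv {x : LaurentSeries K} {n : ℤ} (h : UnitLead A x n) (hx : NumF x) :
    NumF x⁻¹ := by
  obtain ⟨S, hS⟩ := hx
  exact ⟨S, h.inv.2 _ hS⟩

theorem UnitLead.mul {x y : LaurentSeries K} {n m : ℤ} (hx : UnitLead A x n)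
    (hy : UnitLead A y m) : UnitLead A (x * y) (n + m) := by
  have h0 : rd A (x * y) ≠ 0 := by
    rw [rd_mul hx.int hy.int]
    exact mul_ne_zero hx.rd_ne_zero hy.rd_ne_zero
  have h1 : (rd A (x * y)).order = n + m := by
    rw [rd_mul hx.int hy.int, HahnSeries.order_mul hx.rd_ne_zero hy.rd_ne_zero, hx.order_rd,
      hy.order_rd]
  have h2 := unitLead_of_order (hx.int.mul hy.int) h0 (by
    rw [h1, HahnSeries.order_mul hx.ne_zero hy.ne_zero, hx.order, hy.order])
  rwa [h1] at h2

theorem unitLead_one : UnitLead A (1 : LaurentSeries K) 0 where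
  int := IsInt.one
  below i hi := by
    rw [HahnSeries.coeff_one, if_neg hi.ne]
  lead := by
    rw [HahnSeries.coeff_one, if_pos rfl, resid_one]
    exact one_ne_zero

theorem UnitLead.pow {x : LaurentSeries K} {n : ℤ} (hx : UnitLead A x n) (j : ℕ) :
    UnitLead A (x ^ j) (j * n) := by
  induction j with
  | zero =>
    rw [pow_zero, Nat.cast_zero, zero_mul]
    exact unitLead_one
  | succ j ih =>
    rw [pow_succ, show ((j + 1 : ℕ) : ℤ) * n = (j : ℤ) * n + n by push_cast; ring]
    exact ih.mul hx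

end Fermat.Agent.H11Q
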