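import Mathlib
import Fermat.Prelude.Def_ModularCurve_LaurentCoeff

/-!
# Integral Laurent series, reduction, attained Gauss norm

`A` is a valuation subring of a field `K`, with residue field `k`.
-/

set_option autoImplicit false

noncomputable section

open IsLocalRing ModularCurve

-- only use the algebra-induced scalar multiplication on Laurent series
attribute [-instance] HahnSeries.instModule HahnSeries.instSMul HahnSeries.instDistribMulAction
  HahnSeries.instSMulZeroClass

namespace Fermat.Agent.H11Q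

theorem coeff_smul' {K : Type*} [Field K] (c : K) (x : LaurentSeries K) (n : ℤ) :
    (c • x).coeff n = c * x.coeff n := by
  rw [Algebra.smul_def, algebraMap_laurentSeries_eq_single, HahnSeries.coeff_single_zero_mul]

variable {K : Type*} [Field K] (A : ValuationSubring K)

/-- the reduction map extended by zero -/
def resid (a : K) : ResidueField A :=
  open Classical in if h : a ∈ A then residue A ⟨a, h⟩ else 0

theorem resid_of_mem {a : K} (h : a ∈ A) : resid A a = residue A ⟨a, h⟩ := by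
  simp [resid, h]

@[simp] theorem resid_zero : resid A (0 : K) = 0 := by
  rw [resid_of_mem A A.zero_mem]
  exact map_zero (residue A)

@[simp] theorem resid_coe (a : A) : resid A (a : K) = residue A a := by
  rw [resid_of_mem A a.2]

@[simp] theorem resid_one : resid A (1 : K) = 1 := by
  rw [resid_of_mem A A.one_mem]
  exact map_one (residue A)

theorem resid_add {a b : K} (ha : a ∈ A) (hb : b ∈ A) : resid A (a + b) = resid A a + resid A b := by
  rw [resid_of_mem A ha, resid_of_mem A hb, resid_of_mem A (A.add_mem _ _ ha hb), ← map_add]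
  rfl

theorem resid_mul {a b : K} (ha : a ∈ A) (hb : b ∈ A) : resid A (a * b) = resid A a * resid A b := by
  rw [resid_of_mem A ha, resid_of_mem A hb, resid_of_mem A (A.mul_mem _ _ ha hb), ← map_mul]
  rfl

theorem resid_neg {a : K} (ha : a ∈ A) : resid A (-a) = -resid A a := by
  rw [resid_of_mem A ha, resid_of_mem A (A.neg_mem _ ha), ← map_neg]
  rfl

theorem resid_sub {a b : K} (ha : a ∈ A) (hb : b ∈ A) : resid A (a - b) = resid A a - resid A b := by
  rw [sub_eq_add_neg, resid_add A ha (A.neg_mem _ hb), resid_neg A hb, sub_eq_add_neg]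

theorem resid_surjective (y : ResidueField A) : ∃ a : K, a ∈ A ∧ resid A a = y := by
  obtain ⟨a, rfl⟩ := residue_surjective y
  exact ⟨a, a.2, resid_coe A a⟩

theorem resid_ne_zero_iff {a : K} (ha : a ∈ A) : resid A a ≠ 0 ↔ a⁻¹ ∈ A ∧ a ≠ 0 := by
  rw [resid_of_mem A ha, Ne, residue_eq_zero_iff, mem_maximalIdeal, mem_nonunits_iff, not_not,
    isUnit_iff_exists_inv]
  constructor
  · rintro ⟨b, hb⟩
    have hb' : a * (b : K) = 1 := congrArg Subtype.val hb
    have ha0 : a ≠ 0 := by rintro rfl; simp at hb'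
    refine ⟨?_, ha0⟩
    rw [inv_eq_of_mul_eq_one_right hb']
    exact b.2
  · rintro ⟨h1, h2⟩
    exact ⟨⟨a⁻¹, h1⟩, Subtype.ext (mul_inv_cancel₀ h2)⟩

theorem resid_eq_zero_iff {a : K} (ha : a ∈ A) : resid A a = 0 ↔ a ∈ A.nonunits := by
  rw [resid_of_mem A ha, residue_eq_zero_iff]
  exact (A.mem_nonunits_iff_exists_mem_maximalIdeal.trans
    ⟨fun ⟨_, h⟩ => h, fun h => ⟨ha, h⟩⟩).symm

/-- embedding of integral Laurent series -/
abbrev emb : LaurentSeries A →+* LaurentSeries K := coeffMap A.subtype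

/-- reduction of integral Laurent series -/
abbrev red : LaurentSeries A →+* LaurentSeries (ResidueField A) := coeffMap (residue A)

theorem emb_injective : Function.Injective (emb A) := by
  intro x y h
  ext n
  have := congrArg (fun z : LaurentSeries K => z.coeff n) h
  simpa using this

/-- all coefficients are integral -/
def IsInt (x : LaurentSeries K) : Prop := ∀ n, x.coeff n ∈ A

/-- coefficientwise reduction (extended by zero) -/
def rd (x : LaurentSeries K) : LaurentSeries (ResidueField A) where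
  coeff n := resid A (x.coeff n)
  isPWO_support' := x.isPWO_support'.mono (by
    intro n hn hx
    apply hn
    have : x.coeff n = 0 := hx
    simp [this])

@[simp] theorem rd_coeff (x : LaurentSeries K) (n : ℤ) : (rd A x).coeff n = resid A (x.coeff n) := rfl

/-- lift of an integral Laurent series -/
def toA (x : LaurentSeries K) (h : IsInt A x) : LaurentSeries A where
  coeff n := ⟨x.coeff n, h n⟩
  isPWO_support' := x.isPWO_support'.mono (by
    intro n hn hx
    apply hn
    exact Subtype.ext hx)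

@[simp] theorem emb_toA (x : LaurentSeries K) (h : IsInt A x) : emb A (toA A x h) = x := by
  ext n
  rfl

theorem isInt_emb (X : LaurentSeries A) : IsInt A (emb A X) := fun n => (X.coeff n).2

@[simp] theorem rd_emb (X : LaurentSeries A) : rd A (emb A X) = red A X := by
  ext n
  simp

theorem isInt_iff {x : LaurentSeries K} : IsInt A x ↔ ∃ X : LaurentSeries A, emb A X = x :=
  ⟨fun h => ⟨toA A x h, emb_toA A x h⟩, fun ⟨X, h⟩ => h ▸ isInt_emb A X⟩

variable {A}

theorem IsInt.zero : IsInt A 0 := (isInt_iff A).2 ⟨0, map_zero _⟩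

theorem IsInt.one : IsInt A 1 := (isInt_iff A).2 ⟨1, map_one _⟩

theorem IsInt.add {x y : LaurentSeries K} (hx : IsInt A x) (hy : IsInt A y) : IsInt A (x + y) := by
  obtain ⟨X, rfl⟩ := (isInt_iff A).1 hx
  obtain ⟨Y, rfl⟩ := (isInt_iff A).1 hy
  exact (isInt_iff A).2 ⟨X + Y, map_add _ _ _⟩

theorem IsInt.mul {x y : LaurentSeries K} (hx : IsInt A x) (hy : IsInt A y) : IsInt A (x * y) := by
  obtain ⟨X, rfl⟩ := (isInt_iff A).1 hx
  obtain ⟨Y, rfl⟩ := (isInt_iff A).1 hy
  exact (isInt_iff A).2 ⟨X * Y, map_mul _ _ _⟩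

theorem IsInt.neg {x : LaurentSeries K} (hx : IsInt A x) : IsInt A (-x) := by
  obtain ⟨X, rfl⟩ := (isInt_iff A).1 hx
  exact (isInt_iff A).2 ⟨-X, map_neg _ _⟩

theorem IsInt.sub {x y : LaurentSeries K} (hx : IsInt A x) (hy : IsInt A y) : IsInt A (x - y) := by
  rw [sub_eq_add_neg]
  exact hx.add hy.neg

theorem IsInt.pow {x : LaurentSeries K} (hx : IsInt A x) (n : ℕ) : IsInt A (x ^ n) := by
  induction n with
  | zero => rw [pow_zero]; exact IsInt.one
  | succ n ih => rw [pow_succ]; exact ih.mul hx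

theorem IsInt.smul {x : LaurentSeries K} {c : K} (hc : c ∈ A) (hx : IsInt A x) : IsInt A (c • x) :=
  fun n => by
    rw [coeff_smul']
    exact A.mul_mem _ _ hc (hx n)

theorem IsInt.sum {ι : Type*} (s : Finset ι) (x : ι → LaurentSeries K)
    (h : ∀ i ∈ s, IsInt A (x i)) : IsInt A (∑ i ∈ s, x i) := by
  classical
  induction s using Finset.induction_on with
  | empty => rw [Finset.sum_empty]; exact IsInt.zero
  | insert a s ha ih =>
    rw [Finset.sum_insert ha]
    exact (h a (Finset.mem_insert_self _ _)).add (ih fun i hi => h i (Finset.mem_insert_of_mem hi))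

theorem rd_add {x y : LaurentSeries K} (hx : IsInt A x) (hy : IsInt A y) :
    rd A (x + y) = rd A x + rd A y := by
  obtain ⟨X, rfl⟩ := (isInt_iff A).1 hx
  obtain ⟨Y, rfl⟩ := (isInt_iff A).1 hy
  rw [← map_add, rd_emb, rd_emb, rd_emb, map_add]

theorem rd_mul {x y : LaurentSeries K} (hx : IsInt A x) (hy : IsInt A y) :
    rd A (x * y) = rd A x * rd A y := by
  obtain ⟨X, rfl⟩ := (isInt_iff A).1 hx
  obtain ⟨Y, rfl⟩ := (isInt_iff A).1 hy
  rw [← map_mul, rd_emb, rd_emb, rd_emb, map_mul]

theorem rd_neg {x : LaurentSeries K} (hx : IsInt A x) : rd A (-x) = -rd A x := by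
  obtain ⟨X, rfl⟩ := (isInt_iff A).1 hx
  rw [← map_neg, rd_emb, rd_emb, map_neg]

theorem rd_sub {x y : LaurentSeries K} (hx : IsInt A x) (hy : IsInt A y) :
    rd A (x - y) = rd A x - rd A y := by
  rw [sub_eq_add_neg, rd_add hx hy.neg, rd_neg hy, sub_eq_add_neg]

variable (A) in
@[simp] theorem rd_zero : rd A 0 = 0 := by
  rw [← map_zero (emb A), rd_emb, map_zero]

variable (A) in
@[simp] theorem rd_one : rd A 1 = 1 := by
  rw [← map_one (emb A), rd_emb, map_one]

theorem rd_pow {x : LaurentSeries K} (hx : IsInt A x) (n : ℕ) : rd A (x ^ n) = rd A x ^ n := by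
  obtain ⟨X, rfl⟩ := (isInt_iff A).1 hx
  rw [← map_pow, rd_emb, rd_emb, map_pow]

theorem rd_smul {x : LaurentSeries K} {c : K} (hc : c ∈ A) (hx : IsInt A x) :
    rd A (c • x) = resid A c • rd A x := by
  ext n
  rw [rd_coeff, coeff_smul', coeff_smul', resid_mul A hc (hx n), rd_coeff]

theorem rd_sum {ι : Type*} (s : Finset ι) (x : ι → LaurentSeries K)
    (h : ∀ i ∈ s, IsInt A (x i)) : rd A (∑ i ∈ s, x i) = ∑ i ∈ s, rd A (x i) := by
  classical
  induction s using Finset.induction_on with
  | empty => rw [Finset.sum_empty, Finset.sum_empty, rd_zero]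
  | insert a s ha ih =>
    rw [Finset.sum_insert ha, Finset.sum_insert ha,
      rd_add (h a (Finset.mem_insert_self _ _))
        (IsInt.sum s x fun i hi => h i (Finset.mem_insert_of_mem hi)),
      ih fun i hi => h i (Finset.mem_insert_of_mem hi)]

/-- attained Gauss norm: `x` is a scalar multiple of an integral series with nonzero reduction -/
def Att (A : ValuationSubring K) (x : LaurentSeries K) : Prop :=
  ∃ c : K, c ≠ 0 ∧ IsInt A (c • x) ∧ rd A (c • x) ≠ 0

theorem Att.ne_zero {x : LaurentSeries K} (h : Att A x) : x ≠ 0 := by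
  rintro rfl
  obtain ⟨c, -, -, h⟩ := h
  apply h
  rw [smul_zero, rd_zero]

theorem Att.mul {x y : LaurentSeries K} (hx : Att A x) (hy : Att A y) : Att A (x * y) := by
  obtain ⟨c, hc, h1, h2⟩ := hx
  obtain ⟨d, hd, h3, h4⟩ := hy
  refine ⟨c * d, mul_ne_zero hc hd, ?_, ?_⟩
  · rw [mul_smul, ← mul_smul_comm d x y, ← smul_mul_assoc c]
    exact h1.mul h3
  · rw [mul_smul, ← mul_smul_comm d x y, ← smul_mul_assoc c, rd_mul h1 h3]
    exact mul_ne_zero h2 h4

theorem Att.smul {x : LaurentSeries K} {c : K} (hc : c ≠ 0) (hx : Att A x) : Att A (c • x) := by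
  obtain ⟨d, hd, h1, h2⟩ := hx
  refine ⟨d * c⁻¹, mul_ne_zero hd (inv_ne_zero hc), ?_, ?_⟩
  · rwa [smul_smul, mul_assoc, inv_mul_cancel₀ hc, mul_one]
  · rwa [smul_smul, mul_assoc, inv_mul_cancel₀ hc, mul_one]

theorem att_of_rd {x : LaurentSeries K} (hx : IsInt A x) (h : rd A x ≠ 0) : Att A x :=
  ⟨1, one_ne_zero, by rwa [one_smul], by rwa [one_smul]⟩

/-- an integral series with non zero reduction times a scalar is integral iff the scalar is -/
theorem mem_of_isInt_smul {x : LaurentSeries K} {c : K} (hx : IsInt A x) (h : rd A x ≠ 0)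
    (hc : IsInt A (c • x)) : c ∈ A := by
  obtain ⟨n, hn⟩ : ∃ n, (rd A x).coeff n ≠ 0 := by
    by_contra hcon
    push Not at hcon
    exact h (HahnSeries.ext (funext hcon))
  rw [rd_coeff, resid_ne_zero_iff A (hx n)] at hn
  have h1 := hc n
  rw [coeff_smul'] at h1
  have h2 := A.mul_mem _ _ h1 hn.1
  rwa [mul_assoc, mul_inv_cancel₀ hn.2, mul_one] at h2

/-- integrality can be checked on powers, for series of attained norm -/
theorem Att.isInt_of_pow {x : LaurentSeries K} (hx : Att A x) {m : ℕ} (hm : m ≠ 0)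
    (h : IsInt A (x ^ m)) : IsInt A x := by
  obtain ⟨c, hc, h1, h2⟩ := hx
  have h3 : IsInt A ((c⁻¹ ^ m) • (c • x) ^ m) := by
    rw [smul_pow, smul_smul, ← mul_pow, inv_mul_cancel₀ hc, one_pow, one_smul]
    exact h
  have h4 : c⁻¹ ^ m ∈ A := mem_of_isInt_smul (h1.pow m) (by
    rw [rd_pow h1]; exact pow_ne_zero _ h2) h3
  have h5 : c⁻¹ ∈ A := by
    rcases A.mem_or_inv_mem c⁻¹ with h | h
    · exact h
    · rw [inv_inv] at h
      have h6 : c⁻¹ = c⁻¹ ^ m * c ^ (m - 1) := by
        obtain ⟨m, rfl⟩ := Nat.exists_eq_succ_of_ne_zero hm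
        rw [Nat.succ_sub_one, pow_succ, mul_comm (c⁻¹ ^ m), mul_assoc, ← mul_pow,
          inv_mul_cancel₀ hc, one_pow, mul_one]
      rw [h6]
      exact A.mul_mem _ _ h4 (A.toSubring.pow_mem h _)
  have h6 := h1.smul h5
  rwa [smul_smul, inv_mul_cancel₀ hc, one_smul] at h6

/-- an integral series of attained norm with zero reduction is divisible by a nonunit -/
theorem Att.exists_of_rd_eq_zero {x : LaurentSeries K} (hx : Att A x) (h : rd A x = 0)
    (hi : IsInt A x) : ∃ c : K, c ≠ 0 ∧ c ∈ A.nonunits ∧ IsInt A (c⁻¹ • x) := by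
  obtain ⟨c, hc, h1, h2⟩ := hx
  have h3 : c⁻¹ ∈ A := mem_of_isInt_smul h1 h2 (by rwa [smul_smul, inv_mul_cancel₀ hc, one_smul])
  refine ⟨c⁻¹, inv_ne_zero hc, ?_, by rwa [inv_inv]⟩
  rw [← resid_eq_zero_iff A h3]
  by_contra h4
  apply h2
  rw [← Ne, resid_ne_zero_iff A h3, inv_inv] at h4
  rw [rd_smul h4.1 hi, h, smul_zero]

end Fermat.Agent.H11Q
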