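import Fermat.Agent.H11Q.LevelPack
import Fermat.Agent.H28.ModRed

/-!
# Commutative algebra for two charts
-/

set_option autoImplicit false

noncomputable section

open IsLocalRing ModularCurve Module AlgebraicCurve

attribute [-instance] HahnSeries.instModule HahnSeries.instSMul HahnSeries.instDistribMulAction
  HahnSeries.instSMulZeroClass

namespace Fermat.Agent.H11Q

open Polynomial in
theorem eval₂_reflect_eq {R F : Type*} [CommRing R] [Field F] (i : R →+* F) {t u : F}
    (htu : t * u = 1) {N : ℕ} {a : R[X]} (ha : a.natDegree ≤ N) :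
    (reflect N a).eval₂ i u = u ^ N * a.eval₂ i t := by
  have ht : t ≠ 0 := left_ne_zero_of_mul_eq_one htu
  letI := invertibleOfNonzero ht
  have hu : ⅟t = u := by
    rw [invOf_eq_inv]
    exact (eq_inv_of_mul_eq_one_right htu).symm
  have h := eval₂_reflect_mul_pow i t N a ha
  rw [hu] at h
  rw [← h, mul_comm, mul_assoc, ← mul_pow, htu, one_pow, mul_one]

open Polynomial in
/-- passing from a chart to the other one -/
theorem shift_integral {R F : Type*} [CommRing R] [Field F] (i : R →+* F) {t u : F}
    (htu : t * u = 1) {z : F} (hz : (eval₂RingHom i t).IsIntegralElem z) :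
    ∃ b₀ : ℕ, ∀ b, b₀ ≤ b → (eval₂RingHom i u).IsIntegralElem (u ^ b * z) := by
  classical
  obtain ⟨p, hp, hpz⟩ := hz
  refine ⟨∑ j ∈ Finset.range (p.natDegree + 1), (p.coeff j).natDegree, fun b hb => ?_⟩
  have hdeg : ∀ j, j < p.natDegree → (p.coeff j).natDegree ≤ b * (p.natDegree - j) := by
    intro j hj
    have h1 : (p.coeff j).natDegree ≤
        ∑ j ∈ Finset.range (p.natDegree + 1), (p.coeff j).natDegree :=
      Finset.single_le_sum (f := fun j => (p.coeff j).natDegree) (fun _ _ => Nat.zero_le _)
        (Finset.mem_range.2 (by omega))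
    exact (h1.trans hb).trans (Nat.le_mul_of_pos_right _ (by omega))
  have hmonic : (X ^ p.natDegree + ∑ j ∈ Finset.range p.natDegree,
      C (reflect (b * (p.natDegree - j)) (p.coeff j)) * X ^ j : R[X][X]).Monic := by
    apply monic_X_pow_add
    refine (degree_sum_le _ _).trans_lt ?_
    rw [Finset.sup_lt_iff (WithBot.bot_lt_coe _)]
    intro j hj
    refine (degree_C_mul_X_pow_le _ _).trans_lt ?_
    exact_mod_cast Finset.mem_range.1 hj
  refine ⟨_, hmonic, ?_⟩
  have h1 : p = X ^ p.natDegree + ∑ j ∈ Finset.range p.natDegree, C (p.coeff j) * X ^ j := by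
    conv_lhs => rw [p.as_sum_range_C_mul_X_pow, Finset.sum_range_succ, add_comm]
    rw [hp.coeff_natDegree, C_1, one_mul]
  rw [h1] at hpz
  rw [eval₂_add, eval₂_pow, eval₂_X, eval₂_finset_sum] at hpz ⊢
  have h2 : ∀ j ∈ Finset.range p.natDegree,
      eval₂ (eval₂RingHom i u) (u ^ b * z)
        (C (reflect (b * (p.natDegree - j)) (p.coeff j)) * X ^ j) =
      u ^ (b * p.natDegree) * eval₂ (eval₂RingHom i t) z (C (p.coeff j) * X ^ j) := by
    intro j hj
    have hj' := Finset.mem_range.1 hj
    rw [eval₂_mul, eval₂_mul, eval₂_C, eval₂_C, eval₂_X_pow, eval₂_X_pow, coe_eval₂RingHom,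
      coe_eval₂RingHom, eval₂_reflect_eq i htu (hdeg j hj'), mul_pow, ← pow_mul]
    have h3 : b * p.natDegree = b * (p.natDegree - j) + b * j := by
      rw [← mul_add]
      congr 1
      omega
    rw [h3, pow_add]
    ring
  rw [Finset.sum_congr rfl h2, ← Finset.mul_sum, mul_pow, ← pow_mul, ← mul_add, hpz, mul_zero]

theorem low_iff_mem_range {k : Type*} [Field k] {x : LaurentSeries k} :
    Low x 0 ↔ x ∈ (algebraMap (PowerSeries k) (LaurentSeries k)).range := by
  constructor
  · intro h
    refine ⟨PowerSeries.mk fun n => x.coeff n, ?_⟩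
    rw [LaurentSeries.coe_algebraMap]
    ext n
    rcases lt_or_ge n 0 with hn | hn
    · rw [h n hn]
      exact HahnSeries.embDomain_notin_range (by
        simp only [Set.mem_range, not_exists]
        intro m hm
        have : ((m : ℕ) : ℤ) = n := hm
        omega)
    · lift n to ℕ using hn
      rw [HahnSeries.ofPowerSeries_apply_coeff, PowerSeries.coeff_mk]
  · rintro ⟨y, rfl⟩ i hi
    rw [LaurentSeries.coe_algebraMap]
    exact HahnSeries.embDomain_notin_range (by
      simp only [Set.mem_range, not_exists]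
      intro m hm
      have : ((m : ℕ) : ℤ) = i := hm
      omega)

open Polynomial in
/-- series integral over the power series are power series -/
theorem low_of_integral {k : Type*} [Field k] {y : LaurentSeries k} (p : (LaurentSeries k)[X])
    (hp : p.Monic) (hc : ∀ i, Low (p.coeff i) 0) (h : p.eval y = 0) : Low y 0 := by
  rw [low_iff_mem_range]
  have h1 : p ∈ Polynomial.lifts (algebraMap (PowerSeries k) (LaurentSeries k)) := by
    rw [Polynomial.lifts_iff_coeff_lifts]
    intro n
    exact low_iff_mem_range.1 (hc n)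
  obtain ⟨q, hq, -, hqm⟩ := Polynomial.lifts_and_natDegree_eq_and_monic h1 hp
  have h2 : IsIntegral (PowerSeries k) y := ⟨q, hqm, by rw [← eval_map, hq, h]⟩
  exact IsIntegrallyClosed.algebraMap_eq_of_integral h2

end Fermat.Agent.H11Q
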