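import Fermat.Agent.H11Q.Good
import Fermat.Agent.H11Q.Residue

/-!
# Classes with `m`-th power reductions, existence of good representatives
-/

set_option autoImplicit false

noncomputable section

open IsLocalRing ModularCurve Module AlgebraicCurve

attribute [-instance] HahnSeries.instModule HahnSeries.instSMul HahnSeries.instDistribMulAction
  HahnSeries.instSMulZeroClass

namespace Fermat.Agent.H11Q

variable {K : Type*} [Field K] {A : ValuationSubring K} {F : Type*} [Field F] [Algebra K F]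

/-- the reduction of `f` on the `j`-th component is an `m`-th power (up to constants and up to
`m`-th powers) -/
def InK (T : TwoComp K A F) (m : ℕ) (j : Fin 2) (f : F) : Prop :=
  ∃ y : F, y ≠ 0 ∧ f * y ^ m ∈ T.Rg ∧ ∃ c : K, c ≠ 0 ∧ IsInt A (c • T.e j (f * y ^ m)) ∧
    ∃ u ∈ T.κ, u ≠ 0 ∧ rd A (c • T.e j (f * y ^ m)) = u ^ m

/-- `f` represents an `m`-torsion class with trivial reduction on both components -/
structure InT (T : TwoComp K A F) (m : ℕ) (f : F) : Prop where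
  ne : f ≠ 0
  dvd : ∀ v : Place K F, (m : ℤ) ∣ v.ord f
  red : ∀ j, InK T m j f

theorem exists_root_resid [IsAlgClosed K] {c : K} (hc0 : resid A c ≠ 0) {m : ℕ}
    (hm : m ≠ 0) : ∃ d : ResidueField A, d ^ m = resid A c ∧ d ≠ 0 := by
  have := isAlgClosed_residueField A
  obtain ⟨d, hd⟩ := IsAlgClosed.exists_pow_nat_eq (resid A c) (Nat.pos_of_ne_zero hm)
  refine ⟨d, hd, ?_⟩
  rintro rfl
  rw [zero_pow hm] at hd
  exact hc0 hd.symm

section Disc

variable {T : TwoComp K A F} {m : ℕ} {f : F}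
variable [IsAlgClosed K] [FF.FunField K F]
variable [CharZero K] [Algebra.IsAlgebraic ℤ K] {q : ℕ} (hq : q.Prime)
  (hqA : (q : K) ∈ A.nonunits)

omit [Algebra.IsAlgebraic ℤ K] in
theorem exists_mem_M (D : Divisor K F) : ∃ n₀ : ℕ, ∀ n : ℕ, n₀ ≤ n → ∃ z ∈ T.M D n, z ≠ 0 := by
  refine ⟨genusFF K F + (Divisor.degree D).natAbs, fun n hn => ?_⟩
  have h1 := TwoComp.finrank_M (T := T) D (n := n) (by omega)
  by_contra hcon
  push Not at hcon
  have h2 : T.M D n = ⊥ := by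
    rw [eq_bot_iff]
    intro z hz
    exact hcon z hz
  rw [h2, finrank_bot] at h1
  omega

omit [Algebra.IsAlgebraic ℤ K] in
theorem exists_mul_mem_Rg (hm : m ≠ 0) (hf : f ≠ 0) (hdvd : ∀ v : Place K F, (m : ℤ) ∣ v.ord f) :
    ∃ y : F, y ≠ 0 ∧ f * y ^ m ∈ T.Rg := by
  obtain ⟨D, hD⟩ := TwoComp.exists_D hdvd
  obtain ⟨n, h⟩ := exists_mem_M (T := T) D
  obtain ⟨z, hz, h0⟩ := h n le_rfl
  refine ⟨z, h0, ?_⟩
  rw [mul_comm]
  exact ((TwoComp.mem_M_iff' hm hf hD h0).1 hz).1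

include hq hqA

omit [IsAlgClosed K] [FF.FunField K F] in
/-- independence of the representative -/
theorem InK.indep [IsAlgClosed K] {j : Fin 2} (hm : m ≠ 0) (hf : f ≠ 0) (h : InK T m j f) {y' : F}
    (hy' : y' ≠ 0) (hfy' : f * y' ^ m ∈ T.Rg) :
    ∃ t : K, t ≠ 0 ∧ IsInt A ((t ^ m)⁻¹ • T.e j (f * y' ^ m)) ∧
      ∃ u ∈ T.κ, u ≠ 0 ∧ rd A ((t ^ m)⁻¹ • T.e j (f * y' ^ m)) = u ^ m := by
  obtain ⟨y, hy, hfy, c, hc, hci, u, hu, hu0, hcu⟩ := h
  set g := f * y ^ m with hg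
  set g' := f * y' ^ m with hg'
  have hg0 : g ≠ 0 := mul_ne_zero hf (pow_ne_zero _ hy)
  have hg'0 : g' ≠ 0 := mul_ne_zero hf (pow_ne_zero _ hy')
  obtain ⟨n, rfl⟩ : ∃ n, m = n + 1 := Nat.exists_eq_succ_of_ne_zero hm
  -- `b = (y'/y) g`
  set b := y' * y⁻¹ * g with hb
  have hb0 : b ≠ 0 := mul_ne_zero (mul_ne_zero hy' (inv_ne_zero hy)) hg0
  have hbpow : b ^ (n + 1) = g' * g ^ n := by
    rw [hb, mul_pow, pow_succ g, hg', hg]
    field_simp
    rw [div_pow, div_mul_cancel₀ _ (pow_ne_zero _ hy)]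
  have hbR : b ∈ T.Rg := by
    apply TwoComp.mem_Rg_of_pow (Nat.succ_ne_zero n)
    rw [Nat.succ_eq_add_one, hbpow]
    exact mul_mem hfy' (pow_mem hfy _)
  obtain ⟨d, hd, hdi, hd0⟩ := TwoComp.att_e hq hqA hbR hb0 j
  obtain ⟨c', hc', hci', hc0'⟩ := TwoComp.att_e hq hqA hfy' hg'0 j
  have hκ : rd A (d • T.e j b) ∈ T.κ := by
    rw [← map_smul] at hdi ⊢
    exact T.res_κ _ (Subalgebra.smul_mem _ hbR _) j hdi
  -- the relation between the scaled elements
  set γ : K := d ^ (n + 1) * c'⁻¹ * (c⁻¹) ^ n with hγ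
  have hγ0 : γ ≠ 0 := mul_ne_zero (mul_ne_zero (pow_ne_zero _ hd) (inv_ne_zero hc'))
    (pow_ne_zero _ (inv_ne_zero hc))
  have hrel : (d • T.e j b) ^ (n + 1) = γ • ((c' • T.e j g') * (c • T.e j g) ^ n) := by
    rw [smul_pow, ← map_pow, hbpow, map_mul, map_pow, smul_pow, smul_mul_smul_comm, smul_smul, hγ]
    congr 1
    rw [inv_pow]
    field_simp
  have hint2 : IsInt A ((c' • T.e j g') * (c • T.e j g) ^ n) := hci'.mul (hci.pow n)
  have hrd2 : rd A ((c' • T.e j g') * (c • T.e j g) ^ n) =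
      rd A (c' • T.e j g') * (u ^ (n + 1)) ^ n := by
    rw [rd_mul hci' (hci.pow n), rd_pow hci, hcu]
  have hrd2' : rd A ((c' • T.e j g') * (c • T.e j g) ^ n) ≠ 0 := by
    rw [hrd2]
    exact mul_ne_zero hc0' (pow_ne_zero _ (pow_ne_zero _ hu0))
  have hγA : γ ∈ A := mem_of_isInt_smul hint2 hrd2' (by rw [← hrel]; exact hdi.pow _)
  have h3 : rd A (d • T.e j b) ^ (n + 1) = resid A γ • (rd A (c' • T.e j g') * (u ^ (n + 1)) ^ n) := by
    rw [← rd_pow hdi, hrel, rd_smul hγA hint2, hrd2]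
  have hγr : resid A γ ≠ 0 := by
    intro h
    rw [h, zero_smul] at h3
    exact hd0 (pow_eq_zero_iff (Nat.succ_ne_zero n) |>.1 h3)
  obtain ⟨δ, hδ, hδ0⟩ := exists_root_resid hγr (m := n + 1) (Nat.succ_ne_zero n)
  obtain ⟨t, ht⟩ := IsAlgClosed.exists_pow_nat_eq (c'⁻¹) (Nat.pos_of_ne_zero hm)
  have ht0 : t ≠ 0 := by
    rintro rfl
    rw [zero_pow hm] at ht
    exact inv_ne_zero hc' ht.symm
  refine ⟨t, ht0, ?_, algebraMap _ _ δ⁻¹ * rd A (d • T.e j b) * (u ^ n)⁻¹, ?_, ?_, ?_⟩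
  · rw [ht, inv_inv]
    exact hci'
  · exact T.κ.mul_mem (T.κ.mul_mem (T.O_le _ (T.O.algebraMap_mem _)) hκ)
      (T.κ.inv_mem (T.κ.pow_mem hu _))
  · refine mul_ne_zero (mul_ne_zero ?_ hd0) (inv_ne_zero (pow_ne_zero _ hu0))
    rw [Ne, map_eq_zero]
    exact inv_ne_zero hδ0
  · rw [ht, inv_inv, mul_pow, mul_pow, h3, ← map_pow, inv_pow, hδ, Algebra.smul_def (resid A γ)]
    have h4 : (algebraMap (ResidueField A) (LaurentSeries (ResidueField A))) (resid A γ)⁻¹ *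
        (algebraMap (ResidueField A) (LaurentSeries (ResidueField A))) (resid A γ) = 1 := by
      rw [← map_mul, inv_mul_cancel₀ hγr, map_one]
    have h5 : (u ^ (n + 1)) ^ n * ((u ^ n)⁻¹) ^ (n + 1) = 1 := by
      rw [inv_pow, ← pow_mul, ← pow_mul, mul_comm (n + 1) n]
      exact mul_inv_cancel₀ (pow_ne_zero _ hu0)
    calc rd A (c' • (T.e j) g') = ((algebraMap (ResidueField A) (LaurentSeries (ResidueField A)))
          (resid A γ)⁻¹ * (algebraMap (ResidueField A) (LaurentSeries (ResidueField A)))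
          (resid A γ)) * rd A (c' • (T.e j) g') * ((u ^ (n + 1)) ^ n * ((u ^ n)⁻¹) ^ (n + 1)) := by
            rw [h4, h5, one_mul, mul_one]
      _ = _ := by ring

/-- every class in `T` has a representative with twist data -/
theorem InT.exists_tw (hm : m ≠ 0) (h : InT T m f) : ∃ y : F, y ≠ 0 ∧ Nonempty (Tw T m (f * y ^ m)) := by
  obtain ⟨y, hy, hfy⟩ := exists_mul_mem_Rg (T := T) hm h.ne h.dvd
  choose t ht hti u hu hu0 htu using fun j => (h.red j).indep hq hqA hm h.ne hy hfy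
  obtain ⟨D, hD⟩ := TwoComp.exists_D (K := K) (F := F) (m := m) (f := f * y ^ m) (fun v => by
    rw [v.ord_mul h.ne (pow_ne_zero _ hy), H18.ord_pow]
    exact dvd_add (h.dvd v) (dvd_mul_right _ _))
  exact ⟨y, hy, ⟨{
    m_ne := hm
    f_ne := mul_ne_zero h.ne (pow_ne_zero _ hy)
    f_mem := hfy
    D := D
    hD := hD
    t := t
    t_ne := ht
    int := hti
    u := u
    u_mem := hu
    u_ne := hu0
    rd_eq := htu }⟩⟩

/-- existence of good representatives -/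
theorem Tw.exists_good (ν : NodeData T) (w : Tw T m f) (hm : resid A (m : K) ≠ 0) :
    ∃ y : F, y ≠ 0 ∧ Nonempty (Good T m (f * y ^ m)) := by
  obtain ⟨ζ, hζ, n₀, h⟩ := w.exists_zeta hq hqA ν
  obtain ⟨n₁, h1⟩ := exists_exact ν.α ν.α_surj
  obtain ⟨n₂, h2⟩ := exists_exact ν.β ν.β_surj
  obtain ⟨n, hn0, hn1, hn2⟩ : ∃ n : ℕ, n₀ ≤ n ∧ n₁ ≤ n ∧ n₂ ≤ n :=
    ⟨max n₀ (max n₁ n₂), by omega, by omega, by omega⟩
  obtain ⟨a, ha, ha', haα⟩ := h1 n hn1
  obtain ⟨b, hb, hb', hbβ⟩ := h2 n hn2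
  have hX : (![a, b] : Fin 2 → T.O) ∈ XO T n := by
    intro j
    fin_cases j
    · exact ha
    · exact hb
  have hN : (![a, b] : Fin 2 → T.O) ∈ w.N n := by
    rw [h n hn0 _ hX]
    intro i
    change ν.α i a = ζ i * ν.β i b
    rw [haα, hbβ, mul_zero]
  obtain ⟨z, hz, hi, hz2⟩ := w.mem_N.1 hN
  have hcoef : ∀ j, (w.r z j).coeff (-n) ≠ 0 := by
    intro j
    rw [← hz2]
    fin_cases j
    · exact ha'
    · exact hb'
  have hlow : ∀ j, Low (w.r z j) (-n) := by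
    intro j
    rw [← hz2]
    exact hX j
  have hr0 : ∀ j, w.r z j ≠ 0 := fun j h => hcoef j (by rw [h]; rfl)
  have hz0 : z ≠ 0 := by
    rintro rfl
    apply hr0 0
    rw [Tw.r, map_zero, rd_zero, zero_div]
  have hord : ∀ j, (w.r z j).order = -n := by
    intro j
    apply le_antisymm (HahnSeries.order_le_of_coeff_ne_zero (hcoef j))
    exact (low_iff (hr0 j)).1 (hlow j)
  obtain ⟨hzR, hzlow⟩ := w.mem_of_mem_M hz
  have hi' := (w.isInt_all hq hqA hzR).1 hi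
  have hf1 : f * z ^ m = z ^ m * f := mul_comm _ _
  have hne : f * z ^ m ≠ 0 := mul_ne_zero w.f_ne (pow_ne_zero _ hz0)
  have hrd : ∀ j, rd A (T.e j (f * z ^ m)) = (w.r z j) ^ m := fun j => by
    rw [hf1, w.r_pow (hi j) (hi' j)]
  have hUL : ∀ j, UnitLead A (T.e j (f * z ^ m)) (m * (-n)) := by
    intro j
    have h3 : (rd A (T.e j (f * z ^ m))).order = m * (-n) := by
      rw [hrd, HahnSeries.order_pow, hord, nsmul_eq_mul]
    have h4 := unitLead_of_order (A := A) (x := T.e j (f * z ^ m)) (by rw [hf1]; exact hi' j)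
      (by rw [hrd]; exact pow_ne_zero _ (hr0 j)) (by
        rw [h3]
        have h5 := hzlow j
        rw [← hf1] at h5
        exact (low_iff (TwoComp.e_ne_zero hne)).1 h5)
    rwa [h3] at h4
  have hnum : ∀ j, NumF (T.e j (f * z ^ m)) := fun j =>
    (T.nice _ (by rw [hf1]; exact hzR) j).1
  choose H hH1 hH2 hH3 using fun j => (hUL j).exists_root w.m_ne hm (hnum j)
  have := isAlgClosed_residueField A
  have hHκ : ∀ j, rd A (H j) ∈ T.κ := by
    intro j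
    have h6 : rd A (H j) ^ m = (w.r z j) ^ m := by
      rw [← rd_pow (hH2 j).int, hH1, hrd]
    obtain ⟨c, hc, hc2⟩ := exists_const_of_pow_eq (k := ResidueField A) w.m_ne h6
    rw [hc2]
    exact T.κ.mul_mem (T.O_le _ (T.O.algebraMap_mem _)) (w.r_mem_κ hzR (hi j))
  refine ⟨z, hz0, ⟨{
    m_ne := w.m_ne
    f_ne := hne
    f_mem := by rw [hf1]; exact hzR
    D := w.D + FF.div z
    hD := fun v => by
      rw [Finsupp.add_apply, mul_add, w.hD, FF.div_apply, v.ord_mul w.f_ne (pow_ne_zero _ hz0),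
        H18.ord_pow]
    H := H
    n := fun _ => -n
    H_lead := hH2
    H_num := hH3
    H_pow := hH1
    H_mem := hHκ }⟩⟩

theorem InT.exists_good (ν : NodeData T) (h : InT T m f) (hm : resid A (m : K) ≠ 0) :
    ∃ y : F, y ≠ 0 ∧ Nonempty (Good T m (f * y ^ m)) := by
  have hm0 : m ≠ 0 := by
    rintro rfl
    rw [Nat.cast_zero, resid_zero] at hm
    exact hm rfl
  obtain ⟨y, hy, ⟨w⟩⟩ := h.exists_tw hq hqA hm0
  obtain ⟨z, hz, ⟨g⟩⟩ := w.exists_good hq hqA ν hm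
  refine ⟨y * z, mul_ne_zero hy hz, ⟨?_⟩⟩
  rw [mul_pow, ← mul_assoc]
  exact g

end Disc

end Fermat.Agent.H11Q
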