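import Fermat.Agent.H11Q.Mult

/-!
# Connectedness: a class with trivial reductions and trivial twists is trivial (prime level)
-/

set_option autoImplicit false

noncomputable section

open IsLocalRing ModularCurve Module AlgebraicCurve

attribute [-instance] HahnSeries.instModule HahnSeries.instSMul HahnSeries.instDistribMulAction
  HahnSeries.instSMulZeroClass

namespace Fermat.Agent.H11Q

universe uK uF

variable {K : Type uK} [Field K] {A : ValuationSubring K} {F : Type uF} [Field F] [Algebra K F]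
variable {T : TwoComp K A F}

theorem orth {p : ℕ} {ζ : K} (hζ : IsPrimitiveRoot ζ p) {i l : ℕ} (hi : i < p) (hl : l < p) :
    ∑ t ∈ Finset.range p, (ζ ^ i * (ζ⁻¹) ^ l) ^ t = if i = l then (p : K) else 0 := by
  have hp : p ≠ 0 := by omega
  have hζ0 : ζ ≠ 0 := hζ.ne_zero hp
  split_ifs with h
  · subst h
    rw [← mul_pow, mul_inv_cancel₀ hζ0, one_pow]
    simp
  · set ω := ζ ^ i * (ζ⁻¹) ^ l with hω
    have h1 : ω ^ p = 1 := by
      rw [hω, mul_pow, ← pow_mul, ← pow_mul, mul_comm i p, mul_comm l p, pow_mul, pow_mul,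
        hζ.pow_eq_one, inv_pow, hζ.pow_eq_one, inv_one, one_pow, one_pow, mul_one]
    have h2 : ω ≠ 1 := by
      intro h3
      rw [hω, inv_pow, mul_inv_eq_one₀ (pow_ne_zero _ hζ0)] at h3
      exact h (hζ.pow_inj hi hl h3)
    have h4 := geom_sum_mul ω p
    rw [h1, sub_self] at h4
    exact (mul_eq_zero.1 h4).resolve_right (sub_ne_zero.2 h2)

theorem exists_common_att {ι : Type*} [Finite ι] [Nonempty ι] (x : ι → LaurentSeries K)
    (h : ∀ i, Att A (x i)) :
    ∃ c : K, c ≠ 0 ∧ (∀ i, IsInt A (c • x i)) ∧ ∃ i, rd A (c • x i) ≠ 0 := by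
  choose c hc h1 h2 using h
  obtain ⟨i₀, hi₀⟩ := Finite.exists_min (fun i => A.valuation (c i))
  refine ⟨c i₀, hc i₀, fun i => ?_, i₀, h2 i₀⟩
  have h3 : c i₀ * (c i)⁻¹ ∈ A := by
    rw [← A.valuation_le_one_iff, map_mul, map_inv₀]
    have h4 : A.valuation (c i) ≠ 0 := (A.valuation.ne_zero_iff).2 (hc i)
    calc A.valuation (c i₀) * (A.valuation (c i))⁻¹
        ≤ A.valuation (c i) * (A.valuation (c i))⁻¹ := mul_le_mul_left (hi₀ i) _
      _ = 1 := mul_inv_cancel₀ h4
  have h5 := (h1 i).smul h3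
  rwa [smul_smul, mul_assoc, inv_mul_cancel₀ (hc i), mul_one] at h5

/-- the algebraic data of the cover `F(f^{1/p})` -/
structure Cov {p : ℕ} {f : F} (w : Good T p f) (ζ : K) where
  L : Type uF
  [field : Field L]
  [alg : Algebra F L]
  h : L
  h_pow : h ^ p = algebraMap F L f
  e : ℕ → Fin 2 → L →+* LaurentSeries K
  e_alg : ∀ t j z, e t j (algebraMap F L z) = T.e j z
  e_h : ∀ t j, e t j h = ζ ^ t • w.H j
  indep : ∀ z : Fin p → F, ∑ i : Fin p, algebraMap F L (z i) * h ^ (i : ℕ) = 0 → z = 0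

attribute [instance] Cov.field Cov.alg

namespace Good

variable {m : ℕ} {f : F} (w : Good T m f)

/-- `G` as a linear map -/
def Glin (j : Fin 2) : F →ₗ[K] LaurentSeries K where
  toFun := w.G j
  map_add' := w.G_add j
  map_smul' := w.G_smul j

theorem Glin_apply (j : Fin 2) (z : F) : w.Glin j z = w.G j z := rfl

/-- the submodule of all `z` with `z^m f` having poles only at the cusps -/
def MM : Submodule K F where
  carrier := {z | z ^ m * f ∈ T.Rg}
  zero_mem' := by
    change (0 : F) ^ m * f ∈ T.Rg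
    rw [zero_pow w.m_ne, zero_mul]
    exact zero_mem _
  add_mem' := by
    intro a b ha hb
    have key : ∀ z : F, z ≠ 0 → (z ^ m * f ∈ T.Rg ↔
        ∀ v : Place K F, v ≠ T.P 0 → v ≠ T.P 1 → -w.D v ≤ v.ord z) := by
      intro z hz
      rw [TwoComp.mem_Rg_iff_ord]
      refine forall_congr' fun v => forall_congr' fun _ => forall_congr' fun _ => ?_
      rw [v.ord_mul (pow_ne_zero _ hz) w.f_ne, H18.ord_pow, ← w.hD, ← mul_add]
      have hm' : (0 : ℤ) < m := by exact_mod_cast Nat.pos_of_ne_zero w.m_ne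
      constructor
      · intro h
        have := nonneg_of_mul_nonneg_right h hm'
        omega
      · intro h
        have : 0 ≤ v.ord z + w.D v := by omega
        positivity
    rcases eq_or_ne (a + b) 0 with h0 | h0
    · change (a + b) ^ m * f ∈ T.Rg
      rw [h0, zero_pow w.m_ne, zero_mul]
      exact zero_mem _
    · change (a + b) ^ m * f ∈ T.Rg
      rw [key _ h0]
      intro v h1 h2
      apply H18.le_ord_add v h0
      · rcases eq_or_ne a 0 with h3 | h3
        · exact Or.inl h3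
        · exact Or.inr ((key a h3).1 ha v h1 h2)
      · rcases eq_or_ne b 0 with h3 | h3
        · exact Or.inl h3
        · exact Or.inr ((key b h3).1 hb v h1 h2)
  smul_mem' := by
    intro c a ha
    change (c • a) ^ m * f ∈ T.Rg
    rw [smul_pow, smul_mul_assoc]
    exact Subalgebra.smul_mem _ ha _

theorem mem_MM {z : F} : z ∈ w.MM ↔ z ^ m * f ∈ T.Rg := Iff.rfl

theorem M_le_MM (n : ℤ) : T.M w.D n ≤ w.MM := fun _ hz => (w.toTw.mem_of_mem_M hz).1

theorem G_low {n : ℤ} {z : F} (hz : z ∈ T.M w.D n) (j : Fin 2) : Low (w.G j z) (-n) := by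
  apply low_of_pow w.m_ne
  rw [w.G_pow]
  exact (w.toTw.mem_of_mem_M hz).2 j

theorem G_nice {z : F} (hz : z ∈ w.MM) (j : Fin 2) : NumF (w.G j z) ∧ Bdd A (w.G j z) := by
  have h1 := w.toTw.mul_mem_Rg hz
  have h2 := T.nice _ h1 j
  have h3 : w.G j z = T.e j (z * f) * (w.H j)⁻¹ ^ (m - 1) := by
    rw [w.G_eq, Tw.E_apply]
    change ((1 : K) ^ (m - 1))⁻¹ • T.e j (z * f) * _ = _
    rw [one_pow, inv_one, one_smul]
  rw [h3]
  exact ⟨h2.1.mul (((w.H_lead j).numF_inv (w.H_num j)).pow _),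
    h2.2.mul ((w.H_lead j).inv.1.int.pow _).bdd⟩

end Good

namespace Cov

variable {p : ℕ} {f : F} {w : Good T p f} {ζ : K} (c : Cov w ζ)

/-- elements all of whose homogeneous components have poles only at cusps -/
def Mem (x : c.L) : Prop := ∃ z : Fin p → F, (∀ i : Fin p, z i ∈ (w.pow (i : ℕ)).MM) ∧
  x = ∑ i : Fin p, algebraMap F c.L (z i) * c.h ^ (i : ℕ)

variable {c}

theorem Mem.add {x y : c.L} (hx : c.Mem x) (hy : c.Mem y) : c.Mem (x + y) := by
  obtain ⟨z, hz, rfl⟩ := hx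
  obtain ⟨z', hz', rfl⟩ := hy
  refine ⟨z + z', fun i => Submodule.add_mem _ (hz i) (hz' i), ?_⟩
  rw [← Finset.sum_add_distrib]
  refine Finset.sum_congr rfl fun i _ => ?_
  rw [Pi.add_apply, map_add, add_mul]

theorem mem_zero : c.Mem 0 := ⟨0, fun i => Submodule.zero_mem _, by simp⟩

theorem mem_sum {ι : Type*} (s : Finset ι) (x : ι → c.L) (h : ∀ i ∈ s, c.Mem (x i)) :
    c.Mem (∑ i ∈ s, x i) := by
  classical
  induction s using Finset.induction_on with
  | empty => rw [Finset.sum_empty]; exact mem_zero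
  | insert a s ha ih =>
    rw [Finset.sum_insert ha]
    exact (h a (Finset.mem_insert_self _ _)).add (ih fun i hi => h i (Finset.mem_insert_of_mem hi))

theorem mem_hom {a : ℕ} {z : F} (hz : z ^ p * f ^ a ∈ T.Rg) :
    c.Mem (algebraMap F c.L z * c.h ^ a) := by
  classical
  have hp : 0 < p := Nat.pos_of_ne_zero w.m_ne
  let i₀ : Fin p := ⟨a % p, Nat.mod_lt _ hp⟩
  refine ⟨Pi.single i₀ (z * f ^ (a / p)), fun i => ?_, ?_⟩
  · rcases eq_or_ne i i₀ with rfl | hi
    · rw [Pi.single_eq_same, Good.mem_MM, mul_pow, ← pow_mul, mul_assoc, ← pow_add,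
        mul_comm (a / p) p]
      change z ^ p * f ^ (p * (a / p) + a % p) ∈ T.Rg
      rw [Nat.div_add_mod]
      exact hz
    · rw [Pi.single_eq_of_ne hi]
      exact Submodule.zero_mem _
  · rw [Finset.sum_eq_single i₀]
    · rw [Pi.single_eq_same, map_mul, map_pow, ← c.h_pow, ← pow_mul, mul_assoc, ← pow_add]
      change _ = algebraMap F c.L z * c.h ^ (p * (a / p) + a % p)
      rw [Nat.div_add_mod]
    · intro i _ hi
      rw [Pi.single_eq_of_ne hi, map_zero, zero_mul]
    · intro h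
      exact absurd (Finset.mem_univ _) h

theorem Mem.mul {x y : c.L} (hx : c.Mem x) (hy : c.Mem y) : c.Mem (x * y) := by
  obtain ⟨z, hz, rfl⟩ := hx
  obtain ⟨z', hz', rfl⟩ := hy
  rw [Finset.sum_mul_sum]
  refine mem_sum _ _ fun i _ => mem_sum _ _ fun j _ => ?_
  have h1 : algebraMap F c.L (z i) * c.h ^ (i : ℕ) * (algebraMap F c.L (z' j) * c.h ^ (j : ℕ)) =
      algebraMap F c.L (z i * z' j) * c.h ^ ((i : ℕ) + j) := by
    rw [map_mul, pow_add]
    ring
  rw [h1]
  apply mem_hom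
  rw [mul_pow, pow_add, mul_mul_mul_comm]
  exact mul_mem ((w.pow _).mem_MM.1 (hz i)) ((w.pow _).mem_MM.1 (hz' j))

theorem Mem.one : c.Mem 1 := by
  have := mem_hom (c := c) (a := 0) (z := 1) (by rw [one_pow, pow_zero, one_mul]; exact one_mem _)
  rwa [map_one, pow_zero, one_mul] at this

theorem Mem.pow {x : c.L} (hx : c.Mem x) (n : ℕ) : c.Mem (x ^ n) := by
  induction n with
  | zero => rw [pow_zero]; exact Mem.one
  | succ n ih => rw [pow_succ]; exact ih.mul hx

variable (c)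

theorem e_sum (t : ℕ) (j : Fin 2) (z : Fin p → F) :
    c.e t j (∑ i : Fin p, algebraMap F c.L (z i) * c.h ^ (i : ℕ)) =
      ∑ i : Fin p, (ζ ^ (t * (i : ℕ))) • (w.pow (i : ℕ)).G j (z i) := by
  rw [map_sum]
  refine Finset.sum_congr rfl fun i _ => ?_
  rw [map_mul, map_pow, c.e_alg, c.e_h, smul_pow, ← pow_mul, mul_smul_comm]
  rfl

/-- Fourier inversion -/
theorem fourier (hζ : IsPrimitiveRoot ζ p) (j : Fin 2) (z : Fin p → F) (l : Fin p) :
    ∑ t ∈ Finset.range p, ((ζ⁻¹) ^ (l : ℕ)) ^ t • c.e t j (∑ i : Fin p, algebraMap F c.L (z i) * c.h ^ (i : ℕ))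
      = (p : K) • (w.pow (l : ℕ)).G j (z l) := by
  simp_rw [c.e_sum, Finset.smul_sum, smul_smul]
  rw [Finset.sum_comm]
  have h1 : ∀ i : Fin p, ∑ t ∈ Finset.range p, (((ζ⁻¹) ^ (l : ℕ)) ^ t * ζ ^ (t * (i : ℕ))) •
      (w.pow (i : ℕ)).G j (z i) = (if (i : ℕ) = l then (p : K) else 0) • (w.pow (i : ℕ)).G j (z i) := by
    intro i
    rw [← Finset.sum_smul]
    congr 1
    rw [← orth hζ i.2 l.2]
    refine Finset.sum_congr rfl fun t _ => ?_
    rw [mul_pow, mul_comm t, pow_mul, mul_comm]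
  rw [Finset.sum_congr rfl fun i _ => h1 i, Finset.sum_eq_single l]
  · rw [if_pos rfl]
  · intro i _ hi
    rw [if_neg (fun h => hi (Fin.ext h)), zero_smul]
  · intro h
    exact absurd (Finset.mem_univ _) h

end Cov

end Fermat.Agent.H11Q
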