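import Fermat.Agent.H11Q.CuspRing

/-!
# Two charts and a cusp: reduction of the ideal of the cusp
-/

set_option autoImplicit false
set_option linter.unusedSectionVars false

noncomputable section

open IsLocalRing ModularCurve Module AlgebraicCurve Fermat.Agent.H28 IsDedekindDomain

attribute [-instance] HahnSeries.instModule HahnSeries.instSMul HahnSeries.instDistribMulAction
  HahnSeries.instSMulZeroClass

namespace Fermat.Agent.H11Q

variable {L : Type*} [Field L] [IsAlgClosed L] {A : ValuationSubring L} {F Fb : Type*}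
  [Field F] [Field Fb] [Algebra L F] [Algebra (ResidueField A) Fb]

/-- a cusp for two charts with good reduction: a place where `t₂` has a simple zero, with
compatible expansions -/
structure Cusp {D : RedData A F Fb} (C : TwoCharts D) where
  e : F →ₐ[L] LaurentSeries L
  eb : Fb →ₐ[ResidueField A] LaurentSeries (ResidueField A)
  e_int : ∀ z : D.Z, IsInt A (e (z : F))
  e_rd : ∀ z : D.Z, rd A (e (z : F)) = eb (D.ρ z)
  mem_Z : ∀ z : F, IsInt A (e z) → z ∈ D.Z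
  lead : UnitLead A (e (C.t₂ : F)) 1
  P : Place L F
  order_P : ∀ z : F, z ≠ 0 → (e z).order = P.ord z

namespace Cusp

variable {D : RedData A F Fb} {C : TwoCharts D} (Z : Cusp C)

theorem low1 : Low (Z.e (C.t₂ : F)) 1 := Z.lead.below

theorem low2 : (Z.e (C.t₂ : F)).coeff 1 ≠ 0 := by
  intro h
  apply Z.lead.lead
  rw [h, resid_zero]

theorem low0 : Low (Z.e (C.t₂ : F)) 0 := Z.low1.mono (by norm_num)

theorem lowb1 : Low (Z.eb (D.ρ C.t₂)) 1 := by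
  rw [← Z.e_rd]
  exact Z.low1.rd

theorem lowb2 : (Z.eb (D.ρ C.t₂)).coeff 1 ≠ 0 := by
  rw [← Z.e_rd, rd_coeff]
  exact Z.lead.lead

theorem lowb0 : Low (Z.eb (D.ρ C.t₂)) 0 := Z.lowb1.mono (by norm_num)

/-- the ideal of the cusp -/
def P₂ : Ideal (CR L (C.t₂ : F)) := cuspIdeal Z.low0

/-- the ideal of the cusp on the special fibre -/
def Pb₂ : Ideal (CR (ResidueField A) (D.ρ C.t₂)) := cuspIdeal Z.lowb0

theorem mem_P₂ {x : CR L (C.t₂ : F)} : x ∈ Z.P₂ ↔ Low (Z.e (x : F)) 1 := Iff.rfl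

theorem mem_Pb₂ {x : CR (ResidueField A) (D.ρ C.t₂)} : x ∈ Z.Pb₂ ↔ Low (Z.eb (x : Fb)) 1 :=
  Iff.rfl

theorem isRat_P₂ : IsRat L Z.P₂ := isRat_cuspIdeal

theorem isRat_Pb₂ : IsRat (ResidueField A) Z.Pb₂ := isRat_cuspIdeal

theorem tO_mem_P₂ : tO L (C.t₂ : F) ∈ Z.P₂ := Z.low1

theorem tO_mem_Pb₂ : C.tb₂ ∈ Z.Pb₂ := Z.lowb1

theorem t₂_ne : (C.t₂ : F) ≠ 0 := right_ne_zero_of_mul_eq_one C.mul_eq

theorem tO_ne : tO L (C.t₂ : F) ≠ 0 := fun h => t₂_ne (C := C) (congrArg Subtype.val h)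

theorem P₂_ne_bot : Z.P₂ ≠ ⊥ := by
  intro h
  have h1 := Z.tO_mem_P₂
  rw [h, Ideal.mem_bot] at h1
  exact tO_ne h1

theorem good_P₂ : C.h₂.sys.Good Z.P₂ := by
  intro y hy c hc
  have hyZ : (y : F) ∈ D.Z := C.h₂.mem _ hy
  have h1 := Z.e_int ⟨y, hyZ⟩ 0
  have h2 := (Z.mem_P₂.1 hc) 0 (by norm_num)
  have h3 : ((y - algebraMap L (CR L (C.t₂ : F)) c : CR L (C.t₂ : F)) : F) =
      (y : F) - algebraMap L F c := rfl
  rw [h3, map_sub, Z.e.commutes, HahnSeries.coeff_sub, Algebra.algebraMap_eq_smul_one,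
    coeff_smul', HahnSeries.coeff_one, if_pos rfl, mul_one, sub_eq_zero] at h2
  rw [← h2]
  exact h1

theorem eb_sys_ρ (a : C.h₂.sys.R) : Z.eb ((C.h₂.sys.ρ a : CR (ResidueField A) (D.ρ C.t₂)) : Fb) =
    rd A (Z.e ((a : CR L (C.t₂ : F)) : F)) := by
  rw [C.h₂.coe_sys_ρ, ← Z.e_rd]
  rfl

theorem bar_P₂ : C.h₂.sys.bar Z.P₂ = Z.Pb₂ := by
  have h1 : C.h₂.sys.bar Z.P₂ ≤ Z.Pb₂ := by
    intro y hy
    obtain ⟨x, hx, rfl⟩ := C.h₂.sys.mem_bar.1 hy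
    rw [mem_Pb₂, eb_sys_ρ]
    exact (Z.mem_P₂.1 hx).rd
  have h2 := (C.h₂.sys.isRat_bar Z.isRat_P₂ Z.good_P₂).isMaximal
  exact h2.eq_of_le Z.isRat_Pb₂.1 h1

theorem pow_ne (n : ℕ) : Z.P₂ ^ n ≠ ⊥ := pow_ne_zero _ Z.P₂_ne_bot

theorem bar_P₂_pow (n : ℕ) : C.h₂.sys.bar (Z.P₂ ^ n) = Z.Pb₂ ^ n := by
  induction n with
  | zero => rw [pow_zero, pow_zero, Ideal.one_eq_top, Ideal.one_eq_top, C.h₂.sys.bar_top]
  | succ n ih =>
    rw [pow_succ, pow_succ, C.h₂.sys.bar_mul C.rat₂ (Z.pow_ne n) Z.P₂_ne_bot, ih, Z.bar_P₂]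

theorem exists_compl : ∃ I : Ideal (CR L (C.t₂ : F)),
    Z.P₂ * I = Ideal.span {tO L (C.t₂ : F)} := by
  have h1 : Z.P₂ ∣ Ideal.span {tO L (C.t₂ : F)} := by
    rw [Ideal.dvd_span_singleton]
    exact Z.tO_mem_P₂
  obtain ⟨I, hI⟩ := h1
  exact ⟨I, hI.symm⟩

/-- functions on the second chart with a pole of order `≤ n` at the cusp -/
def InLn (n : ℕ) (z : F) : Prop := InL Z.low0 n z

/-- functions on the second special chart with a pole of order `≤ n` at the cusp -/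
def InLb (n : ℕ) (z : Fb) : Prop := InL Z.lowb0 n z

/-- **a function with a simple pole at the cusp, integral and of good reduction** -/
theorem exists_simple : ∃ s : D.Z, Z.InLn 1 (s : F) ∧ Z.InLb 1 (D.ρ s) ∧
    UnitLead A (Z.e (s : F)) (-1) := by
  obtain ⟨I, hI⟩ := Z.exists_compl
  have hI0 : I ≠ ⊥ := by
    rintro rfl
    rw [Ideal.mul_bot] at hI
    have h1 : tO L (C.t₂ : F) ∈ (⊥ : Ideal (CR L (C.t₂ : F))) := by
      rw [hI]; exact Ideal.mem_span_singleton_self _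
    exact tO_ne h1
  have hρt : C.h₂.sys.ρ C.tR₂ ≠ 0 := by
    rw [C.sys_ρ_tR₂]; exact C.tb₂_ne_zero
  have hbar : Z.Pb₂ * C.h₂.sys.bar I = Ideal.span {C.tb₂} := by
    rw [← Z.bar_P₂, ← C.h₂.sys.bar_mul C.rat₂ Z.P₂_ne_bot hI0, hI]
    have := C.h₂.sys.bar_span_singleton hρt
    rw [C.sys_ρ_tR₂] at this
    exact this
  -- the complementary ideal is not contained in the ideal of the cusp
  have hnot : ¬ C.h₂.sys.bar I ≤ Z.Pb₂ := by
    intro hle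
    have h1 : C.tb₂ ∈ Z.Pb₂ ^ 2 := by
      rw [pow_two]
      exact Ideal.mul_mono_right hle (by rw [hbar]; exact Ideal.mem_span_singleton_self _)
    have h2 := low_of_mem_pow h1 1 (by norm_num)
    exact Z.lowb2 h2
  obtain ⟨v, hvI, hvP⟩ := Set.not_subset.1 hnot
  obtain ⟨x, hxI, hxv⟩ := C.h₂.sys.mem_bar.1 hvI
  -- orders
  have hxZ : ((x : CR L (C.t₂ : F)) : F) ∈ D.Z := C.h₂.mem _ x.2
  have hxlow : Low (Z.e ((x : CR L (C.t₂ : F)) : F)) 0 := low_of_CR Z.low0 x.1.2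
  have hx0 : resid A ((Z.e ((x : CR L (C.t₂ : F)) : F)).coeff 0) ≠ 0 := by
    intro h0
    apply hvP
    change v ∈ Z.Pb₂
    rw [mem_Pb₂, ← hxv, eb_sys_ρ]
    intro i hi
    rcases eq_or_ne i 0 with rfl | hi0
    · rw [rd_coeff, h0]
    · exact hxlow.rd i (by omega)
  have hxlead : UnitLead A (Z.e ((x : CR L (C.t₂ : F)) : F)) 0 := ⟨Z.e_int ⟨_, hxZ⟩, hxlow, hx0⟩
  have ht1 : (C.t₁ : F) = (C.t₂ : F)⁻¹ := eq_inv_of_mul_eq_one_left C.mul_eq
  have ht1lead : UnitLead A (Z.e (C.t₁ : F)) (-1) := by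
    rw [ht1, map_inv₀]
    exact Z.lead.inv.1
  refine ⟨C.t₁ * ⟨_, hxZ⟩, ?_, ?_, ?_⟩
  · intro p hp
    rw [pow_one] at hp
    have h1 : p * (x : CR L (C.t₂ : F)) ∈ Ideal.span {tO L (C.t₂ : F)} := by
      rw [← hI]; exact Ideal.mul_mem_mul hp hxI
    obtain ⟨w, hw⟩ := Ideal.mem_span_singleton'.1 h1
    have h2 : (w : F) * (C.t₂ : F) = (p : F) * ((x : CR L (C.t₂ : F)) : F) :=
      congrArg Subtype.val hw
    have h3 : ((C.t₁ * ⟨_, hxZ⟩ : D.Z) : F) * (p : F) = w := by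
      change (C.t₁ : F) * ((x : CR L (C.t₂ : F)) : F) * (p : F) = w
      rw [mul_assoc, mul_comm ((x : CR L (C.t₂ : F)) : F), ← h2, mul_comm (w : F), ← mul_assoc,
        C.mul_eq, one_mul]
    rw [h3]
    exact w.2
  · intro p hp
    rw [pow_one] at hp
    have h1 : p * v ∈ Ideal.span {C.tb₂} := by
      rw [← hbar]; exact Ideal.mul_mem_mul hp hvI
    obtain ⟨w, hw⟩ := Ideal.mem_span_singleton'.1 h1
    have h2 : (w : Fb) * (D.ρ C.t₂) = (p : Fb) * (v : Fb) := congrArg Subtype.val hw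
    have hv : (v : Fb) = D.ρ ⟨_, hxZ⟩ := by rw [← hxv]; rfl
    have h3 : (D.ρ (C.t₁ * ⟨_, hxZ⟩) : Fb) * (p : Fb) = w := by
      rw [map_mul, ← hv, mul_assoc, mul_comm (v : Fb), ← h2, mul_comm (w : Fb), ← mul_assoc,
        C.ρ_mul_eq, one_mul]
    rw [h3]
    exact w.2
  · change UnitLead A (Z.e ((C.t₁ : F) * ((x : CR L (C.t₂ : F)) : F))) (-1)
    rw [map_mul]
    exact ht1lead.mul hxlead

end Cusp

end Fermat.Agent.H11Q
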