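import Fermat.Agent.H11Q.GenFin
import Fermat.Agent.H28.CurveRing

/-!
# Division modulo functions regular on a chart
-/

set_option autoImplicit false

noncomputable section

open Module Polynomial Fermat.Agent.H28

namespace Fermat.Agent.H11Q

theorem aeval_mem_CR {k Fb : Type*} [Field k] [Field Fb] [Algebra k Fb] (t : Fb) (p : k[X]) :
    aeval t p ∈ CR k t :=
  (CR k t).algebraMap_mem (⟨aeval t p, Polynomial.aeval_mem_adjoin_singleton k t⟩ :
    Algebra.adjoin k {t})

theorem exists_div {k Fb : Type*} [Field k] [Field Fb] [Algebra k Fb] {t u : Fb}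
    (htu : t * u = 1) {y : Fb} (hy : y ∈ CR k t) (hy0 : y ≠ 0) {z : Fb} {a : ℕ}
    (hz : t ^ a * z ∈ CR k t) :
    ∃ (z' : Fb) (a' : ℕ), t ^ a' * z' ∈ CR k t ∧ z - y * z' ∈ CR k t := by
  -- a multiple of `y` in `k[t]`
  have h1 : (Ideal.span {(⟨y, hy⟩ : CR k t)}).comap (algebraMap (Algebra.adjoin k {t}) (CR k t)) ≠ ⊥ :=
    Ideal.comap_ne_bot_of_integral_mem (x := (⟨y, hy⟩ : CR k t))
      (fun h => hy0 (congrArg Subtype.val h)) (Ideal.mem_span_singleton_self _)
      (Algebra.IsIntegral.isIntegral _)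
  obtain ⟨⟨r, hr⟩, hr1, hr0⟩ := Submodule.exists_mem_ne_zero_of_ne_bot h1
  obtain ⟨p, rfl⟩ := mem_adjoin_iff.1 hr
  have hp0 : p ≠ 0 := by
    rintro rfl
    exact hr0 (Subtype.ext (map_zero (aeval t)))
  obtain ⟨⟨y', hy'⟩, hyy⟩ := Ideal.mem_span_singleton'.1 (Ideal.mem_comap.1 hr1)
  have hyy2 : y' * y = aeval t p := congrArg Subtype.val hyy
  obtain ⟨g, hg, hgX⟩ := Polynomial.exists_eq_pow_rootMultiplicity_mul_and_not_dvd p hp0 0
  set c := rootMultiplicity 0 p with hc
  rw [C_0, sub_zero] at hg hgX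
  have hcop : IsCoprime g (X ^ a) := by
    apply IsCoprime.pow_right
    rw [isCoprime_comm]
    exact (Polynomial.prime_X.irreducible.coprime_iff_not_dvd).2 hgX
  obtain ⟨h, r', hhr⟩ := hcop
  have hhr2 : aeval t h * aeval t g + aeval t r' * t ^ a = 1 := by
    have := congrArg (aeval t) hhr
    rwa [map_add, map_mul, map_mul, map_pow, aeval_X, map_one] at this
  have hN : t ^ c * aeval t g = y' * y := by
    rw [hyy2, hg, map_mul, map_pow, aeval_X]
  have hut : ∀ n : ℕ, u ^ n * t ^ n = 1 := fun n => by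
    rw [← mul_pow, mul_comm, htu, one_pow]
  have htun : ∀ n : ℕ, t ^ n * u ^ n = 1 := fun n => by
    rw [← mul_pow, htu, one_pow]
  refine ⟨u ^ (a + c) * (y' * aeval t h * (t ^ a * z)), a + c, ?_, ?_⟩
  · rw [← mul_assoc, htun, one_mul]
    exact mul_mem (mul_mem hy' (aeval_mem_CR t h)) hz
  · have h3 : z - y * (u ^ (a + c) * (y' * aeval t h * (t ^ a * z))) =
        aeval t r' * (t ^ a * z) := by
      have h4 : y * (u ^ (a + c) * (y' * aeval t h * (t ^ a * z))) =
          (u ^ c * t ^ c) * (u ^ a * t ^ a) * (aeval t h * aeval t g) * z := by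
        have : y * (u ^ (a + c) * (y' * aeval t h * (t ^ a * z))) =
          u ^ (a + c) * (y' * y) * aeval t h * (t ^ a * z) := by ring
        rw [this, ← hN, pow_add]
        ring
      rw [h4, hut, hut, one_mul, one_mul]
      have h5 : aeval t h * aeval t g = 1 - aeval t r' * t ^ a := by
        rw [← hhr2]; ring
      rw [h5]
      ring
    rw [h3]
    exact mul_mem (aeval_mem_CR t r') hz

end Fermat.Agent.H11Q
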