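import Fermat.Agent.H11Q.CuspRing
import Fermat.Agent.H11Q.Divis

/-!
# Vanishing of `H¹` for large multiples of a cusp
-/

set_option autoImplicit false
set_option linter.unusedSectionVars false

noncomputable section

open IsLocalRing ModularCurve Module AlgebraicCurve Fermat.Agent.H28 IsDedekindDomain

attribute [-instance] HahnSeries.instModule HahnSeries.instSMul HahnSeries.instDistribMulAction
  HahnSeries.instSMulZeroClass

namespace Fermat.Agent.H11Q

section Gen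

variable {k Fb : Type*} [Field k] [Field Fb] [Algebra k Fb]

open Polynomial in
theorem mem_CR_iff_eval {t x : Fb} :
    x ∈ CR k t ↔ (eval₂RingHom (algebraMap k Fb) t).IsIntegralElem x := by
  constructor
  · rintro ⟨p, hp, hpx⟩
    have hl : p.map (algebraMap (Algebra.adjoin k {t}) Fb) ∈
        Polynomial.lifts (eval₂RingHom (algebraMap k Fb) t) := by
      rw [Polynomial.lifts_iff_coeff_lifts]
      intro n
      rw [coeff_map]
      obtain ⟨q, hq⟩ := mem_adjoin_iff.1 (p.coeff n).2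
      exact ⟨q, hq.symm⟩
    obtain ⟨q, hq, -, hqm⟩ := Polynomial.lifts_and_natDegree_eq_and_monic hl (hp.map _)
    refine ⟨q, hqm, ?_⟩
    rw [← eval_map, hq, eval_map]
    exact hpx
  · rintro ⟨p, hp, hpx⟩
    have hl : p.map (eval₂RingHom (algebraMap k Fb) t) ∈
        Polynomial.lifts (algebraMap (Algebra.adjoin k {t}) Fb) := by
      rw [Polynomial.lifts_iff_coeff_lifts]
      intro n
      rw [coeff_map]
      exact ⟨⟨aeval t (p.coeff n), Polynomial.aeval_mem_adjoin_singleton k t⟩, rfl⟩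
    obtain ⟨q, hq, -, hqm⟩ := Polynomial.lifts_and_natDegree_eq_and_monic hl (hp.map _)
    refine ⟨q, hqm, ?_⟩
    rw [← eval_map, hq, eval_map]
    exact hpx

theorem shift_CR {t u : Fb} (htu : t * u = 1) {z : Fb} (hz : z ∈ CR k t) :
    ∃ b₀ : ℕ, ∀ b, b₀ ≤ b → u ^ b * z ∈ CR k u := by
  obtain ⟨b₀, h⟩ := shift_integral _ htu (mem_CR_iff_eval.1 hz)
  exact ⟨b₀, fun b hb => mem_CR_iff_eval.2 (h b hb)⟩

theorem smul_mem_CR {t z : Fb} (hz : z ∈ CR k t) (c : k) : c • z ∈ CR k t := by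
  rw [Algebra.smul_def]
  exact mul_mem ((CR k t).algebraMap_mem (algebraMap k (Algebra.adjoin k {t}) c)) hz

theorem t_mem_CR (t : Fb) : t ∈ CR k t := (tO k t).2

/-- the chart ring, as a vector space -/
def crMod (k : Type*) {Fb : Type*} [Field k] [Field Fb] [Algebra k Fb] (t : Fb) :
    Submodule k Fb where
  carrier := {x | x ∈ CR k t}
  zero_mem' := zero_mem (CR k t)
  add_mem' := fun ha hb => add_mem (S := Subalgebra _ _) (s := CR k t) ha hb
  smul_mem' := fun c _ hx => smul_mem_CR hx c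

theorem mem_crMod {t x : Fb} : x ∈ crMod k t ↔ x ∈ CR k t := Iff.rfl

/-- functions regular on both charts -/
def mod12 (k : Type*) {Fb : Type*} [Field k] [Field Fb] [Algebra k Fb] (t : Fb) :
    Submodule k Fb where
  carrier := {z | ∃ a : ℕ, t ^ a * z ∈ CR k t}
  zero_mem' := ⟨0, by rw [mul_zero]; exact zero_mem _⟩
  add_mem' := by
    rintro x y ⟨a, ha⟩ ⟨b, hb⟩
    refine ⟨a + b, ?_⟩
    have : t ^ (a + b) * (x + y) = t ^ b * (t ^ a * x) + t ^ a * (t ^ b * y) := by ring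
    rw [this]
    exact add_mem (mul_mem (pow_mem (t_mem_CR t) b) ha) (mul_mem (pow_mem (t_mem_CR t) a) hb)
  smul_mem' := by
    rintro c x ⟨a, ha⟩
    refine ⟨a, ?_⟩
    rw [mul_smul_comm]
    exact smul_mem_CR ha c

theorem mem_mod12 {t z : Fb} : z ∈ mod12 k t ↔ ∃ a : ℕ, t ^ a * z ∈ CR k t := Iff.rfl

theorem mul_mem_mod12 {t x y : Fb} (hx : x ∈ mod12 k t) (hy : y ∈ mod12 k t) :
    x * y ∈ mod12 k t := by
  obtain ⟨a, ha⟩ := hx
  obtain ⟨b, hb⟩ := hy
  refine ⟨a + b, ?_⟩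
  have : t ^ (a + b) * (x * y) = (t ^ a * x) * (t ^ b * y) := by ring
  rw [this]
  exact mul_mem ha hb

theorem crMod_le_mod12 (t : Fb) : crMod k t ≤ mod12 k t := fun x hx => ⟨0, by
  rw [pow_zero, one_mul]; exact hx⟩

/-- generators of the chart ring -/
theorem exists_gen (t : Fb) [Module.Finite (Algebra.adjoin k {t}) (CR k t)] :
    ∃ (r : ℕ) (w : Fin r → Fb), (∀ i, w i ∈ CR k t) ∧ ∀ x ∈ CR k t,
      ∃ p : Fin r → Polynomial k, x = ∑ i, Polynomial.aeval t (p i) * w i := by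
  obtain ⟨r, w, hw⟩ := Module.Finite.exists_fin (R := Algebra.adjoin k {t}) (M := CR k t)
  refine ⟨r, fun i => w i, fun i => (w i).2, fun x hx => ?_⟩
  have h1 : (⟨x, hx⟩ : CR k t) ∈ Submodule.span (Algebra.adjoin k {t}) (Set.range w) := by
    rw [hw]; exact Submodule.mem_top
  rw [Submodule.mem_span_range_iff_exists_fun] at h1
  obtain ⟨c, hc⟩ := h1
  choose p hp using fun i => mem_adjoin_iff.1 (c i).2
  refine ⟨p, ?_⟩
  have h2 := congrArg (CR k t).val hc
  rw [map_sum] at h2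
  change _ = x at h2
  rw [← h2]
  refine Finset.sum_congr rfl fun i _ => ?_
  rw [← hp]
  rfl

variable {e : Fb →ₐ[k] LaurentSeries k} {t u : Fb}

/-- functions on the second chart with poles of order `≤ n` at the cusp, as a vector space -/
def inLMod (hu : Low (e u) 0) (n : ℕ) : Submodule k Fb where
  carrier := {z | InL hu n z}
  zero_mem' := inL_zero_mem n
  add_mem' := fun ha hb => InL.add ha hb
  smul_mem' := fun c _ hx => InL.smul hx c

theorem mem_inLMod {hu : Low (e u) 0} {n : ℕ} {z : Fb} : z ∈ inLMod hu n ↔ InL hu n z := Iff.rfl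

variable (htu : t * u = 1) (hu0 : Low (e u) 0) (hu1 : Low (e u) 1) (hu2 : (e u).coeff 1 ≠ 0)

include htu hu1 in
theorem inLMod_le_mod12 (n : ℕ) : inLMod hu0 n ≤ mod12 k t := by
  intro z hz
  have h1 := hz ((tO k u) ^ n) (Ideal.pow_mem_pow (tO_mem_cuspIdeal hu1) n)
  have h2 : ((tO k u ^ n : CR k u) : Fb) = u ^ n := rfl
  rw [h2] at h1
  obtain ⟨b₀, hb⟩ := shift_CR (mul_comm t u ▸ htu) h1
  refine ⟨b₀, ?_⟩
  have h3 := hb (b₀ + n) (Nat.le_add_right _ _)
  have h4 : t ^ (b₀ + n) * (z * u ^ n) = t ^ b₀ * z := by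
    have : t ^ (b₀ + n) * (z * u ^ n) = t ^ b₀ * z * (t * u) ^ n := by ring
    rw [this, htu, one_pow, mul_one]
  rwa [h4] at h3

/-- regular on the first chart, plus poles of order `≤ n` at the cusp on the second one -/
def Wn (hu0 : Low (e u) 0) (t : Fb) (n : ℕ) : Submodule k Fb := crMod k t ⊔ inLMod hu0 n

theorem Wn_mono : Monotone (Wn hu0 t) := fun _ _ h =>
  sup_le_sup_left (fun _ hz => InL.mono h hz) _

include htu hu1 in
theorem Wn_le_mod12 (n : ℕ) : Wn hu0 t n ≤ mod12 k t :=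
  sup_le (crMod_le_mod12 t) (inLMod_le_mod12 htu hu0 hu1 n)

theorem mul_mem_Wn {n m : ℕ} {x y : Fb} (hx1 : x ∈ CR k t) (hx2 : InL hu0 m x)
    (hy : y ∈ Wn hu0 t n) : x * y ∈ Wn hu0 t (m + n) := by
  obtain ⟨a, ha, b, hb, rfl⟩ := Submodule.mem_sup.1 hy
  rw [mul_add]
  exact Submodule.add_mem_sup (mem_crMod.2 (mul_mem hx1 (mem_crMod.1 ha))) (InL.mul hx2 hb)

include htu in
theorem mod12_le [Module.Finite (Algebra.adjoin k {t}) (CR k t)] :
    ∃ S : Submodule k Fb, FiniteDimensional k S ∧ mod12 k t ≤ Wn hu0 t 0 ⊔ S := by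
  obtain ⟨r, w, hw1, hw2⟩ := exists_gen (k := k) t
  choose b₀ hb₀ using fun i => shift_CR htu (hw1 i)
  set b := ∑ i, b₀ i with hb
  refine ⟨_, ?_, le_sup_span htu w (crMod k t) (Wn hu0 t 0) (mod12 k t) le_sup_left
    hw2 (fun i n => mem_crMod.2 (mul_mem (pow_mem (t_mem_CR t) n) (hw1 i))) (fun x hx => hx) b ?_⟩
  · exact FiniteDimensional.span_of_finite k (Set.finite_range _)
  · intro i j hj
    refine Submodule.mem_sup_right ?_
    rw [mem_inLMod, inL_zero]
    refine hb₀ i j (le_trans ?_ hj)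
    exact Finset.single_le_sum (f := b₀) (fun _ _ => Nat.zero_le _) (Finset.mem_univ i)

variable [IsDedekindDomain (CR k u)] [IsFractionRing (CR k u) Fb]
  {s : Fb} (hs : InL hu0 1 s) (hs0 : (e s).coeff (-1) ≠ 0)

include hu1 hu2 hs hs0 in
theorem pow_s (n : ℕ) : InL hu0 n (s ^ n) ∧ (e (s ^ n)).coeff (-n) ≠ 0 := by
  have hslow := InL.low hu1 hu2 hs
  have hse : e s ≠ 0 := fun h0 => hs0 (by rw [h0]; rfl)
  have hsord : (e s).order = -1 := by
    apply le_antisymm
    · exact HahnSeries.order_le_of_coeff_ne_zero hs0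
    · exact (low_iff hse).1 hslow
  have hpow : (e (s ^ n)).order = -(n : ℤ) := by
    rw [map_pow, HahnSeries.order_pow, hsord, nsmul_eq_mul, mul_neg, mul_one]
  have hpne : e (s ^ n) ≠ 0 := by rw [map_pow]; exact pow_ne_zero _ hse
  refine ⟨?_, ?_⟩
  · have := hs.pow n
    rwa [mul_one] at this
  · rw [← hpow]
    exact fun h0 => hpne (HahnSeries.coeff_order_eq_zero.1 h0)

include hu1 hu2 hs hs0 in
/-- functions with poles only at the cusp, of exact order -/
theorem exists_exact_cusp {n : ℕ} (h : Wn hu0 t (n + 1) ≤ Wn hu0 t n) :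
    ∃ a : Fb, a ∈ CR k t ∧ InL hu0 (n + 1) a ∧ (e a).coeff (-((n + 1 : ℕ) : ℤ)) ≠ 0 := by
  obtain ⟨h1, h2⟩ := pow_s hu0 hu1 hu2 hs hs0 (n + 1)
  obtain ⟨a, ha, b, hb, hab⟩ := Submodule.mem_sup.1 (h (Submodule.mem_sup_right h1))
  have hab2 : a = s ^ (n + 1) - b := by rw [← hab, add_sub_cancel_right]
  refine ⟨a, ha, ?_, ?_⟩
  · rw [hab2]
    exact h1.sub (InL.mono (Nat.le_succ n) hb)
  · rw [hab2, map_sub, HahnSeries.coeff_sub, InL.low hu1 hu2 (mem_inLMod.1 hb) _ (by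
      push_cast; omega), sub_zero]
    exact h2

include htu hu1 hu2 hs hs0 in
/-- **vanishing of `H¹`** -/
theorem exists_mod12_le [Module.Finite (Algebra.adjoin k {t}) (CR k t)] :
    ∃ n₀ : ℕ, ∀ n, n₀ ≤ n → mod12 k t ≤ Wn hu0 t n := by
  obtain ⟨S, hSfd, hS⟩ := mod12_le (k := k) htu hu0
  obtain ⟨n₀, hn₀⟩ := exists_stable (Wn hu0 t) (Wn_mono hu0) S
    (fun n => (Wn_le_mod12 htu hu0 hu1 n).trans hS)
  suffices h : mod12 k t ≤ Wn hu0 t n₀ from
    ⟨n₀, fun n hn => h.trans (Wn_mono hu0 hn)⟩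
  -- a nonconstant function with poles only at the cusp
  obtain ⟨h, hh1, hh2, hh3⟩ := exists_exact_cusp (t := t) hu0 hu1 hu2 hs hs0 (n := n₀)
    (le_of_eq (hn₀ (n₀ + 1) (Nat.le_succ _)))
  set T : Fb →ₗ[k] Fb := LinearMap.mulLeft k h with hT
  have hTW : ∀ x ∈ Wn hu0 t n₀, T x ∈ Wn hu0 t n₀ := by
    intro x hx
    have h1 := mul_mem_Wn hu0 hh1 hh2 hx
    rwa [hn₀ (n₀ + 1 + n₀) (by omega)] at h1
  have hTB : ∀ x ∈ mod12 k t, T x ∈ mod12 k t := fun x hx =>
    mul_mem_mod12 (crMod_le_mod12 t hh1) hx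
  obtain ⟨p, hp0, hp⟩ := exists_poly_kill T (Wn hu0 t n₀) (mod12 k t) hTW hTB S
    (hS.trans (sup_le_sup_right (Wn_mono hu0 (Nat.zero_le n₀)) S))
  have hpT : ∀ x, Polynomial.aeval T p x = Polynomial.aeval h p * x := by
    intro x
    have h1 : Polynomial.aeval (Algebra.lmul k Fb h) p = Algebra.lmul k Fb (Polynomial.aeval h p) :=
      Polynomial.aeval_algHom_apply (Algebra.lmul k Fb) h p
    have h2 : T = Algebra.lmul k Fb h := rfl
    rw [h2, h1]
    rfl
  set y := Polynomial.aeval h p with hy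
  have hyCR : y ∈ CR k t := by
    rw [hy, Polynomial.aeval_eq_sum_range]
    exact sum_mem fun i _ => smul_mem_CR (pow_mem hh1 _) _
  -- `h` is transcendental
  have hy0 : y ≠ 0 := by
    intro h0
    have halg : IsAlgebraic k h := ⟨p, hp0, h0⟩
    have hint : IsIntegral k h := halg.isIntegral
    have hint2 : h ∈ CR k u := by
      obtain ⟨q, hq, hqh⟩ := hint
      refine ⟨q.map (algebraMap k (Algebra.adjoin k {u})), hq.map _, ?_⟩
      rw [Polynomial.eval₂_map]
      exact hqh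
    have h5 := low_of_CR hu0 hint2 (-((n₀ + 1 : ℕ) : ℤ)) (by push_cast; omega)
    exact hh3 h5
  intro z hz
  obtain ⟨a, ha⟩ := hz
  obtain ⟨z', a', hz', hzz⟩ := exists_div htu hyCR hy0 ha
  have h3 : y * z' ∈ Wn hu0 t n₀ := by
    rw [← hpT]
    exact hp z' ⟨a', hz'⟩
  have h4 : z = (z - y * z') + y * z' := by ring
  rw [h4]
  exact Submodule.add_mem _ (Submodule.mem_sup_left hzz) h3

end Gen

end Fermat.Agent.H11Q
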