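import Fermat.Agent.H11Q.CuspData
import Fermat.Agent.H11Q.CuspH1

/-!
# Lifting functions with poles only at the cusp
-/

set_option autoImplicit false
set_option linter.unusedSectionVars false

noncomputable section

open IsLocalRing ModularCurve Module AlgebraicCurve Fermat.Agent.H28 IsDedekindDomain

attribute [-instance] HahnSeries.instModule HahnSeries.instSMul HahnSeries.instDistribMulAction
  HahnSeries.instSMulZeroClass

namespace Fermat.Agent.H11Q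

variable {L : Type*} [Field L] [IsAlgClosed L] {A : ValuationSubring L} {F Fb : Type*}
  [Field F] [Field Fb] [Algebra L F] [Algebra (ResidueField A) Fb]

namespace Cusp

variable {D : RedData A F Fb} {C : TwoCharts D} (Z : Cusp C)

/-- the second special chart coordinate has inverse the first one -/
theorem ρ_mul : D.ρ C.t₁ * D.ρ C.t₂ = 1 := C.ρ_mul_eq

theorem InLn.add {n : ℕ} {z w : F} (h : Z.InLn n z) (h' : Z.InLn n w) : Z.InLn n (z + w) :=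
  InL.add h h'

/-- lifting functions on the second chart with poles at the cusp -/
theorem exists_lift_InLb {n : ℕ} {z : Fb} (h : Z.InLb n z) :
    ∃ x : D.Z, Z.InLn n (x : F) ∧ D.ρ x = z := by
  obtain ⟨s, hs1, hs2, hs3⟩ := Z.exists_simple
  have hs0 : (Z.eb (D.ρ s)).coeff (-1) ≠ 0 := by
    rw [← Z.e_rd, rd_coeff]
    exact hs3.lead
  obtain ⟨y, c, rfl⟩ := InL.exists_sum Z.lowb1 Z.lowb2 hs2 hs0 n h
  obtain ⟨x, hx, hxy⟩ := C.h₂.red_surj y y.2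
  have hsurj : ∀ i, ∃ a : A, residue A a = c i := fun i => residue_surjective (c i)
  choose a ha using hsurj
  refine ⟨⟨x, C.h₂.mem x hx⟩ + ∑ i ∈ Finset.range n, (⟨algebraMap L F (a i), D.alg_mem (a i)⟩ : D.Z) *
    s ^ (i + 1), ?_, ?_⟩
  · have h1 : ((⟨x, C.h₂.mem x hx⟩ + ∑ i ∈ Finset.range n, (⟨algebraMap L F (a i), D.alg_mem (a i)⟩ : D.Z) *
        s ^ (i + 1) : D.Z) : F) = x + ∑ i ∈ Finset.range n, (a i : L) • (s : F) ^ (i + 1) := by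
      rw [Subring.coe_add, AddSubmonoidClass.coe_finset_sum]
      congr 1
      refine Finset.sum_congr rfl fun i _ => ?_
      rw [Algebra.smul_def]
      rfl
    rw [h1]
    refine InL.add (InL.mono (Nat.zero_le n) (inL_zero.2 hx.isIntegral)) ?_
    refine Finset.sum_induction _ (fun z => InL Z.low0 n z) (fun _ _ => InL.add)
      (inL_zero_mem n) fun i hi => ?_
    have h2 := InL.pow hs1 (i + 1)
    rw [mul_one] at h2
    exact (h2.mono (Finset.mem_range.1 hi)).smul _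
  · rw [map_add, map_sum, hxy]
    congr 1
    refine Finset.sum_congr rfl fun i _ => ?_
    rw [map_mul, map_pow, D.ρ_alg, ha, Algebra.smul_def]

theorem intOver_of_isIntegral {t : D.Z} (h : D.IsChart t) {x : F} (hx : x ∈ D.Z)
    (hx2 : IsIntegral (Algebra.adjoin L {(t : F)}) x) : IntOver A (t : F) x := by
  have h1 : (⟨x, hx2⟩ : CR L (t : F)) ∈ h.sys.R := by
    by_cases h0 : x = 0
    · subst h0
      exact h.sys.R.zero_mem
    obtain ⟨c, hc, hne⟩ := h.prim x h0 hx2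
    have hc0 : c ≠ 0 := by
      rintro rfl
      apply hne
      have : (⟨(0 : L) • x, h.mem _ hc⟩ : D.Z) = 0 := Subtype.ext (zero_smul L x)
      rw [this, map_zero]
    by_cases hci : c⁻¹ ∈ A
    · have h2 := h.sys.smul_mem hci (y := (⟨c • x, hc.isIntegral⟩ : CR L (t : F))) hc
      have h3 : c⁻¹ • (⟨c • x, hc.isIntegral⟩ : CR L (t : F)) = ⟨x, hx2⟩ :=
        Subtype.ext (inv_smul_smul₀ hc0 x)
      rwa [h3] at h2
    · exfalso
      obtain ⟨h3, h4⟩ := RedSys.inv_mem_maximalIdeal hci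
      have h3' : c ∈ A := by rwa [inv_inv] at h3
      apply hne
      have h5 : (⟨c • x, h.mem _ hc⟩ : D.Z) =
          ⟨algebraMap L F ((⟨c, h3'⟩ : A) : L), D.alg_mem ⟨c, h3'⟩⟩ * ⟨x, hx⟩ :=
        Subtype.ext (Algebra.smul_def c x)
      have h6 : (⟨c, h3'⟩ : A) ∈ maximalIdeal A := by
        have : (⟨c, h3'⟩ : A) = ⟨c⁻¹⁻¹, h3⟩ := Subtype.ext (inv_inv c).symm
        rw [this]; exact h4
      rw [h5, map_mul, D.ρ_alg, (residue_eq_zero_iff _).2 h6, map_zero, zero_mul]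
  exact h1

section ASide

variable (C) in
/-- integral functions on the first chart -/
def MA1 : Submodule A F where
  carrier := {x | IntOver A (C.t₁ : F) x}
  zero_mem' := (intSubring A (C.t₁ : F)).zero_mem
  add_mem' := IntOver.add
  smul_mem' := fun c x hx => by
    change IntOver A (C.t₁ : F) (c • x)
    have : c • x = algebraMap L F c * x := Algebra.smul_def (c : L) x
    rw [this]
    exact (intOver_alg _ c).mul hx

theorem mem_MA1 {x : F} : x ∈ MA1 C ↔ IntOver A (C.t₁ : F) x := Iff.rfl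

theorem smul_mem_Z {x : F} (hx : x ∈ D.Z) (c : A) : c • x ∈ D.Z := by
  have : c • x = algebraMap L F c * x := Algebra.smul_def (c : L) x
  rw [this]
  exact mul_mem (D.alg_mem c) hx

/-- integral functions on the second chart, with poles at the cusp -/
def MA2 (n : ℕ) : Submodule A F where
  carrier := {x | x ∈ D.Z ∧ Z.InLn n x}
  zero_mem' := ⟨D.Z.zero_mem, inL_zero_mem n⟩
  add_mem' := fun ha hb => ⟨D.Z.add_mem ha.1 hb.1, InL.add ha.2 hb.2⟩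
  smul_mem' := fun c _ hx => ⟨smul_mem_Z hx.1 c, InL.smul hx.2 (c : L)⟩

variable (C) in
/-- integral functions on the intersection of the charts -/
def MA12 : Submodule A F where
  carrier := {x | ∃ a : ℕ, IntOver A (C.t₁ : F) ((C.t₁ : F) ^ a * x)}
  zero_mem' := ⟨0, by rw [mul_zero]; exact (intSubring A (C.t₁ : F)).zero_mem⟩
  add_mem' := by
    rintro x y ⟨a, ha⟩ ⟨b, hb⟩
    refine ⟨a + b, ?_⟩
    have : (C.t₁ : F) ^ (a + b) * (x + y) = (C.t₁ : F) ^ b * ((C.t₁ : F) ^ a * x) +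
      (C.t₁ : F) ^ a * ((C.t₁ : F) ^ b * y) := by ring
    rw [this]
    have hp : ∀ n : ℕ, IntOver A (C.t₁ : F) ((C.t₁ : F) ^ n) := fun n =>
      (intSubring A (C.t₁ : F)).pow_mem (intOver_self _) n
    exact ((hp b).mul ha).add ((hp a).mul hb)
  smul_mem' := by
    rintro c x ⟨a, ha⟩
    refine ⟨a, ?_⟩
    rw [mul_smul_comm]
    exact (MA1 C).smul_mem c ha

theorem mem_MA12 {x : F} : x ∈ MA12 C ↔
    ∃ a : ℕ, IntOver A (C.t₁ : F) ((C.t₁ : F) ^ a * x) := Iff.rfl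

theorem t_pow (n : ℕ) : (C.t₂ : F) ^ n * (C.t₁ : F) ^ n = 1 := by
  rw [← mul_pow, mul_comm, C.mul_eq, one_pow]

theorem MA12_le_Z {x : F} (hx : x ∈ MA12 C) : x ∈ D.Z := by
  obtain ⟨a, ha⟩ := hx
  have h1 := C.h₁.mem _ ha
  have h2 : x = (C.t₂ : F) ^ a * ((C.t₁ : F) ^ a * x) := by
    rw [← mul_assoc, t_pow, one_mul]
  rw [h2]
  exact mul_mem (pow_mem C.t₂.2 a) h1

theorem ρ_mem_mod12 {x : F} (hx : x ∈ MA12 C) :
    D.ρ ⟨x, MA12_le_Z hx⟩ ∈ mod12 (ResidueField A) (D.ρ C.t₁) := by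
  obtain ⟨a, ha⟩ := hx
  refine ⟨a, ?_⟩
  have h1 := C.h₁.red_int _ ha
  have h2 : (⟨(C.t₁ : F) ^ a * x, C.h₁.mem _ ha⟩ : D.Z) = C.t₁ ^ a * ⟨x, MA12_le_Z ⟨a, ha⟩⟩ :=
    Subtype.ext rfl
  rw [h2, map_mul, map_pow] at h1
  exact h1

/-- an element of the intersection with trivial reduction is divisible -/
theorem exists_smul_of_ρ {x : F} (hx : x ∈ MA12 C) (h0 : D.ρ ⟨x, MA12_le_Z hx⟩ = 0) :
    ∃ (c : A) (y : F), c ∈ maximalIdeal A ∧ y ∈ MA12 C ∧ x = c • y := by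
  have hx' := hx
  obtain ⟨a, ha⟩ := hx
  have h1 : C.h₁.sys.ρ ⟨⟨(C.t₁ : F) ^ a * x, ha.isIntegral⟩, ha⟩ = 0 := by
    apply Subtype.ext
    change D.ρ ⟨(C.t₁ : F) ^ a * x, C.h₁.mem _ ha⟩ = 0
    have h2 : (⟨(C.t₁ : F) ^ a * x, C.h₁.mem _ ha⟩ : D.Z) = C.t₁ ^ a * ⟨x, MA12_le_Z hx'⟩ :=
      Subtype.ext rfl
    rw [h2, map_mul, h0, mul_zero]
  obtain ⟨c, z, hc, hz⟩ := C.h₁.sys.exists_of_ρ_eq_zero h1
  have hz' : (C.t₁ : F) ^ a * x = (c : L) • (((z : CR L (C.t₁ : F)) : F)) :=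
    congrArg Subtype.val hz
  refine ⟨c, (C.t₂ : F) ^ a * ((z : CR L (C.t₁ : F)) : F), hc, ⟨a, ?_⟩, ?_⟩
  · have h3 : (C.t₁ : F) ^ a * ((C.t₂ : F) ^ a * ((z : CR L (C.t₁ : F)) : F)) =
        ((z : CR L (C.t₁ : F)) : F) := by
      rw [← mul_assoc, ← mul_pow, C.mul_eq, one_pow, one_mul]
    rw [h3]
    exact z.2
  · have h4 : x = (C.t₂ : F) ^ a * ((C.t₁ : F) ^ a * x) := by
      rw [← mul_assoc, t_pow, one_mul]
    rw [h4, hz']
    exact mul_smul_comm (c : L) _ _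

/-- the image of the two charts -/
def WA (n : ℕ) : Submodule A F := MA1 C ⊔ Z.MA2 n

theorem WA_mono : Monotone Z.WA := fun _ _ h =>
  sup_le_sup_left (fun _ hz => ⟨hz.1, InL.mono h hz.2⟩) _

theorem exists_fg : ∃ S : Submodule A F, S.FG ∧ S ≤ MA12 C ∧ MA12 C ≤ Z.WA 0 ⊔ S := by
  obtain ⟨r, w, hw1, hw2⟩ := C.h₁.fg
  choose b₀ hb₀ using fun i => shift_integral ((algebraMap L F).comp A.subtype) C.mul_eq (hw1 i)
  set b := ∑ i, b₀ i with hb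
  refine ⟨_, ?_, ?_, le_sup_span C.mul_eq w (MA1 C) (Z.WA 0) (MA12 C) le_sup_left
    hw2 (fun i n => ?_) (fun x hx => hx) b ?_⟩
  · exact Submodule.fg_span (Set.finite_range _)
  · rw [Submodule.span_le]
    rintro _ ⟨ij, rfl⟩
    refine ⟨ij.2, ?_⟩
    have h3 : (C.t₁ : F) ^ (ij.2 : ℕ) * ((C.t₂ : F) ^ (ij.2 : ℕ) * w ij.1) = w ij.1 := by
      rw [← mul_assoc, ← mul_pow, C.mul_eq, one_pow, one_mul]
    change IntOver A (C.t₁ : F) ((C.t₁ : F) ^ (ij.2 : ℕ) * ((C.t₂ : F) ^ (ij.2 : ℕ) * w ij.1))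
    rw [h3]
    exact hw1 _
  · exact IntOver.mul ((intSubring A (C.t₁ : F)).pow_mem (intOver_self _) n) (hw1 i)
  · intro i j hj
    refine Submodule.mem_sup_right ?_
    have h1 : IntOver A (C.t₂ : F) ((C.t₂ : F) ^ j * w i) := hb₀ i j (le_trans
      (Finset.single_le_sum (f := b₀) (fun _ _ => Nat.zero_le _) (Finset.mem_univ i)) hj)
    exact ⟨C.h₂.mem _ h1, inL_zero.2 h1.isIntegral⟩

theorem exists_n₀ : ∃ n₀ : ℕ, ∀ n, n₀ ≤ n →
    mod12 (ResidueField A) (D.ρ C.t₁) ≤ Wn Z.lowb0 (D.ρ C.t₁) n := by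
  obtain ⟨s, hs1, hs2, hs3⟩ := Z.exists_simple
  have hs0 : (Z.eb (D.ρ s)).coeff (-1) ≠ 0 := by
    rw [← Z.e_rd, rd_coeff]
    exact hs3.lead
  haveI := C.h₁.finite_CRb
  exact exists_mod12_le C.ρ_mul_eq Z.lowb0 Z.lowb1 Z.lowb2 hs2 hs0

/-- the decomposition of functions on the intersection over `A` -/
theorem MA12_le {n : ℕ}
    (hn : mod12 (ResidueField A) (D.ρ C.t₁) ≤ Wn Z.lowb0 (D.ρ C.t₁) n) :
    MA12 C ≤ Z.WA n := by
  obtain ⟨S, hSfg, hS1, hS2⟩ := Z.exists_fg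
  have hS3 : MA12 C ≤ Z.WA n ⊔ S := hS2.trans (sup_le_sup_right (Z.WA_mono (Nat.zero_le n)) S)
  have hS4 : S ≤ Z.WA n ⊔ maximalIdeal A • S := by
    intro x hx
    have hx1 := hS1 hx
    obtain ⟨a, ha, b, hb, hab⟩ := Submodule.mem_sup.1 (hn (ρ_mem_mod12 hx1))
    obtain ⟨x₁, hx₁, hx₁a⟩ := C.h₁.red_surj a ha
    obtain ⟨x₂, hx₂, hx₂b⟩ := Z.exists_lift_InLb (mem_inLMod.1 hb)
    have hx₂m : (x₂ : F) ∈ MA12 C := by
      have h1 := hx₂ ((tO L (C.t₂ : F)) ^ n) (Ideal.pow_mem_pow (tO_mem_cuspIdeal Z.low1) n)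
      have h2 : ((tO L (C.t₂ : F) ^ n : CR L (C.t₂ : F)) : F) = (C.t₂ : F) ^ n := rfl
      rw [h2] at h1
      have h3 : IntOver A (C.t₂ : F) ((x₂ : F) * (C.t₂ : F) ^ n) :=
        intOver_of_isIntegral C.h₂ (mul_mem x₂.2 (pow_mem C.t₂.2 n)) h1
      obtain ⟨b₀, hb₀⟩ := shift_integral ((algebraMap L F).comp A.subtype)
        (mul_comm (C.t₁ : F) _ ▸ C.mul_eq) h3
      refine ⟨b₀, ?_⟩
      have h4 := hb₀ (b₀ + n) (Nat.le_add_right _ _)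
      have h5 : (C.t₁ : F) ^ (b₀ + n) * ((x₂ : F) * (C.t₂ : F) ^ n) = (C.t₁ : F) ^ b₀ * x₂ := by
        have : (C.t₁ : F) ^ (b₀ + n) * ((x₂ : F) * (C.t₂ : F) ^ n) =
            (C.t₁ : F) ^ b₀ * x₂ * ((C.t₁ : F) * (C.t₂ : F)) ^ n := by ring
        rw [this, C.mul_eq, one_pow, mul_one]
      rwa [h5] at h4
    have hx₁m : x₁ ∈ MA12 C := ⟨0, by rw [pow_zero, one_mul]; exact hx₁⟩
    have hd : x - x₁ - x₂ ∈ MA12 C := sub_mem (sub_mem hx1 hx₁m) hx₂m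
    have hd0 : D.ρ ⟨x - x₁ - x₂, MA12_le_Z hd⟩ = 0 := by
      have h6 : (⟨x - x₁ - x₂, MA12_le_Z hd⟩ : D.Z) =
          ⟨x, MA12_le_Z hx1⟩ - ⟨x₁, C.h₁.mem _ hx₁⟩ - x₂ := Subtype.ext rfl
      rw [h6, map_sub, map_sub, hx₁a, hx₂b, ← hab]
      ring
    obtain ⟨c, y, hc, hy, hcy⟩ := exists_smul_of_ρ hd hd0
    obtain ⟨y₁, hy₁, y₂, hy₂, rfl⟩ := Submodule.mem_sup.1 (hS3 hy)
    have hx2 : x = (x₁ + x₂ + c • y₁) + c • y₂ := by
      have : x = (x - x₁ - x₂) + (x₁ + x₂) := by ring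
      rw [this, hcy, smul_add]
      ring
    rw [hx2]
    refine Submodule.add_mem_sup ?_ (Submodule.smul_mem_smul hc hy₂)
    refine Submodule.add_mem _ (Submodule.add_mem_sup (mem_MA1.2 hx₁) ⟨x₂.2, hx₂⟩)
      (Submodule.smul_mem _ _ hy₁)
  have hle : maximalIdeal A ≤ Ideal.jacobson ⊥ := by
    rw [IsLocalRing.jacobson_eq_maximalIdeal ⊥ bot_ne_top]
  have h5 := Submodule.le_of_le_smul_of_le_jacobson_bot hSfg hle hS4
  exact hS3.trans (sup_le le_rfl h5)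

/-- **Lifting**: for large `n`, functions on the special fibre with poles only at the cusp, of
order `≤ n`, lift. -/
theorem exists_lift {n : ℕ}
    (hn : mod12 (ResidueField A) (D.ρ C.t₁) ≤ Wn Z.lowb0 (D.ρ C.t₁) n) {y : Fb}
    (hy1 : y ∈ CR (ResidueField A) (D.ρ C.t₁)) (hy2 : Z.InLb n y) :
    ∃ x : D.Z, IntOver A (C.t₁ : F) (x : F) ∧ Z.InLn n (x : F) ∧ D.ρ x = y := by
  obtain ⟨x₁, hx₁, hx₁y⟩ := C.h₁.red_surj y hy1
  obtain ⟨x₂, hx₂, hx₂y⟩ := Z.exists_lift_InLb hy2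
  have hx₂m : (x₂ : F) ∈ MA12 C := by
    have h1 := hx₂ ((tO L (C.t₂ : F)) ^ n) (Ideal.pow_mem_pow (tO_mem_cuspIdeal Z.low1) n)
    have h2 : ((tO L (C.t₂ : F) ^ n : CR L (C.t₂ : F)) : F) = (C.t₂ : F) ^ n := rfl
    rw [h2] at h1
    have h3 : IntOver A (C.t₂ : F) ((x₂ : F) * (C.t₂ : F) ^ n) :=
      intOver_of_isIntegral C.h₂ (mul_mem x₂.2 (pow_mem C.t₂.2 n)) h1
    obtain ⟨b₀, hb₀⟩ := shift_integral ((algebraMap L F).comp A.subtype)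
      (mul_comm (C.t₁ : F) _ ▸ C.mul_eq) h3
    refine ⟨b₀, ?_⟩
    have h4 := hb₀ (b₀ + n) (Nat.le_add_right _ _)
    have h5 : (C.t₁ : F) ^ (b₀ + n) * ((x₂ : F) * (C.t₂ : F) ^ n) = (C.t₁ : F) ^ b₀ * x₂ := by
      have : (C.t₁ : F) ^ (b₀ + n) * ((x₂ : F) * (C.t₂ : F) ^ n) =
          (C.t₁ : F) ^ b₀ * x₂ * ((C.t₁ : F) * (C.t₂ : F)) ^ n := by ring
      rw [this, C.mul_eq, one_pow, mul_one]
    rwa [h5] at h4
  have hx₁m : x₁ ∈ MA12 C := ⟨0, by rw [pow_zero, one_mul]; exact hx₁⟩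
  have hd : x₁ - x₂ ∈ MA12 C := sub_mem hx₁m hx₂m
  have hd0 : D.ρ ⟨x₁ - x₂, MA12_le_Z hd⟩ = 0 := by
    have h6 : (⟨x₁ - x₂, MA12_le_Z hd⟩ : D.Z) = ⟨x₁, C.h₁.mem _ hx₁⟩ - x₂ := Subtype.ext rfl
    rw [h6, map_sub, hx₁y, hx₂y, sub_self]
  obtain ⟨c, w, hc, hw, hcw⟩ := exists_smul_of_ρ hd hd0
  obtain ⟨w₁, hw₁, w₂, hw₂, rfl⟩ := Submodule.mem_sup.1 (Z.MA12_le hn hw)
  have hx : x₁ - c • w₁ = x₂ + c • w₂ := by
    have h7 : x₁ = x₂ + c • (w₁ + w₂) := by rw [← hcw]; ring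
    rw [h7, smul_add]
    ring
  have h8 : IntOver A (C.t₁ : F) (x₁ - c • w₁) :=
    (MA1 C).sub_mem hx₁ ((MA1 C).smul_mem c hw₁)
  refine ⟨⟨x₁ - c • w₁, C.h₁.mem _ h8⟩, h8, ?_, ?_⟩
  · change Z.InLn n (x₁ - c • w₁)
    rw [hx]
    exact InL.add hx₂ (InL.smul hw₂.2 (c : L))
  · have h9 : (⟨x₁ - c • w₁, C.h₁.mem _ h8⟩ : D.Z) = ⟨x₁, C.h₁.mem _ hx₁⟩ -
        ⟨algebraMap L F c, D.alg_mem c⟩ * ⟨w₁, C.h₁.mem _ hw₁⟩ := by
      apply Subtype.ext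
      change x₁ - c • w₁ = x₁ - algebraMap L F c * w₁
      congr 1
      exact Algebra.smul_def (c : L) w₁
    rw [h9, map_sub, map_mul, D.ρ_alg, (residue_eq_zero_iff _).2 hc, map_zero, zero_mul, sub_zero,
      hx₁y]

end ASide

end Cusp

end Fermat.Agent.H11Q
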