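import Fermat.Agent.H11Q.CuspLift

/-!
# Functions with poles only at the cusp: characterisation by places
-/

set_option autoImplicit false
set_option linter.unusedSectionVars false

noncomputable section

open IsLocalRing ModularCurve Module AlgebraicCurve Fermat.Agent.H28 IsDedekindDomain

attribute [-instance] HahnSeries.instModule HahnSeries.instSMul HahnSeries.instDistribMulAction
  HahnSeries.instSMulZeroClass

namespace Fermat.Agent.H11Q

variable {L : Type*} [Field L] [IsAlgClosed L] {A : ValuationSubring L} {F Fb : Type*}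
  [Field F] [Field Fb] [Algebra L F] [Algebra (ResidueField A) Fb]

namespace Cusp

variable {D : RedData A F Fb} {C : TwoCharts D} (Z : Cusp C)

theorem e_ne {z : F} (hz : z ≠ 0) : Z.e z ≠ 0 := by
  intro h
  exact hz (Z.e.toRingHom.injective (by rw [map_zero]; exact h))

theorem low_iff_ord {z : F} (hz : z ≠ 0) {n : ℤ} : Low (Z.e z) n ↔ n ≤ Z.P.ord z := by
  rw [low_iff (Z.e_ne hz), Z.order_P z hz]

theorem ord_t₂ : Z.P.ord (C.t₂ : F) = 1 := by
  rw [← Z.order_P _ (t₂_ne (C := C)), Z.lead.order]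

theorem t₂_mem_P : (C.t₂ : F) ∈ Z.P.toValuationSubring := by
  rw [H18.mem_iff, Z.ord_t₂]
  norm_num

theorem t₁_eq : (C.t₁ : F) = (C.t₂ : F)⁻¹ := eq_inv_of_mul_eq_one_left C.mul_eq

theorem t₁_not_mem_P : (C.t₁ : F) ∉ Z.P.toValuationSubring := by
  rw [H18.mem_iff, t₁_eq (C := C), Place.ord_inv, Z.ord_t₂]
  norm_num

theorem inChart_P (r : CR L (C.t₂ : F)) :
    algebraMap (CR L (C.t₂ : F)) F r ∈ Z.P.toValuationSubring :=
  (inChart_iff Z.P).2 Z.t₂_mem_P r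

theorem center_P : (H18.center Z.P Z.inChart_P).asIdeal = Z.P₂ := by
  ext r
  rcases eq_or_ne r 0 with rfl | hr
  · exact ⟨fun _ => zero_mem _, fun _ => zero_mem _⟩
  · rw [H18.center_asIdeal, H18.mem_centerIdeal Z.P Z.inChart_P hr, mem_P₂,
      Z.low_iff_ord (fun h => hr (Subtype.ext h))]
    exact Iff.rfl

theorem exists_not_mem {v : Place L F} (hv : v ≠ Z.P) (h : (C.t₂ : F) ∈ v.toValuationSubring) :
    ∃ p ∈ Z.P₂, v.ord (p : F) = 0 ∧ (p : F) ≠ 0 := by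
  have hch : ∀ r : CR L (C.t₂ : F), algebraMap (CR L (C.t₂ : F)) F r ∈ v.toValuationSubring :=
    (inChart_iff v).2 h
  have hnot : ¬ Z.P₂ ≤ (H18.center v hch).asIdeal := by
    intro hle
    apply hv
    have h1 : Z.P₂ = (H18.center v hch).asIdeal :=
      Z.isRat_P₂.isMaximal.eq_of_le (H18.center v hch).isPrime.ne_top hle
    have h2 : H18.center v hch = H18.center Z.P Z.inChart_P := by
      apply HeightOneSpectrum.ext
      rw [← h1, Z.center_P]
    rw [← H18.placeOfPrime_center v hch, h2, H18.placeOfPrime_center]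
  obtain ⟨p, hp, hpv⟩ := Set.not_subset.1 hnot
  have hp0 : p ≠ 0 := by
    rintro rfl
    exact hpv (zero_mem _)
  refine ⟨p, hp, ?_, fun h => hp0 (Subtype.ext h)⟩
  have h3 : ¬ 0 < v.ord (algebraMap (CR L (C.t₂ : F)) F p) := fun h4 =>
    hpv ((H18.mem_centerIdeal v hch hp0).2 h4)
  have h5 : (algebraMap (CR L (C.t₂ : F)) F p) ∈ v.toValuationSubring := hch p
  rw [H18.mem_iff] at h5
  exact le_antisymm (not_lt.1 h3) h5

/-- the function `x` has no poles outside the cusp -/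
def PolP (x : F) : Prop := ∀ v : Place L F, v ≠ Z.P → x ∈ v.toValuationSubring

theorem polP_of {x : F} {n : ℕ} (h1 : x ∈ CR L (C.t₁ : F)) (h2 : Z.InLn n x) : Z.PolP x := by
  intro v hv
  by_cases ht : (C.t₁ : F) ∈ v.toValuationSubring
  · exact mem_valuationSubring_of_isIntegral v.toValuationSubring v.algebraMap_mem' ht h1
  · have ht2 : (C.t₂ : F) ∈ v.toValuationSubring := by
      have h3 := (v.toValuationSubring.mem_or_inv_mem (C.t₁ : F)).resolve_left ht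
      rwa [t₁_eq, inv_inv] at h3
    obtain ⟨p, hp, hpv, hp0⟩ := Z.exists_not_mem hv ht2
    have h3 := h2 (p ^ n) (Ideal.pow_mem_pow hp n)
    have h4 : ((p ^ n : CR L (C.t₂ : F)) : F) = (p : F) ^ n := rfl
    rw [h4] at h3
    have h5 := mem_valuationSubring_of_isIntegral v.toValuationSubring v.algebraMap_mem' ht2 h3
    rcases eq_or_ne x 0 with rfl | hx
    · exact zero_mem _
    rw [H18.mem_iff, v.ord_mul hx (pow_ne_zero _ hp0), H18.ord_pow, hpv, mul_zero, add_zero] at h5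
    exact (H18.mem_iff v).2 h5

theorem PolP.mem_CR₁ {x : F} (h : Z.PolP x) : x ∈ CR L (C.t₁ : F) := by
  have h1 : ∀ v : HeightOneSpectrum (CR L (C.t₁ : F)), v.valuation F x ≤ 1 := by
    intro v
    rw [← H18.mem_placeOfPrime L F v]
    apply h
    intro h2
    apply Z.t₁_not_mem_P
    rw [← h2]
    exact H18.algebraMap_mem_placeOfPrime L F v (tO L (C.t₁ : F))
  obtain ⟨y, hy⟩ := HeightOneSpectrum.mem_integers_of_valuation_le_one (R := CR L (C.t₁ : F)) F x h1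
  rw [← hy]
  exact y.2

theorem PolP.inLn {x : F} (h : Z.PolP x) {n : ℕ} (hn : Low (Z.e x) (-n)) : Z.InLn n x := by
  intro p hp
  have h1 : ∀ v : HeightOneSpectrum (CR L (C.t₂ : F)), v.valuation F (x * (p : F)) ≤ 1 := by
    intro v
    rw [← H18.mem_placeOfPrime L F v]
    by_cases hv : H18.placeOfPrime L F v = Z.P
    · rw [hv, H18.mem_iff]
      rcases eq_or_ne (x * (p : F)) 0 with h0 | h0
      · rw [h0, Place.ord_zero]
      · rw [← Z.low_iff_ord h0, map_mul]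
        have h2 := hn.mul (low_of_mem_pow hp)
        rwa [neg_add_cancel] at h2
    · exact mul_mem (h _ hv) (H18.algebraMap_mem_placeOfPrime L F v p)
  obtain ⟨y, hy⟩ := HeightOneSpectrum.mem_integers_of_valuation_le_one (R := CR L (C.t₂ : F)) F _ h1
  rw [← hy]
  exact y.2

theorem exists_low (x : LaurentSeries L) : ∃ n : ℕ, Low x (-n) := by
  refine ⟨x.order.natAbs, fun i hi => HahnSeries.coeff_eq_zero_of_lt_order (by omega)⟩

/-- reduction of functions with poles at the cusp -/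
theorem InLn.red {n : ℕ} {x : D.Z} (h : Z.InLn n (x : F)) : Z.InLb n (D.ρ x) := by
  intro p hp
  change p ∈ Z.Pb₂ ^ n at hp
  rw [← Z.bar_P₂_pow] at hp
  obtain ⟨p', hp', rfl⟩ := C.h₂.sys.mem_bar.1 hp
  have h1 := h _ hp'
  have hpZ : ((p' : CR L (C.t₂ : F)) : F) ∈ D.Z := C.h₂.mem _ p'.2
  have h2 : IntOver A (C.t₂ : F) ((x : F) * ((p' : CR L (C.t₂ : F)) : F)) :=
    intOver_of_isIntegral C.h₂ (mul_mem x.2 hpZ) h1
  have h3 := C.h₂.red_int _ h2
  have h4 : (⟨(x : F) * ((p' : CR L (C.t₂ : F)) : F), C.h₂.mem _ h2⟩ : D.Z) = x * ⟨_, hpZ⟩ := rfl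
  rw [h4, map_mul] at h3
  exact h3

/-! ### the ring of functions on the special fibre with poles only at the cusp -/

/-- functions on the special fibre with poles only at the cusp -/
def OO : Subalgebra (ResidueField A) Fb where
  carrier := {y | y ∈ CR (ResidueField A) (D.ρ C.t₁) ∧ ∃ n, Z.InLb n y}
  mul_mem' := by
    rintro x y ⟨hx, n, hn⟩ ⟨hy, m, hm⟩
    exact ⟨mul_mem hx hy, n + m, InL.mul hn hm⟩
  add_mem' := by
    rintro x y ⟨hx, n, hn⟩ ⟨hy, m, hm⟩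
    exact ⟨add_mem hx hy, n + m, InL.add (InL.mono (Nat.le_add_right _ _) hn)
      (InL.mono (Nat.le_add_left _ _) hm)⟩
  algebraMap_mem' := fun c => by
    refine ⟨?_, 0, ?_⟩
    · rw [Algebra.algebraMap_eq_smul_one]
      exact smul_mem_CR (one_mem _) c
    · change InL Z.lowb0 0 _
      rw [inL_zero, Algebra.algebraMap_eq_smul_one]
      exact smul_mem_CR (one_mem _) c

theorem mem_OO {y : Fb} : y ∈ Z.OO ↔ y ∈ CR (ResidueField A) (D.ρ C.t₁) ∧ ∃ n, Z.InLb n y :=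
  Iff.rfl

theorem red_mem_OO {x : D.Z} (h : Z.PolP (x : F)) : D.ρ x ∈ Z.OO := by
  refine ⟨?_, ?_⟩
  · have h1 : IntOver A (C.t₁ : F) (x : F) := intOver_of_isIntegral C.h₁ x.2 (PolP.mem_CR₁ Z h)
    exact C.h₁.red_int _ h1
  · obtain ⟨n, hn⟩ := exists_low (Z.e (x : F))
    exact ⟨n, InLn.red Z (PolP.inLn Z h hn)⟩

theorem mem_CR_of_monic {k Fb : Type*} [Field k] [Field Fb] [Algebra k Fb] {t : Fb}
    [IsDedekindDomain (CR k t)] [IsFractionRing (CR k t) Fb] {y : Fb}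
    (p : Polynomial Fb) (hp : p.Monic) (hc : ∀ i, p.coeff i ∈ CR k t) (h : p.eval y = 0) :
    y ∈ CR k t := by
  have h1 : p ∈ Polynomial.lifts (algebraMap (CR k t) Fb) := by
    rw [Polynomial.lifts_iff_coeff_lifts]
    intro n
    exact ⟨⟨p.coeff n, hc n⟩, rfl⟩
  obtain ⟨q, hq, -, hqm⟩ := Polynomial.lifts_and_natDegree_eq_and_monic h1 hp
  have h2 : IsIntegral (CR k t) y := ⟨q, hqm, by rw [← Polynomial.eval_map, hq, h]⟩
  obtain ⟨z, hz⟩ := IsIntegrallyClosed.algebraMap_eq_of_integral (K := Fb) h2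
  rw [← hz]
  exact z.2

/-- integral closedness -/
theorem OO_int {y : Fb} (p : Polynomial Fb) (hp : p.Monic) (hc : ∀ i, p.coeff i ∈ Z.OO)
    (h : p.eval y = 0) : y ∈ Z.OO := by
  refine ⟨mem_CR_of_monic p hp (fun i => (hc i).1) h, ?_⟩
  choose n hn using fun i => (hc i).2
  set N := ∑ i ∈ Finset.range (p.natDegree + 1), n i with hN
  have hN' : ∀ i, Z.InLb N (p.coeff i) := by
    intro i
    rcases Nat.lt_or_ge p.natDegree i with hi | hi
    · rw [Polynomial.coeff_eq_zero_of_natDegree_lt hi]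
      exact inL_zero_mem N
    · exact InL.mono (Finset.single_le_sum (f := n) (fun _ _ => Nat.zero_le _)
        (Finset.mem_range.2 (by omega))) (hn i)
  refine ⟨N, fun a ha => ?_⟩
  -- `y a` is integral
  rcases eq_or_ne (a : Fb) 0 with ha0 | ha0
  · rw [ha0, mul_zero]; exact zero_mem _
  refine mem_CR_of_monic (p.scaleRoots (a : Fb)) ((Polynomial.monic_scaleRoots_iff _).2 hp)
    (fun i => ?_) ?_
  · rw [Polynomial.coeff_scaleRoots]
    rcases Nat.lt_or_ge i p.natDegree with hi | hi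
    · obtain ⟨d, hd⟩ : ∃ d, p.natDegree - i = d + 1 := ⟨p.natDegree - i - 1, by omega⟩
      rw [hd, pow_succ', ← mul_assoc]
      exact mul_mem (hN' i a ha) (pow_mem a.2 d)
    · rw [Nat.sub_eq_zero_of_le hi, pow_zero, mul_one]
      rcases hi.eq_or_lt with hi | hi
      · rw [← hi, hp.coeff_natDegree]
        exact one_mem _
      · rw [Polynomial.coeff_eq_zero_of_natDegree_lt hi]
        exact zero_mem _
  · have h1 := Polynomial.scaleRoots_eval₂_eq_zero (RingHom.id Fb) (p := p) (r := y)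
      (s := (a : Fb)) (by rw [← Polynomial.eval₂_id] at h; exact h)
    rw [RingHom.id_apply, mul_comm] at h1
    rw [← Polynomial.eval₂_id]
    exact h1

/-- functions without poles are constant -/
theorem OO_const [IsAlgClosed (ResidueField A)] {y : Fb} (hy : y ∈ Z.OO)
    (hlow : Low (Z.eb y) 0) : ∃ c : ResidueField A, algebraMap _ Fb c = y := by
  obtain ⟨hy1, n, hn⟩ := hy
  have h2 : Z.InLb 0 y := InL.of_low Z.lowb1 Z.lowb2 hn (by simpa using hlow)
  have hy2 : y ∈ CR (ResidueField A) (D.ρ C.t₂) := inL_zero.1 h2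
  by_contra hcon
  obtain ⟨V, hkV, hyV⟩ := exists_valuationSubring (k := ResidueField A) hcon
  by_cases ht : D.ρ C.t₁ ∈ V
  · exact hyV (mem_valuationSubring_of_isIntegral V hkV ht hy1)
  · have ht2 : D.ρ C.t₂ ∈ V := by
      have h3 := (V.mem_or_inv_mem (D.ρ C.t₁)).resolve_left ht
      rwa [← eq_inv_of_mul_eq_one_right C.ρ_mul_eq] at h3
    exact hyV (mem_valuationSubring_of_isIntegral V hkV ht2 hy2)

/-- lifting with control of the pole -/
theorem exists_n₁ : ∃ n₀ : ℕ, ∀ n, n₀ ≤ n → ∀ y ∈ Z.OO, Low (Z.eb y) (-n) →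
    ∃ x : D.Z, Z.PolP (x : F) ∧ Low (Z.e (x : F)) (-n) ∧ D.ρ x = y := by
  obtain ⟨n₀, hn₀⟩ := Z.exists_n₀
  refine ⟨n₀, fun n hn y hy hlow => ?_⟩
  obtain ⟨hy1, m, hm⟩ := hy
  obtain ⟨x, hx1, hx2, hx3⟩ := Z.exists_lift (hn₀ n hn) hy1 (InL.of_low Z.lowb1 Z.lowb2 hm hlow)
  exact ⟨x, Z.polP_of hx1.isIntegral hx2, InL.low Z.low1 Z.low2 hx2, hx3⟩

theorem exists_lift_OO {y : Fb} (hy : y ∈ Z.OO) :
    ∃ x : D.Z, Z.PolP (x : F) ∧ D.ρ x = y := by
  obtain ⟨n₀, hn₀⟩ := Z.exists_n₁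
  obtain ⟨n, hn⟩ : ∃ n : ℕ, Low (Z.eb y) (-n) :=
    ⟨(Z.eb y).order.natAbs, fun i hi => HahnSeries.coeff_eq_zero_of_lt_order (by omega)⟩
  obtain ⟨x, hx1, -, hx3⟩ := hn₀ (n₀ + n) (Nat.le_add_right _ _) y hy
    (hn.mono (by push_cast; omega))
  exact ⟨x, hx1, hx3⟩

/-- functions with poles only at the cusp of every large order, with unit leading coefficient -/
theorem exists_unitLead : ∃ n₀ : ℕ, ∀ n, n₀ ≤ n → ∃ x : D.Z, Z.PolP (x : F) ∧
    UnitLead A (Z.e (x : F)) (-(n : ℤ)) := by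
  obtain ⟨n₀, hn₀⟩ := Z.exists_n₀
  obtain ⟨n₁, hn₁⟩ := Z.exists_n₁
  obtain ⟨s, hs1, hs2, hs3⟩ := Z.exists_simple
  have hs0 : (Z.eb (D.ρ s)).coeff (-1) ≠ 0 := by
    rw [← Z.e_rd, rd_coeff]
    exact hs3.lead
  refine ⟨n₀ + n₁ + 1, fun n hn => ?_⟩
  obtain ⟨m, rfl⟩ : ∃ m, n = m + 1 := ⟨n - 1, by omega⟩
  obtain ⟨a, ha1, ha2, ha3⟩ := exists_exact_cusp (k := ResidueField A) (t := D.ρ C.t₁) Z.lowb0
    Z.lowb1 Z.lowb2 hs2 hs0 (n := m)
    ((Wn_le_mod12 C.ρ_mul_eq Z.lowb0 Z.lowb1 (m + 1)).trans (hn₀ m (by omega)))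
  obtain ⟨x, hx1, hx2, hx3⟩ := hn₁ (m + 1) (by omega) a ⟨ha1, _, ha2⟩
    (InL.low Z.lowb1 Z.lowb2 ha2)
  refine ⟨x, hx1, Z.e_int x, hx2, ?_⟩
  rw [← rd_coeff, Z.e_rd, hx3]
  exact ha3

end Cusp

end Fermat.Agent.H11Q
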