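import Fermat.Agent.H11Q.ChartAlg
import Fermat.Agent.H28.TwoCharts
import Fermat.Agent.H28.Const

/-!
# Functions with poles only at a cusp of a chart
-/

set_option autoImplicit false

noncomputable section

open IsLocalRing ModularCurve Module AlgebraicCurve Fermat.Agent.H28 IsDedekindDomain

attribute [-instance] HahnSeries.instModule HahnSeries.instSMul HahnSeries.instDistribMulAction
  HahnSeries.instSMulZeroClass

namespace Fermat.Agent.H11Q

section Gen

variable {k Fb : Type*} [Field k] [Field Fb] [Algebra k Fb] (e : Fb →ₐ[k] LaurentSeries k)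

theorem low_algebraMap (c : k) : Low (algebraMap k (LaurentSeries k) c) 0 := by
  rw [Algebra.algebraMap_eq_smul_one]
  exact low_one.smul c

/-- functions regular at the cusp -/
def lowAlg : Subalgebra k Fb where
  carrier := {y | Low (e y) 0}
  mul_mem' := fun {a b} ha hb => by
    change Low (e (a * b)) 0
    rw [map_mul, ← add_zero (0 : ℤ)]
    exact Low.mul ha hb
  add_mem' := fun {a b} ha hb => by
    change Low (e (a + b)) 0
    rw [map_add]
    exact Low.add ha hb
  algebraMap_mem' := fun c => by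
    change Low (e (algebraMap k Fb c)) 0
    rw [e.commutes]
    exact low_algebraMap c

variable {e} {t : Fb}

theorem adjoin_le_lowAlg (ht : Low (e t) 0) : Algebra.adjoin k {t} ≤ lowAlg e :=
  Algebra.adjoin_le (Set.singleton_subset_iff.2 ht)

theorem low_of_CR (ht : Low (e t) 0) {x : Fb} (hx : IsIntegral (Algebra.adjoin k {t}) x) :
    Low (e x) 0 := by
  obtain ⟨p, hp, hpx⟩ := hx
  refine low_of_integral (p.map ((e : Fb →+* LaurentSeries k).comp
    (algebraMap (Algebra.adjoin k {t}) Fb))) (hp.map _) (fun i => ?_) ?_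
  · rw [Polynomial.coeff_map]
    exact adjoin_le_lowAlg ht (p.coeff i).2
  · rw [Polynomial.eval_map]
    have h1 := Polynomial.hom_eval₂ p (algebraMap (Algebra.adjoin k {t}) Fb)
      (e : Fb →+* LaurentSeries k) x
    rw [hpx, map_zero] at h1
    exact h1.symm

theorem coe_smul_CR (a b : CR k t) : ((a • b : CR k t) : Fb) = (a : Fb) * b := rfl

/-- the ideal of the cusp -/
def cuspIdeal (ht : Low (e t) 0) : Ideal (CR k t) where
  carrier := {x | Low (e (x : Fb)) 1}
  zero_mem' := by
    change Low (e ((0 : CR k t) : Fb)) 1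
    rw [ZeroMemClass.coe_zero, map_zero]
    exact low_zero 1
  add_mem' := fun {a b} ha hb => by
    change Low (e ((a + b : CR k t) : Fb)) 1
    have : ((a + b : CR k t) : Fb) = (a : Fb) + b := rfl
    rw [this, map_add]
    exact Low.add ha hb
  smul_mem' := fun c x hx => by
    change Low (e ((c • x : CR k t) : Fb)) 1
    rw [coe_smul_CR, map_mul, ← zero_add (1 : ℤ)]
    exact Low.mul (low_of_CR ht c.2) hx

variable {ht : Low (e t) 0}

theorem mem_cuspIdeal {x : CR k t} : x ∈ cuspIdeal ht ↔ Low (e (x : Fb)) 1 := Iff.rfl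

theorem isRat_cuspIdeal : IsRat k (cuspIdeal ht) := by
  refine ⟨fun h => ?_, fun x => ⟨(e (x : Fb)).coeff 0, ?_⟩⟩
  · have h1 : (1 : CR k t) ∈ cuspIdeal ht := by rw [h]; exact Submodule.mem_top
    rw [mem_cuspIdeal] at h1
    have h2 := h1 0 (by norm_num)
    rw [OneMemClass.coe_one, map_one, HahnSeries.coeff_one, if_pos rfl] at h2
    exact one_ne_zero h2
  · rw [mem_cuspIdeal]
    intro i hi
    have h1 : ((x - algebraMap k (CR k t) ((e (x : Fb)).coeff 0) : CR k t) : Fb) =
        (x : Fb) - algebraMap k Fb ((e (x : Fb)).coeff 0) := rfl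
    rw [h1, map_sub, e.commutes, HahnSeries.coeff_sub, Algebra.algebraMap_eq_smul_one,
      coeff_smul', HahnSeries.coeff_one]
    rcases eq_or_ne i 0 with rfl | hi0
    · rw [if_pos rfl, mul_one, sub_self]
    · rw [if_neg hi0, mul_zero, sub_zero]
      exact low_of_CR ht x.2 i (by omega)

theorem low_of_mem_pow {n : ℕ} {x : CR k t} (hx : x ∈ cuspIdeal ht ^ n) :
    Low (e (x : Fb)) n := by
  induction n generalizing x with
  | zero => exact low_of_CR ht x.2
  | succ n ih =>
    rw [pow_succ] at hx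
    refine Submodule.mul_induction_on hx (fun a ha b hb => ?_) (fun a b ha hb => ?_)
    · have : ((a * b : CR k t) : Fb) = (a : Fb) * b := rfl
      rw [this, map_mul]
      have h1 := (ih ha).mul (mem_cuspIdeal.1 hb)
      push_cast
      exact h1
    · have : ((a + b : CR k t) : Fb) = (a : Fb) + b := rfl
      rw [this, map_add]
      exact ha.add hb

/-- functions regular on the chart, except for a pole of order `≤ n` at the cusp -/
def InL (ht : Low (e t) 0) (n : ℕ) (z : Fb) : Prop :=
  ∀ p ∈ cuspIdeal ht ^ n, z * (p : Fb) ∈ CR k t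

theorem inL_zero {z : Fb} : InL ht 0 z ↔ z ∈ CR k t := by
  constructor
  · intro h
    have := h 1 (by rw [pow_zero, Ideal.one_eq_top]; exact Submodule.mem_top)
    rwa [OneMemClass.coe_one, mul_one] at this
  · intro h p _
    exact mul_mem h p.2

theorem InL.mono {n m : ℕ} (hnm : n ≤ m) {z : Fb} (h : InL ht n z) : InL ht m z :=
  fun p hp => h p (Ideal.pow_le_pow_right hnm hp)

theorem InL.add {n : ℕ} {z w : Fb} (h : InL ht n z) (h' : InL ht n w) : InL ht n (z + w) :=
  fun p hp => by rw [add_mul]; exact add_mem (h p hp) (h' p hp)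

theorem InL.neg {n : ℕ} {z : Fb} (h : InL ht n z) : InL ht n (-z) :=
  fun p hp => by rw [neg_mul]; exact neg_mem (h p hp)

theorem InL.sub {n : ℕ} {z w : Fb} (h : InL ht n z) (h' : InL ht n w) : InL ht n (z - w) := by
  rw [sub_eq_add_neg]; exact h.add h'.neg

theorem inL_zero_mem (n : ℕ) : InL ht n (0 : Fb) := fun p _ => by
  rw [zero_mul]; exact zero_mem _

theorem InL.smul {n : ℕ} {z : Fb} (h : InL ht n z) (c : k) : InL ht n (c • z) :=
  fun p hp => by
    rw [Algebra.smul_def, mul_assoc]
    exact mul_mem ((CR k t).algebraMap_mem (algebraMap k (Algebra.adjoin k {t}) c)) (h p hp)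

theorem InL.mul {n m : ℕ} {z w : Fb} (h : InL ht n z) (h' : InL ht m w) :
    InL ht (n + m) (z * w) := by
  intro p hp
  rw [pow_add] at hp
  refine Submodule.mul_induction_on hp (fun a ha b hb => ?_) (fun a b ha hb => ?_)
  · have : z * w * ((a * b : CR k t) : Fb) = (z * (a : Fb)) * (w * b) := by
      have h1 : ((a * b : CR k t) : Fb) = (a : Fb) * b := rfl
      rw [h1]; ring
    rw [this]
    exact mul_mem (h a ha) (h' b hb)
  · have : z * w * ((a + b : CR k t) : Fb) = z * w * a + z * w * b := by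
      have h1 : ((a + b : CR k t) : Fb) = (a : Fb) + b := rfl
      rw [h1]; ring
    rw [this]
    exact add_mem ha hb

theorem inL_one : InL ht 0 (1 : Fb) := inL_zero.2 (one_mem _)

theorem InL.pow {n : ℕ} {z : Fb} (h : InL ht n z) (m : ℕ) : InL ht (m * n) (z ^ m) := by
  induction m with
  | zero => rw [zero_mul, pow_zero]; exact inL_one
  | succ m ih => rw [Nat.succ_mul, pow_succ]; exact ih.mul h

section Order

variable (ht1 : Low (e t) 1) (ht2 : (e t).coeff 1 ≠ 0)

include ht1 in
theorem tO_mem_cuspIdeal : tO k t ∈ cuspIdeal ht := ht1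

include ht1 ht2 in
theorem InL.low {n : ℕ} {z : Fb} (h : InL ht n z) : Low (e z) (-n) := by
  have h1 := h ((tO k t) ^ n) (Ideal.pow_mem_pow (tO_mem_cuspIdeal ht1) n)
  have h2 := low_of_CR ht h1
  have h3 : ((tO k t ^ n : CR k t) : Fb) = t ^ n := rfl
  rw [h3, map_mul, map_pow] at h2
  rcases eq_or_ne (e z) 0 with h0 | h0
  · rw [h0]; exact low_zero _
  have ht0 : e t ≠ 0 := by
    intro h4
    rw [h4] at ht2
    exact ht2 rfl
  have hord : (e t).order = 1 := by
    apply le_antisymm
    · exact HahnSeries.order_le_of_coeff_ne_zero ht2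
    · exact (low_iff ht0).1 ht1
  rw [low_iff (mul_ne_zero h0 (pow_ne_zero _ ht0)), HahnSeries.order_mul h0 (pow_ne_zero _ ht0),
    HahnSeries.order_pow, hord] at h2
  rw [low_iff h0]
  simp only [nsmul_eq_mul, mul_one] at h2
  omega

variable [IsDedekindDomain (CR k t)] [IsFractionRing (CR k t) Fb]

include ht1 ht2 in
/-- a function with at most a simple pole at the cusp, and regular there -/
theorem mem_CR_of_low {w : Fb} (h : InL ht 1 w) (hw : Low (e w) 0) : w ∈ CR k t := by
  have h1 : ∀ p ∈ cuspIdeal ht, ∃ y ∈ cuspIdeal ht, (y : Fb) = w * p := by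
    intro p hp
    refine ⟨⟨w * p, h p (by rwa [pow_one])⟩, ?_, rfl⟩
    rw [mem_cuspIdeal]
    change Low (e (w * (p : Fb))) 1
    rw [map_mul, ← zero_add (1 : ℤ)]
    exact hw.mul (mem_cuspIdeal.1 hp)
  have hint : IsIntegral (CR k t) w := by
    let N : Submodule (CR k t) Fb :=
      Submodule.map (Algebra.linearMap (CR k t) Fb) (cuspIdeal ht)
    refine isIntegral_of_smul_mem_submodule N ?_ ?_ w ?_
    · intro hbot
      have h2 : t ∈ N := ⟨tO k t, tO_mem_cuspIdeal ht1, rfl⟩
      rw [hbot, Submodule.mem_bot] at h2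
      apply ht2
      rw [h2, map_zero]
      rfl
    · exact Submodule.FG.map _ (IsNoetherian.noetherian _)
    · rintro n ⟨p, hp, rfl⟩
      obtain ⟨y, hy, hy2⟩ := h1 p hp
      exact ⟨y, hy, hy2⟩
  obtain ⟨y, hy⟩ := IsIntegrallyClosed.algebraMap_eq_of_integral (K := Fb) hint
  rw [← hy]
  exact y.2

include ht1 ht2 in
theorem InL.step {n : ℕ} {z : Fb} (h : InL ht (n + 1) z) (hz : Low (e z) (-n)) :
    InL ht n z := by
  intro a ha
  apply mem_CR_of_low (ht := ht) ht1 ht2
  · intro p hp
    rw [pow_one] at hp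
    have h1 := h (a * p) (by rw [pow_succ]; exact Ideal.mul_mem_mul ha hp)
    rwa [mul_assoc]
  · rw [map_mul]
    have h1 := hz.mul (low_of_mem_pow ha)
    rwa [neg_add_cancel] at h1

include ht1 ht2 in
theorem InL.of_low {n m : ℕ} {z : Fb} (h : InL ht m z) (hz : Low (e z) (-n)) :
    InL ht n z := by
  induction m with
  | zero => exact h.mono (Nat.zero_le _)
  | succ m ih =>
    rcases Nat.lt_or_ge m n with hmn | hmn
    · exact h.mono hmn
    · refine ih (InL.step ht1 ht2 h (hz.mono ?_))
      omega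

/-- the decomposition of functions with poles at the cusp -/
theorem InL.exists_sum (ht1 : Low (e t) 1) (ht2 : (e t).coeff 1 ≠ 0) {s : Fb}
    (hs : InL ht 1 s) (hs0 : (e s).coeff (-1) ≠ 0) (n : ℕ) {z : Fb} (h : InL ht n z) :
    ∃ (y : CR k t) (c : ℕ → k), z = y + ∑ i ∈ Finset.range n, c i • s ^ (i + 1) := by
  induction n generalizing z with
  | zero => exact ⟨⟨z, inL_zero.1 h⟩, 0, by rw [Finset.sum_range_zero, add_zero]⟩
  | succ n ih =>
    have hslow := InL.low ht1 ht2 hs
    have hse : e s ≠ 0 := fun h0 => hs0 (by rw [h0]; rfl)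
    have hsord : (e s).order = -1 := by
      apply le_antisymm
      · exact HahnSeries.order_le_of_coeff_ne_zero hs0
      · exact (low_iff hse).1 hslow
    have hpow : (e (s ^ (n + 1))).order = -((n + 1 : ℕ) : ℤ) := by
      rw [map_pow, HahnSeries.order_pow, hsord, nsmul_eq_mul, mul_neg, mul_one]
    have hpne : e (s ^ (n + 1)) ≠ 0 := by rw [map_pow]; exact pow_ne_zero _ hse
    have hlc : (e (s ^ (n + 1))).coeff (-((n + 1 : ℕ) : ℤ)) ≠ 0 := by
      rw [← hpow]
      exact fun h0 => hpne (HahnSeries.coeff_order_eq_zero.1 h0)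
    set c₀ := (e z).coeff (-((n + 1 : ℕ) : ℤ)) / (e (s ^ (n + 1))).coeff (-((n + 1 : ℕ) : ℤ))
      with hc₀
    have hpL : InL ht (n + 1) (s ^ (n + 1)) := by
      have := hs.pow (n + 1)
      rwa [mul_one] at this
    have h1 : InL ht (n + 1) (z - c₀ • s ^ (n + 1)) := h.sub (hpL.smul c₀)
    have h2 : Low (e (z - c₀ • s ^ (n + 1))) (-n) := by
      intro i hi
      rw [map_sub, map_smul, HahnSeries.coeff_sub, coeff_smul']
      rcases lt_or_ge i (-((n + 1 : ℕ) : ℤ)) with hi2 | hi2
      · rw [InL.low ht1 ht2 h i hi2, InL.low ht1 ht2 hpL i hi2, mul_zero, sub_zero]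
      · have hi3 : i = -((n + 1 : ℕ) : ℤ) := by
          push_cast at hi hi2 ⊢
          omega
        rw [hi3, hc₀, div_mul_cancel₀ _ hlc, sub_self]
    obtain ⟨y, c, hyc⟩ := ih (InL.step ht1 ht2 h1 h2)
    refine ⟨y, Function.update c n c₀, ?_⟩
    rw [Finset.sum_range_succ, Function.update_self]
    have h3 : ∑ i ∈ Finset.range n, Function.update c n c₀ i • s ^ (i + 1) =
        ∑ i ∈ Finset.range n, c i • s ^ (i + 1) := by
      refine Finset.sum_congr rfl fun i hi => ?_
      rw [Function.update_of_ne (Finset.mem_range.1 hi).ne]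
    rw [h3, ← add_assoc, ← hyc, sub_add_cancel]

end Order

end Gen

end Fermat.Agent.H11Q
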