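import Mathlib

/-!
# Finiteness lemmas for two charts
-/

set_option autoImplicit false

noncomputable section

open Module Polynomial

namespace Fermat.Agent.H11Q

/-- finite generation of the first cohomology group of a two chart covering -/
theorem le_sup_span {R F : Type*} [CommRing R] [Field F] [Algebra R F] {t u : F}
    (htu : t * u = 1) {r : ℕ} (w : Fin r → F) (M₁ W M₁₂ : Submodule R F) (h₁ : M₁ ≤ W)
    (hgen : ∀ x ∈ M₁, ∃ p : Fin r → R[X], x = ∑ i, aeval t (p i) * w i)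
    (hM₁ : ∀ i (n : ℕ), t ^ n * w i ∈ M₁)
    (hM₁₂ : ∀ x ∈ M₁₂, ∃ a : ℕ, t ^ a * x ∈ M₁) (b : ℕ)
    (hb : ∀ i (j : ℕ), b ≤ j → u ^ j * w i ∈ W) :
    M₁₂ ≤ W ⊔ Submodule.span R (Set.range fun ij : Fin r × Fin b => u ^ (ij.2 : ℕ) * w ij.1) := by
  intro x hx
  obtain ⟨a, ha⟩ := hM₁₂ x hx
  obtain ⟨p, hp⟩ := hgen _ ha
  have hx2 : x = ∑ i, ∑ c ∈ Finset.range ((p i).natDegree + 1),
      (p i).coeff c • (u ^ a * (t ^ c * w i)) := by
    have h1 : u ^ a * (t ^ a * x) = x := by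
      rw [← mul_assoc, ← mul_pow, mul_comm u t, htu, one_pow, one_mul]
    rw [← h1, hp, Finset.mul_sum]
    refine Finset.sum_congr rfl fun i _ => ?_
    rw [aeval_eq_sum_range, Finset.sum_mul, Finset.mul_sum]
    refine Finset.sum_congr rfl fun c _ => ?_
    rw [smul_mul_assoc, mul_smul_comm]
  rw [hx2]
  refine Submodule.sum_mem _ fun i _ => Submodule.sum_mem _ fun c _ =>
    Submodule.smul_mem _ _ ?_
  rcases Nat.lt_or_ge c a with hca | hca
  · obtain ⟨d, rfl⟩ := Nat.exists_eq_add_of_lt hca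
    have h2 : u ^ (c + d + 1) * (t ^ c * w i) = u ^ (d + 1) * w i := by
      have h3 : u ^ (c + d + 1) = u ^ (d + 1) * u ^ c := by rw [← pow_add]; congr 1; omega
      rw [h3, mul_assoc, ← mul_assoc (u ^ c), ← mul_pow, mul_comm u t, htu, one_pow, one_mul]
    rw [h2]
    rcases Nat.lt_or_ge (d + 1) b with hdb | hdb
    · exact Submodule.mem_sup_right (Submodule.subset_span ⟨(i, ⟨d + 1, hdb⟩), rfl⟩)
    · exact Submodule.mem_sup_left (hb i _ hdb)
  · obtain ⟨d, rfl⟩ := Nat.exists_eq_add_of_le hca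
    have h2 : u ^ a * (t ^ (a + d) * w i) = t ^ d * w i := by
      rw [pow_add, mul_assoc, ← mul_assoc (u ^ a), ← mul_pow, mul_comm u t, htu, one_pow, one_mul]
    rw [h2]
    exact Submodule.mem_sup_left (h₁ (hM₁ i d))

/-- an increasing sequence of subspaces between `W 0` and `W 0 + S`, `S` finite dimensional -/
theorem exists_stable {k V : Type*} [Field k] [AddCommGroup V] [Module k V]
    (W : ℕ → Submodule k V) (hmono : Monotone W) (S : Submodule k V) [FiniteDimensional k S]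
    (hS : ∀ n, W n ≤ W 0 ⊔ S) : ∃ n₀, ∀ n, n₀ ≤ n → W n = W n₀ := by
  have hmod : ∀ n, W n = W 0 ⊔ (S ⊓ W n) := by
    intro n
    apply le_antisymm
    · intro x hx
      obtain ⟨a, ha, b, hb, rfl⟩ := Submodule.mem_sup.1 (hS n hx)
      refine Submodule.add_mem_sup ha ⟨hb, ?_⟩
      have := (W n).sub_mem hx (hmono (Nat.zero_le n) ha)
      rwa [add_sub_cancel_left] at this
    · exact sup_le (hmono (Nat.zero_le n)) inf_le_right
  have hfd : ∀ n, FiniteDimensional k (S ⊓ W n : Submodule k V) := fun n =>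
    Submodule.finiteDimensional_of_le inf_le_left
  have hbdd : ∀ n, finrank k (S ⊓ W n : Submodule k V) ≤ finrank k S := fun n =>
    Submodule.finrank_mono inf_le_left
  obtain ⟨m, ⟨n₀, rfl⟩, hm⟩ := Set.exists_max_image
    (Set.range fun n => finrank k (S ⊓ W n : Submodule k V)) id
    ((Set.finite_Iic (finrank k S)).subset (by
      rintro _ ⟨n, rfl⟩
      exact hbdd n)) (Set.range_nonempty _)
  refine ⟨n₀, fun n hn => ?_⟩
  have h1 : S ⊓ W n₀ = S ⊓ W n := by
    have := hfd n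
    apply Submodule.eq_of_le_of_finrank_le
    · exact inf_le_inf_left _ (hmono hn)
    · exact hm _ ⟨n, rfl⟩
  rw [hmod n, hmod n₀, h1]

/-- a polynomial in an endomorphism killing a finite dimensional quotient -/
theorem exists_poly_kill {k V : Type*} [Field k] [AddCommGroup V] [Module k V] (T : V →ₗ[k] V)
    (W B : Submodule k V) (hW : ∀ x ∈ W, T x ∈ W) (hB : ∀ x ∈ B, T x ∈ B) (S : Submodule k V)
    [FiniteDimensional k S] (hS : B ≤ W ⊔ S) :
    ∃ p : k[X], p ≠ 0 ∧ ∀ x ∈ B, aeval T p x ∈ W := by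
  set T' : (V ⧸ W) →ₗ[k] (V ⧸ W) := W.mapQ W T hW with hT'
  set N : Submodule k (V ⧸ W) := B.map W.mkQ with hN
  have hNfd : FiniteDimensional k N := by
    have h1 : N ≤ S.map W.mkQ := by
      rintro _ ⟨x, hx, rfl⟩
      obtain ⟨a, ha, b, hb, rfl⟩ := Submodule.mem_sup.1 (hS hx)
      refine ⟨b, hb, ?_⟩
      have h2 : W.mkQ a = 0 := (Submodule.Quotient.mk_eq_zero W).2 ha
      rw [map_add, h2, zero_add]
    exact Submodule.finiteDimensional_of_le h1
  have hNT : ∀ y ∈ N, T' y ∈ N := by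
    rintro _ ⟨x, hx, rfl⟩
    exact ⟨T x, hB x hx, rfl⟩
  set T'' : N →ₗ[k] N := T'.restrict hNT with hT''
  refine ⟨T''.charpoly, T''.charpoly_monic.ne_zero, fun x hx => ?_⟩
  rw [← Submodule.Quotient.mk_eq_zero W]
  have h1 := LinearMap.aeval_self_charpoly T''
  have h2 : (aeval T'' T''.charpoly) ⟨W.mkQ x, x, hx, rfl⟩ = 0 := by rw [h1]; rfl
  rw [aeval_endomorphism] at h2 ⊢
  have h3 := congrArg (Submodule.subtype N) h2
  rw [map_zero, Polynomial.sum_def, map_sum] at h3
  rw [Polynomial.sum_def]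
  change W.mkQ _ = 0
  rw [map_sum, ← h3]
  refine Finset.sum_congr rfl fun n hn => ?_
  clear hn
  rw [map_smul, map_smul]
  congr 1
  induction n with
  | zero => rfl
  | succ n ih =>
    rw [pow_succ', pow_succ', Module.End.mul_apply, Module.End.mul_apply]
    have h4 : W.mkQ (T ((T ^ n) x)) = T' (W.mkQ ((T ^ n) x)) := rfl
    rw [h4, ih]
    rfl

end Fermat.Agent.H11Q
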