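import Fermat.Agent.H11Q.Twist

/-!
# Good representatives
-/

set_option autoImplicit false

noncomputable section

open IsLocalRing ModularCurve Module AlgebraicCurve

attribute [-instance] HahnSeries.instModule HahnSeries.instSMul HahnSeries.instDistribMulAction
  HahnSeries.instSMulZeroClass

namespace Fermat.Agent.H11Q

variable {K : Type*} [Field K] {A : ValuationSubring K} {F : Type*} [Field F] [Algebra K F]

section Exact

variable {T : TwoComp K A F}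

theorem exists_exact_O : ∃ n₀ : ℕ, ∀ n : ℕ, n₀ ≤ n → ∃ a : T.O,
    Low (a : LaurentSeries (ResidueField A)) (-n) ∧
      (a : LaurentSeries (ResidueField A)).coeff (-n) ≠ 0 := by
  obtain ⟨n₀, h⟩ := T.O_dim
  refine ⟨n₀ + 1, fun n hn => ?_⟩
  by_contra hcon
  push Not at hcon
  obtain ⟨n, rfl⟩ : ∃ k, n = k + 1 := ⟨n - 1, by omega⟩
  obtain ⟨h1, h2⟩ := h n (by omega) (LO T n) (fun a => Iff.rfl)
  obtain ⟨h3, h4⟩ := h (n + 1) (by omega) (LO T (n + 1 : ℕ)) (fun a => Iff.rfl)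
  have hle : LO T (n + 1 : ℕ) ≤ LO T n := by
    rintro a ⟨ha, hlow⟩
    refine ⟨ha, fun i hi => ?_⟩
    rcases lt_or_ge i (-((n + 1 : ℕ) : ℤ)) with h5 | h5
    · exact hlow i h5
    · have : i = -((n + 1 : ℕ) : ℤ) := by push_cast at h5 ⊢; omega
      rw [this]
      exact hcon ⟨a, ha⟩ hlow
  have := Submodule.finrank_mono hle
  omega

theorem exists_exact {s : ℕ} (α : Fin s → (T.O →ₐ[ResidueField A] ResidueField A))
    (hα : ∀ c : Fin s → ResidueField A, ∃ a : T.O, ∀ i, α i a = c i) :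
    ∃ n₀ : ℕ, ∀ n : ℕ, n₀ ≤ n → ∃ a : T.O, Low (a : LaurentSeries (ResidueField A)) (-n) ∧
      (a : LaurentSeries (ResidueField A)).coeff (-n) ≠ 0 ∧ ∀ i, α i a = 0 := by
  obtain ⟨n₁, h1⟩ := exists_exact_O (T := T)
  obtain ⟨n₂, h2⟩ := exists_surj_low (T := T) α hα
  refine ⟨max n₁ (n₂ + 1), fun n hn => ?_⟩
  obtain ⟨a, ha, ha'⟩ := h1 n (by omega)
  obtain ⟨b, hb, hb'⟩ := h2 n₂ le_rfl (fun i => α i a)
  refine ⟨a - b, ?_, ?_, fun i => ?_⟩
  · exact ha.sub (hb.mono (by omega))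
  · change ((a : LaurentSeries (ResidueField A)) - b).coeff (-n) ≠ 0
    rw [HahnSeries.coeff_sub, hb _ (by omega), sub_zero]
    exact ha'
  · rw [map_sub, hb', sub_self]

end Exact

/-- A good function: an `m`-th power in `A((q))`, with unit leading coefficients at both cusps. -/
structure Good (T : TwoComp K A F) (m : ℕ) (f : F) where
  m_ne : m ≠ 0
  f_ne : f ≠ 0
  f_mem : f ∈ T.Rg
  D : Divisor K F
  hD : ∀ v, (m : ℤ) * D v = v.ord f
  H : Fin 2 → LaurentSeries K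
  n : Fin 2 → ℤ
  H_lead : ∀ j, UnitLead A (H j) (n j)
  H_num : ∀ j, NumF (H j)
  H_pow : ∀ j, H j ^ m = T.e j f
  H_mem : ∀ j, rd A (H j) ∈ T.κ

namespace Good

variable {T : TwoComp K A F} {m : ℕ} {f : F} (w : Good T m f)

/-- the underlying twist datum -/
def toTw : Tw T m f where
  m_ne := w.m_ne
  f_ne := w.f_ne
  f_mem := w.f_mem
  D := w.D
  hD := w.hD
  t _ := 1
  t_ne _ := one_ne_zero
  int j := by
    rw [one_pow, inv_one, one_smul, ← w.H_pow]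
    exact (w.H_lead j).int.pow m
  u j := rd A (w.H j)
  u_mem := w.H_mem
  u_ne j := (w.H_lead j).rd_ne_zero
  rd_eq j := by
    rw [one_pow, inv_one, one_smul, ← w.H_pow, rd_pow (w.H_lead j).int]

/-- the expansion of `z f^{1/m}` -/
def G (j : Fin 2) (z : F) : LaurentSeries K := T.e j z * w.H j

theorem toTw_E (j : Fin 2) (z : F) : w.toTw.E j z = w.G j z * w.H j ^ (m - 1) := by
  rw [Tw.E_apply, G]
  change ((1 : K) ^ (m - 1))⁻¹ • T.e j (z * f) = _
  rw [one_pow, inv_one, one_smul, map_mul, ← w.H_pow, mul_assoc, ← pow_succ']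
  congr 3
  have := w.m_ne
  omega

theorem G_pow (j : Fin 2) (z : F) : (w.G j z) ^ m = T.e j (z ^ m * f) := by
  rw [G, mul_pow, w.H_pow, map_mul, map_pow]

theorem H_ne (j : Fin 2) : w.H j ≠ 0 := (w.H_lead j).ne_zero

theorem G_eq (j : Fin 2) (z : F) : w.G j z = w.toTw.E j z * (w.H j)⁻¹ ^ (m - 1) := by
  rw [toTw_E, mul_assoc, ← mul_pow, mul_inv_cancel₀ (w.H_ne j), one_pow, mul_one]

theorem isInt_G_iff {j : Fin 2} {z : F} : IsInt A (w.G j z) ↔ IsInt A (w.toTw.E j z) := by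
  constructor
  · intro h
    rw [toTw_E]
    exact h.mul ((w.H_lead j).int.pow _)
  · intro h
    rw [G_eq]
    exact h.mul ((w.H_lead j).inv.1.int.pow _)

theorem r_eq {j : Fin 2} {z : F} (h : IsInt A (w.G j z)) : w.toTw.r z j = rd A (w.G j z) := by
  rw [Tw.r, toTw_E, rd_mul h ((w.H_lead j).int.pow _), rd_pow (w.H_lead j).int]
  change _ * rd A (w.H j) ^ (m - 1) / rd A (w.H j) ^ (m - 1) = _
  rw [mul_div_assoc, div_self (pow_ne_zero _ (w.H_lead j).rd_ne_zero), mul_one]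

theorem G_add (j : Fin 2) (z z' : F) : w.G j (z + z') = w.G j z + w.G j z' := by
  rw [G, map_add, add_mul]; rfl

theorem G_smul (j : Fin 2) (c : K) (z : F) : w.G j (c • z) = c • w.G j z := by
  rw [G, map_smul, smul_mul_assoc]; rfl

/-- `z` such that `z f^{1/m}` is integral with poles only at the cusps -/
def IsM (z : F) : Prop := z ^ m * f ∈ T.Rg ∧ ∀ j, IsInt A (w.G j z)

theorem r_mem_O {z : F} (h : w.IsM z) (j : Fin 2) : rd A (w.G j z) ∈ T.O := by
  rw [← w.r_eq (h.2 j)]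
  refine w.toTw.r_mem_O h.1 (fun j => w.isInt_G_iff.1 (h.2 j)) (fun j => ?_) j
  rw [← w.G_pow]
  exact (h.2 j).pow m

/-- the pair of reductions -/
def R (z : F) (h : w.IsM z) : Fin 2 → T.O := fun j => ⟨rd A (w.G j z), w.r_mem_O h j⟩

end Good

/-- the twist vector of a good function -/
structure IsZeta {T : TwoComp K A F} (ν : NodeData T) {m : ℕ} {f : F} (w : Good T m f)
    (ζ : Fin ν.s → ResidueField A) : Prop where
  pow : ∀ i, ζ i ^ m = 1
  rel : ∀ z (h : w.IsM z) i, ν.α i (w.R z h 0) = ζ i * ν.β i (w.R z h 1)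
  surj : ∃ n₀ : ℕ, ∀ n : ℕ, n₀ ≤ n → ∀ a ∈ XO T n, (∀ i, ν.α i (a 0) = ζ i * ν.β i (a 1)) →
    ∃ z ∈ T.M w.D n, ∃ h : w.IsM z, w.R z h = a

section Disc

variable {T : TwoComp K A F} {m : ℕ} {f : F}
variable [IsAlgClosed K] [FF.FunField K F]
variable [CharZero K] [Algebra.IsAlgebraic ℤ K] {q : ℕ} (hq : q.Prime)
  (hqA : (q : K) ∈ A.nonunits)

include hq hqA

theorem exists_isZeta (ν : NodeData T) (w : Good T m f) : ∃ ζ, IsZeta ν w ζ := by
  obtain ⟨ζ, hζ, n₀, h⟩ := w.toTw.exists_zeta hq hqA ν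
  have hmem : ∀ (z : F) (hz : w.IsM z) (n : ℤ), z ∈ T.M w.D n → w.R z hz ∈ w.toTw.N n := by
    intro z hz n hzn
    exact w.toTw.mem_N.2 ⟨z, hzn, fun j => w.isInt_G_iff.1 (hz.2 j), fun j =>
      (w.r_eq (hz.2 j)).symm⟩
  refine ⟨ζ, hζ, fun z hz i => ?_, n₀, fun n hn a ha hrel => ?_⟩
  · obtain ⟨n, hn, hzn⟩ : ∃ n : ℕ, n₀ ≤ n ∧ z ∈ T.M w.D n := by
      rcases eq_or_ne z 0 with rfl | h0
      · exact ⟨n₀, le_rfl, Submodule.zero_mem _⟩
      · refine ⟨n₀ + ((T.P 0).ord z + w.D (T.P 0)).natAbs + ((T.P 1).ord z + w.D (T.P 1)).natAbs,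
          by omega, ?_⟩
        have h1 : z ∈ T.M w.D (((T.P 0).ord z + w.D (T.P 0)).natAbs +
            ((T.P 1).ord z + w.D (T.P 1)).natAbs : ℕ) := by
          rw [TwoComp.mem_M_iff h0]
          refine ⟨fun v h0' h1' => ?_, fun j => ?_⟩
          · have h2 := TwoComp.mem_Rg_iff_ord.1 hz.1 v h0' h1'
            rw [v.ord_mul (pow_ne_zero _ h0) w.f_ne, H18.ord_pow, ← w.hD, ← mul_add] at h2
            have hm' : (0 : ℤ) < m := by exact_mod_cast Nat.pos_of_ne_zero w.m_ne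
            exact nonneg_of_mul_nonneg_right h2 hm'
          · fin_cases j
            · change _ ≤ (T.P 0).ord z + w.D (T.P 0)
              omega
            · change _ ≤ (T.P 1).ord z + w.D (T.P 1)
              omega
        exact TwoComp.M_mono (by push_cast; omega) h1
    have h1 := hmem z hz n hzn
    exact (h n hn _ (w.toTw.N_le_XO hq hqA n h1)).1 h1 i
  · obtain ⟨z, hz, hi, hz2⟩ := w.toTw.mem_N.1 ((h n hn a ha).2 hrel)
    have hM : w.IsM z := ⟨(w.toTw.mem_of_mem_M hz).1, fun j => w.isInt_G_iff.2 (hi j)⟩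
    refine ⟨z, hz, hM, ?_⟩
    funext j
    apply Subtype.ext
    rw [hz2, w.r_eq (hM.2 j)]
    rfl

omit [IsAlgClosed K] [FF.FunField K F] [CharZero K] [Algebra.IsAlgebraic ℤ K] in
omit hq hqA in
theorem exists_pair (ν : NodeData T) (ζ : Fin ν.s → ResidueField A) (i : Fin ν.s) :
    ∃ n₀ : ℕ, ∀ n : ℕ, n₀ ≤ n → ∃ a ∈ XO T n, (∀ i, ν.α i (a 0) = ζ i * ν.β i (a 1)) ∧
      ν.β i (a 1) = 1 := by
  obtain ⟨n₂, h2⟩ := exists_surj_low (T := T) ν.α ν.α_surj
  obtain ⟨n₃, h3⟩ := exists_surj_low (T := T) ν.β ν.β_surj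
  refine ⟨max n₂ n₃, fun n hn => ?_⟩
  obtain ⟨x, hx, hxc⟩ := h2 n (by omega) ζ
  obtain ⟨y, hy, hyc⟩ := h3 n (by omega) (fun _ => 1)
  refine ⟨![x, y], ?_, fun i => ?_, hyc i⟩
  · intro j
    fin_cases j
    · exact hx
    · exact hy
  · change ν.α i x = ζ i * ν.β i y
    rw [hxc, hyc, mul_one]

omit [IsAlgClosed K] [FF.FunField K F] [CharZero K] [Algebra.IsAlgebraic ℤ K] in
omit hq hqA in
/-- there is an integral `z f^{1/m}` nonvanishing at the `i`-th node -/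
theorem IsZeta.exists_ne {ν : NodeData T} {w : Good T m f} {ζ : Fin ν.s → ResidueField A}
    (h : IsZeta ν w ζ) (i : Fin ν.s) : ∃ z, ∃ hz : w.IsM z, ν.β i (w.R z hz 1) = 1 := by
  obtain ⟨n₀, h1⟩ := h.surj
  obtain ⟨n₁, h2⟩ := exists_pair ν ζ i
  obtain ⟨a, ha, ha1, ha2⟩ := h2 (max n₀ n₁) (le_max_right _ _)
  obtain ⟨z, -, hz, hR⟩ := h1 (max n₀ n₁) (le_max_left _ _) a ha ha1
  exact ⟨z, hz, by rw [hR, ha2]⟩

end Disc

end Fermat.Agent.H11Q
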