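import Fermat.Agent.H11Q.Basic

/-!
# The lattice lemma: reduction preserves dimension
-/

set_option autoImplicit false

noncomputable section

open IsLocalRing ModularCurve Module

attribute [-instance] HahnSeries.instModule HahnSeries.instSMul HahnSeries.instDistribMulAction
  HahnSeries.instSMulZeroClass

namespace Fermat.Agent.H11Q

section LinAlg

variable {k X : Type*} [Field k] [AddCommGroup X] [Module k X]

theorem eq_inf_ker_sup_span (S : Submodule k X) (μ : X →ₗ[k] k) {x₀ : X} (hx : x₀ ∈ S)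
    (hμ : μ x₀ ≠ 0) : S = (S ⊓ LinearMap.ker μ) ⊔ Submodule.span k {x₀} := by
  apply le_antisymm
  · intro x hxS
    have h1 : x = (x - (μ x * (μ x₀)⁻¹) • x₀) + (μ x * (μ x₀)⁻¹) • x₀ := by abel
    rw [h1]
    refine Submodule.add_mem_sup ⟨S.sub_mem hxS (S.smul_mem _ hx), ?_⟩
      (Submodule.smul_mem _ _ (Submodule.mem_span_singleton_self _))
    rw [SetLike.mem_coe, LinearMap.mem_ker, map_sub, map_smul, smul_eq_mul, mul_assoc,
      inv_mul_cancel₀ hμ, mul_one, sub_self]
  · exact sup_le inf_le_left ((Submodule.span_singleton_le_iff_mem _ _).2 hx)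

theorem finrank_of_inf_ker (S : Submodule k X) (μ : X →ₗ[k] k) {x₀ : X} (hx : x₀ ∈ S)
    (hμ : μ x₀ ≠ 0) (hfd : FiniteDimensional k ↥(S ⊓ LinearMap.ker μ)) :
    FiniteDimensional k S ∧ finrank k S = finrank k ↥(S ⊓ LinearMap.ker μ) + 1 := by
  have h := eq_inf_ker_sup_span S μ hx hμ
  have hfd' : FiniteDimensional k ↥((S ⊓ LinearMap.ker μ) ⊔ Submodule.span k {x₀}) :=
    Submodule.finite_sup _ _
  have h0 : x₀ ≠ 0 := by
    rintro rfl
    exact hμ (map_zero μ)
  have hbot : (S ⊓ LinearMap.ker μ) ⊓ Submodule.span k {x₀} = ⊥ := by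
    rw [eq_bot_iff]
    rintro x ⟨⟨_, hx1⟩, hx2⟩
    obtain ⟨c, rfl⟩ := Submodule.mem_span_singleton.1 hx2
    rw [SetLike.mem_coe, LinearMap.mem_ker, map_smul, smul_eq_mul] at hx1
    rcases mul_eq_zero.1 hx1 with h | h
    · rw [h, zero_smul]; exact Submodule.zero_mem _
    · exact absurd h hμ
  have hdim := Submodule.finrank_sup_add_finrank_inf_eq (S ⊓ LinearMap.ker μ)
    (Submodule.span k {x₀})
  rw [hbot, finrank_bot, finrank_span_singleton h0, add_zero, ← h] at hdim
  refine ⟨?_, hdim⟩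
  rw [h]
  exact hfd'

end LinAlg

/-- coefficient as a linear map -/
def coeffL (K : Type*) [Field K] (n : ℤ) : LaurentSeries K →ₗ[K] K where
  toFun x := x.coeff n
  map_add' _ _ := rfl
  map_smul' c x := coeff_smul' c x n

@[simp] theorem coeffL_apply {K : Type*} [Field K] (n : ℤ) (x : LaurentSeries K) :
    coeffL K n x = x.coeff n := rfl

variable {K : Type*} [Field K] (A : ValuationSubring K)
variable {W ι : Type*} [AddCommGroup W] [Module K W]

/-- reduction of the integral points of `V` under a family of expansions `E` -/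
def redSpace (V : Submodule K W) (E : ι → W →ₗ[K] LaurentSeries K) :
    Submodule (ResidueField A) (ι → LaurentSeries (ResidueField A)) where
  carrier := {y | ∃ v ∈ V, (∀ i, IsInt A (E i v)) ∧ ∀ i, y i = rd A (E i v)}
  zero_mem' := ⟨0, V.zero_mem, fun i => by rw [map_zero]; exact IsInt.zero,
    fun i => by rw [map_zero, rd_zero]; rfl⟩
  add_mem' := by
    rintro y y' ⟨v, hv, h1, h2⟩ ⟨v', hv', h1', h2'⟩
    refine ⟨v + v', V.add_mem hv hv', fun i => ?_, fun i => ?_⟩
    · rw [map_add]; exact (h1 i).add (h1' i)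
    · rw [map_add, rd_add (h1 i) (h1' i), ← h2, ← h2']; rfl
  smul_mem' := by
    rintro c y ⟨v, hv, h1, h2⟩
    obtain ⟨a, ha, rfl⟩ := resid_surjective A c
    refine ⟨a • v, V.smul_mem _ hv, fun i => ?_, fun i => ?_⟩
    · rw [map_smul]; exact (h1 i).smul ha
    · rw [map_smul, rd_smul ha (h1 i), ← h2]; rfl

variable {A}

theorem mem_redSpace {V : Submodule K W} {E : ι → W →ₗ[K] LaurentSeries K}
    {y : ι → LaurentSeries (ResidueField A)} :
    y ∈ redSpace A V E ↔ ∃ v ∈ V, (∀ i, IsInt A (E i v)) ∧ ∀ i, y i = rd A (E i v) := Iff.rfl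

theorem redSpace_mono {V V' : Submodule K W} (h : V ≤ V') (E : ι → W →ₗ[K] LaurentSeries K) :
    redSpace A V E ≤ redSpace A V' E := by
  rintro y ⟨v, hv, h1, h2⟩
  exact ⟨v, h hv, h1, h2⟩

/-- joint attainedness of the norm -/
def JAtt (A : ValuationSubring K) (V : Submodule K W) (E : ι → W →ₗ[K] LaurentSeries K) : Prop :=
  ∀ v ∈ V, v ≠ 0 → ∃ c : K, c ≠ 0 ∧ (∀ i, IsInt A (c • E i v)) ∧ ∃ i, rd A (c • E i v) ≠ 0

theorem redSpace_finrank_aux (n : ℕ) : ∀ (V : Submodule K W) (E : ι → W →ₗ[K] LaurentSeries K),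
    FiniteDimensional K V → finrank K V = n → JAtt A V E →
    FiniteDimensional (ResidueField A) (redSpace A V E) ∧
      finrank (ResidueField A) (redSpace A V E) = n := by
  induction n with
  | zero =>
    intro V E hfd hV _
    have h0 : V = ⊥ := Submodule.finrank_eq_zero.1 hV
    have h1 : redSpace A V E = ⊥ := by
      rw [eq_bot_iff]
      rintro y ⟨v, hv, _, h2⟩
      rw [h0, Submodule.mem_bot] at hv
      rw [Submodule.mem_bot]
      funext i
      rw [h2, hv, map_zero, rd_zero]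
      rfl
    rw [h1]
    exact ⟨inferInstance, finrank_bot _ _⟩
  | succ n ih =>
    intro V E hfd hV hatt
    obtain ⟨v, hv, hv0⟩ : ∃ v ∈ V, v ≠ 0 := by
      by_contra hcon
      push Not at hcon
      have : V = ⊥ := by
        rw [eq_bot_iff]
        intro v hv
        exact hcon v hv
      rw [this, finrank_bot] at hV
      omega
    obtain ⟨c, hc, h1, i₀, h2⟩ := hatt v hv hv0
    obtain ⟨n₀, hn₀⟩ : ∃ n₀, (rd A (c • E i₀ v)).coeff n₀ ≠ 0 := by
      by_contra hcon
      push Not at hcon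
      exact h2 (HahnSeries.ext (funext hcon))
    set v₁ : W := c • v with hv₁
    have hv₁V : v₁ ∈ V := V.smul_mem _ hv
    have hE : ∀ i, E i v₁ = c • E i v := fun i => by rw [hv₁, map_smul]
    have hint : ∀ i, IsInt A (E i v₁) := fun i => by rw [hE]; exact h1 i
    rw [← hE, rd_coeff, resid_ne_zero_iff A (hint i₀ n₀)] at hn₀
    let lam : W →ₗ[K] K := (coeffL K n₀).comp (E i₀)
    have hlam : lam v₁ ≠ 0 := hn₀.2
    let V' : Submodule K W := V ⊓ LinearMap.ker lam
    have hV'fd : FiniteDimensional K V' := Submodule.finiteDimensional_inf_left _ _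
    obtain ⟨_, hfr⟩ := finrank_of_inf_ker V lam hv₁V hlam hV'fd
    have hV' : finrank K V' = n := by
      have : finrank K V = finrank K V' + 1 := hfr
      omega
    obtain ⟨ih1, ih2⟩ := ih V' E hV'fd hV' (fun w hw hw0 => hatt w hw.1 hw0)
    let μ : (ι → LaurentSeries (ResidueField A)) →ₗ[ResidueField A] (ResidueField A) :=
      (coeffL _ n₀).comp (LinearMap.proj i₀)
    have hμ : ∀ y, μ y = (y i₀).coeff n₀ := fun y => rfl
    have hker : redSpace A V E ⊓ LinearMap.ker μ = redSpace A V' E := by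
      apply le_antisymm
      · rintro y ⟨⟨w, hw, h3, h4⟩, hy⟩
        rw [SetLike.mem_coe, LinearMap.mem_ker, hμ, h4, rd_coeff] at hy
        -- subtract a multiple of `v₁`
        set a : K := (E i₀ w).coeff n₀ * ((E i₀ v₁).coeff n₀)⁻¹ with ha
        have haA : a ∈ A := A.mul_mem _ _ (h3 i₀ n₀) hn₀.1
        have hares : resid A a = 0 := by
          rw [ha, resid_mul A (h3 i₀ n₀) hn₀.1, hy, zero_mul]
        refine ⟨w - a • v₁, ⟨V.sub_mem hw (V.smul_mem _ hv₁V), ?_⟩, fun i => ?_, fun i => ?_⟩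
        · rw [SetLike.mem_coe, LinearMap.mem_ker, map_sub, map_smul, smul_eq_mul]
          change (E i₀ w).coeff n₀ - a * (E i₀ v₁).coeff n₀ = 0
          rw [ha, mul_assoc, inv_mul_cancel₀ hn₀.2, mul_one, sub_self]
        · rw [map_sub, map_smul]
          exact (h3 i).sub ((hint i).smul haA)
        · rw [map_sub, map_smul, rd_sub (h3 i) ((hint i).smul haA), rd_smul haA (hint i), hares,
            zero_smul, sub_zero, h4]
      · rintro y ⟨w, ⟨hw, hw'⟩, h3, h4⟩
        refine ⟨⟨w, hw, h3, h4⟩, ?_⟩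
        rw [SetLike.mem_coe, LinearMap.mem_ker, hμ, h4, rd_coeff]
        have : (E i₀ w).coeff n₀ = 0 := hw'
        rw [this, resid_zero]
    have hmem : (fun i => rd A (E i v₁)) ∈ redSpace A V E := ⟨v₁, hv₁V, hint, fun i => rfl⟩
    have hμ0 : μ (fun i => rd A (E i v₁)) ≠ 0 := by
      rw [hμ, rd_coeff, resid_ne_zero_iff A (hint i₀ n₀)]
      exact hn₀
    obtain ⟨h5, h6⟩ := finrank_of_inf_ker (redSpace A V E) μ hmem hμ0 (by rw [hker]; exact ih1)
    refine ⟨h5, ?_⟩
    rw [h6, hker, ih2]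

theorem redSpace_finiteDimensional {V : Submodule K W} {E : ι → W →ₗ[K] LaurentSeries K}
    [hfd : FiniteDimensional K V] (hatt : JAtt A V E) :
    FiniteDimensional (ResidueField A) (redSpace A V E) :=
  (redSpace_finrank_aux _ V E hfd rfl hatt).1

theorem finrank_redSpace {V : Submodule K W} {E : ι → W →ₗ[K] LaurentSeries K}
    [hfd : FiniteDimensional K V] (hatt : JAtt A V E) :
    finrank (ResidueField A) (redSpace A V E) = finrank K V :=
  (redSpace_finrank_aux _ V E hfd rfl hatt).2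

/-- joint attainedness from individual attainedness (finite index set) -/
theorem jatt_of_att [Finite ι] [Nonempty ι] {V : Submodule K W}
    {E : ι → W →ₗ[K] LaurentSeries K}
    (h : ∀ v ∈ V, v ≠ 0 → ∀ i, Att A (E i v)) : JAtt A V E := by
  intro v hv hv0
  choose c hc h1 h2 using h v hv hv0
  -- choose the index with `c i` of smallest valuation
  obtain ⟨i₀, hi₀⟩ := Finite.exists_min (fun i => A.valuation (c i))
  refine ⟨c i₀, hc i₀, fun i => ?_, i₀, h2 i₀⟩
  have h3 : c i₀ * (c i)⁻¹ ∈ A := by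
    rw [← A.valuation_le_one_iff, map_mul, map_inv₀]
    have h4 : A.valuation (c i) ≠ 0 := (A.valuation.ne_zero_iff).2 (hc i)
    calc A.valuation (c i₀) * (A.valuation (c i))⁻¹
        ≤ A.valuation (c i) * (A.valuation (c i))⁻¹ := mul_le_mul_left (hi₀ i) _
      _ = 1 := mul_inv_cancel₀ h4
  have h5 := (h1 i).smul h3
  rwa [smul_smul, mul_assoc, inv_mul_cancel₀ (hc i), mul_one] at h5

end Fermat.Agent.H11Q
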