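import Fermat.Agent.H11Q.Final

/-!
# The level `M` package: good reduction of the functions with poles only at the cusp `∞`
-/

set_option autoImplicit false

noncomputable section

open IsLocalRing ModularCurve Module AlgebraicCurve

attribute [-instance] HahnSeries.instModule HahnSeries.instSMul HahnSeries.instDistribMulAction
  HahnSeries.instSMulZeroClass

namespace Fermat.Agent.H11Q

variable {K : Type*} [Field K]

/-- The function `x` has poles only at the place at infinity (the place given by the order of
the expansion). -/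
def PolInf {E : IntermediateField K (LaurentSeries K)} (x : E) : Prop :=
  ∀ v : Place K E, (∃ z : E, z ≠ 0 ∧ v.ord z ≠ (z : LaurentSeries K).order) →
    x ∈ v.toValuationSubring

/-- Good reduction of the ring of functions with poles only at infinity. -/
structure LevelPack (A : ValuationSubring K) (E : IntermediateField K (LaurentSeries K))
    (Eb : IntermediateField (ResidueField A) (LaurentSeries (ResidueField A))) (q : ℕ) where
  /-- functions on the special fibre with poles only at infinity -/
  O : Subalgebra (ResidueField A) (LaurentSeries (ResidueField A))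
  O_le : ∀ a ∈ O, a ∈ Eb
  O_int : ∀ a ∈ Eb, (∃ p : Polynomial (LaurentSeries (ResidueField A)), p.Monic ∧
    (∀ i, p.coeff i ∈ O) ∧ p.eval a = 0) → a ∈ O
  O_const : ∀ a ∈ O, Low a 0 → ∃ c : ResidueField A, a = algebraMap _ _ c
  /-- the genus -/
  g' : ℕ
  g'_eq : g' = genusFF K E
  O_dim : ∃ n₀ : ℕ, ∀ n : ℕ, n₀ ≤ n → ∀ L : Submodule (ResidueField A) (LaurentSeries (ResidueField A)),
    (∀ a, a ∈ L ↔ a ∈ O ∧ Low a (-n)) →
      FiniteDimensional (ResidueField A) L ∧ finrank (ResidueField A) L + g' = n + 1
  lift : ∀ a ∈ O, ∃ x : E, PolInf x ∧ IsInt A (x : LaurentSeries K) ∧ rd A (x : LaurentSeries K) = a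
  red : ∀ x : E, PolInf x → IsInt A (x : LaurentSeries K) → rd A (x : LaurentSeries K) ∈ O
  exact : ∃ n₀ : ℕ, ∀ n : ℕ, n₀ ≤ n → ∃ x : E, PolInf x ∧
    UnitLead A (x : LaurentSeries K) (-(n : ℤ))
  O_frob : ∀ φ : ResidueField A →+* ResidueField A, (∀ c, φ c = c ^ q) →
    ∀ a, coeffMap φ a ∈ O ↔ a ∈ O

end Fermat.Agent.H11Q
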