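import Mathlib

/-!
# Linear algebra for the node conditions
-/

set_option autoImplicit false

noncomputable section

open Module

namespace Fermat.Agent.H11Q

variable {k : Type*} [Field k]

/-- a subspace of `k²` on which `a^m = b^m` is contained in a line `a = ζ b` with `ζ^m = 1` -/
theorem exists_zeta {Y : Type*} [AddCommGroup Y] [Module k Y] (N : Submodule k Y)
    (α β : Y →ₗ[k] k) {m : ℕ} (hm : m ≠ 0) (h : ∀ x ∈ N, (α x) ^ m = (β x) ^ m) :
    ∃ ζ : k, ζ ^ m = 1 ∧ ∀ x ∈ N, α x = ζ * β x := by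
  by_cases h0 : ∀ x ∈ N, β x = 0
  · refine ⟨1, one_pow m, fun x hx => ?_⟩
    have h1 := h x hx
    rw [h0 x hx, zero_pow hm] at h1
    rw [h0 x hx, mul_zero]
    exact pow_eq_zero_iff hm |>.1 h1
  · push Not at h0
    obtain ⟨y, hy, hy0⟩ := h0
    refine ⟨α y / β y, ?_, fun x hx => ?_⟩
    · rw [div_pow, h y hy, div_self (pow_ne_zero _ hy0)]
    · have hz : x - (β x / β y) • y ∈ N := N.sub_mem hx (N.smul_mem _ hy)
      have h1 := h _ hz
      rw [map_sub, map_sub, map_smul, map_smul, smul_eq_mul, smul_eq_mul, div_mul_cancel₀ _ hy0,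
        sub_self, zero_pow hm] at h1
      have h2 := pow_eq_zero_iff hm |>.1 h1
      rw [sub_eq_zero] at h2
      rw [h2]
      ring

/-- the linear algebra lemma behind the twisted node conditions -/
theorem twist_linear {Y : Type*} [AddCommGroup Y] [Module k Y] {s : ℕ} (X N : Submodule k Y)
    [FiniteDimensional k X] (hNX : N ≤ X) (α β : Fin s → Y →ₗ[k] k) {m : ℕ} (hm : m ≠ 0)
    (hsurj : ∀ c : Fin s → k, ∃ x ∈ X, ∀ i, α i x = c i ∧ β i x = 0)
    (hcodim : finrank k N + s = finrank k X)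
    (hpow : ∀ x ∈ N, ∀ i, (α i x) ^ m = (β i x) ^ m) :
    ∃ ζ : Fin s → k, (∀ i, ζ i ^ m = 1) ∧ ∀ x ∈ X, x ∈ N ↔ ∀ i, α i x = ζ i * β i x := by
  choose ζ hζ1 hζ2 using fun i => exists_zeta N (α i) (β i) hm (fun x hx => hpow x hx i)
  refine ⟨ζ, hζ1, ?_⟩
  -- the map defining the twisted conditions
  let ψ : X →ₗ[k] (Fin s → k) :=
    (LinearMap.pi fun i => α i - ζ i • β i).comp X.subtype
  have hψ : ∀ (x : X) i, ψ x i = α i x - ζ i * β i x := fun x i => rfl
  have hrange : LinearMap.range ψ = ⊤ := by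
    rw [LinearMap.range_eq_top]
    intro c
    obtain ⟨x, hx, hx2⟩ := hsurj c
    refine ⟨⟨x, hx⟩, ?_⟩
    funext i
    rw [hψ]
    change α i x - ζ i * β i x = c i
    rw [(hx2 i).1, (hx2 i).2, mul_zero, sub_zero]
  have hrk := LinearMap.finrank_range_add_finrank_ker ψ
  rw [hrange, finrank_top, finrank_pi, Fintype.card_fin] at hrk
  let N' : Submodule k X := N.comap X.subtype
  have hN' : finrank k N' = finrank k N :=
    (Submodule.comapSubtypeEquivOfLe hNX).finrank_eq
  have hle : N' ≤ LinearMap.ker ψ := by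
    intro x hx
    rw [LinearMap.mem_ker]
    funext i
    rw [hψ, hζ2 i x hx, sub_self]
    rfl
  have heq : N' = LinearMap.ker ψ := by
    apply Submodule.eq_of_le_of_finrank_eq hle
    omega
  intro x hx
  have h1 : x ∈ N ↔ (⟨x, hx⟩ : X) ∈ N' := Iff.rfl
  rw [h1, heq, LinearMap.mem_ker, funext_iff]
  refine forall_congr' fun i => ?_
  rw [hψ]
  exact sub_eq_zero

/-- the dimension of the common kernel of independent functionals -/
theorem finrank_add_of_surj {Y : Type*} [AddCommGroup Y] [Module k Y] {s : ℕ} (X N : Submodule k Y)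
    [FiniteDimensional k X] (hNX : N ≤ X) (δ : Fin s → Y →ₗ[k] k)
    (hsurj : ∀ c : Fin s → k, ∃ x ∈ X, ∀ i, δ i x = c i)
    (hN : ∀ x ∈ X, x ∈ N ↔ ∀ i, δ i x = 0) : finrank k N + s = finrank k X := by
  let ψ : X →ₗ[k] (Fin s → k) := (LinearMap.pi δ).comp X.subtype
  have hψ : ∀ (x : X) i, ψ x i = δ i x := fun x i => rfl
  have hrange : LinearMap.range ψ = ⊤ := by
    rw [LinearMap.range_eq_top]
    intro c
    obtain ⟨x, hx, hx2⟩ := hsurj c
    exact ⟨⟨x, hx⟩, funext fun i => hx2 i⟩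
  have hrk := LinearMap.finrank_range_add_finrank_ker ψ
  rw [hrange, finrank_top, finrank_pi, Fintype.card_fin] at hrk
  have hker : LinearMap.ker ψ = N.comap X.subtype := by
    ext x
    rw [LinearMap.mem_ker, Submodule.mem_comap, funext_iff]
    exact (hN x x.2).symm
  have hk : finrank k (N.comap X.subtype) = finrank k N :=
    (Submodule.comapSubtypeEquivOfLe hNX).finrank_eq
  rw [hker, hk] at hrk
  omega

end Fermat.Agent.H11Q
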