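import Fermat.Agent.H11Q.Class

/-!
# Multiplicativity and change of level for the twist vectors
-/

set_option autoImplicit false

noncomputable section

open IsLocalRing ModularCurve Module AlgebraicCurve

attribute [-instance] HahnSeries.instModule HahnSeries.instSMul HahnSeries.instDistribMulAction
  HahnSeries.instSMulZeroClass

namespace Fermat.Agent.H11Q

variable {K : Type*} [Field K] {A : ValuationSubring K} {F : Type*} [Field F] [Algebra K F]
variable {T : TwoComp K A F}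

theorem IsZeta.unique {ν : NodeData T} {m : ℕ} {f : F} {w : Good T m f}
    {ζ ζ' : Fin ν.s → ResidueField A} (h : IsZeta ν w ζ)
    (h' : ∀ z (h : w.IsM z) i, ν.α i (w.R z h 0) = ζ' i * ν.β i (w.R z h 1)) : ζ' = ζ := by
  funext i
  obtain ⟨z, hz, hb⟩ := h.exists_ne i
  have h1 := h.rel z hz i
  have h2 := h' z hz i
  rw [hb, mul_one] at h1 h2
  rw [← h1, ← h2]

theorem numF_one : NumF (1 : LaurentSeries K) := by
  have := numF_algebraMap (1 : K)
  rwa [map_one] at this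

theorem NumF.pow {x : LaurentSeries K} (hx : NumF x) (n : ℕ) : NumF (x ^ n) := by
  induction n with
  | zero => rw [pow_zero]; exact numF_one
  | succ n ih => rw [pow_succ]; exact ih.mul hx

theorem UnitLead.smul {x : LaurentSeries K} {n : ℤ} (hx : UnitLead A x n) {c : K} (hc : c ∈ A)
    (hc0 : resid A c ≠ 0) : UnitLead A (c • x) n where
  int := hx.int.smul hc
  below i hi := by rw [coeff_smul', hx.below i hi, mul_zero]
  lead := by
    rw [coeff_smul', resid_mul A hc (hx.int n)]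
    exact mul_ne_zero hc0 hx.lead

theorem resid_pow {a : K} (ha : a ∈ A) (n : ℕ) : resid A (a ^ n) = resid A a ^ n := by
  induction n with
  | zero => rw [pow_zero, pow_zero, resid_one]
  | succ n ih => rw [pow_succ, pow_succ, resid_mul A (A.toSubring.pow_mem ha n) ha, ih]

theorem mem_of_pow_mem {a : K} {n : ℕ} (hn : n ≠ 0) (h : a ^ n ∈ A) : a ∈ A := by
  rw [← A.valuation_le_one_iff] at h ⊢
  rw [map_pow] at h
  exact (pow_le_one_iff_of_nonneg zero_le hn).1 h

theorem mem_of_pow_eq_one {a : K} {n : ℕ} (hn : n ≠ 0) (h : a ^ n = 1) : a ∈ A :=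
  mem_of_pow_mem hn (by rw [h]; exact A.one_mem)

theorem resid_ne_zero_of_pow_eq_one {a : K} {n : ℕ} (hn : n ≠ 0) (h : a ^ n = 1) :
    resid A a ≠ 0 := by
  intro h0
  have h1 := resid_pow (A := A) (mem_of_pow_eq_one hn h) n
  rw [h, h0, zero_pow hn, resid_one] at h1
  exact one_ne_zero h1

namespace Good

variable {m : ℕ} {f f' : F}

/-- product of good functions -/
def mul (w : Good T m f) (w' : Good T m f') : Good T m (f * f') where
  m_ne := w.m_ne
  f_ne := mul_ne_zero w.f_ne w'.f_ne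
  f_mem := mul_mem w.f_mem w'.f_mem
  D := w.D + w'.D
  hD v := by rw [Finsupp.add_apply, mul_add, w.hD, w'.hD, v.ord_mul w.f_ne w'.f_ne]
  H j := w.H j * w'.H j
  n j := w.n j + w'.n j
  H_lead j := (w.H_lead j).mul (w'.H_lead j)
  H_num j := (w.H_num j).mul (w'.H_num j)
  H_pow j := by rw [mul_pow, w.H_pow, w'.H_pow, map_mul]
  H_mem j := by
    rw [rd_mul (w.H_lead j).int (w'.H_lead j).int]
    exact T.κ.mul_mem (w.H_mem j) (w'.H_mem j)

theorem mul_G (w : Good T m f) (w' : Good T m f') (j : Fin 2) (z z' : F) :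
    (w.mul w').G j (z * z') = w.G j z * w'.G j z' := by
  change T.e j (z * z') * (w.H j * w'.H j) = (T.e j z * w.H j) * (T.e j z' * w'.H j)
  rw [map_mul]
  ring

/-- powers of good functions -/
def pow (w : Good T m f) (l : ℕ) : Good T m (f ^ l) where
  m_ne := w.m_ne
  f_ne := pow_ne_zero _ w.f_ne
  f_mem := pow_mem w.f_mem _
  D := (l : ℤ) • w.D
  hD v := by
    rw [Finsupp.smul_apply, smul_eq_mul, H18.ord_pow, ← w.hD]
    ring
  H j := w.H j ^ l
  n j := l * w.n j
  H_lead j := (w.H_lead j).pow l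
  H_num j := (w.H_num j).pow l
  H_pow j := by rw [← pow_mul, mul_comm l m, pow_mul, w.H_pow, map_pow]
  H_mem j := by
    rw [rd_pow (w.H_lead j).int]
    exact T.κ.pow_mem (w.H_mem j) _

theorem pow_G (w : Good T m f) (l : ℕ) (j : Fin 2) (z : F) :
    (w.pow l).G j (z ^ l) = w.G j z ^ l := by
  change T.e j (z ^ l) * w.H j ^ l = (T.e j z * w.H j) ^ l
  rw [map_pow, mul_pow]

/-- the function `1` -/
def one (T : TwoComp K A F) (hm : m ≠ 0) : Good T m (1 : F) where
  m_ne := hm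
  f_ne := one_ne_zero
  f_mem := one_mem _
  D := 0
  hD v := by rw [v.ord_one, Finsupp.coe_zero, Pi.zero_apply, mul_zero]
  H _ := 1
  n _ := 0
  H_lead _ := unitLead_one
  H_num _ := numF_one
  H_pow j := by rw [one_pow, map_one]
  H_mem j := by rw [rd_one]; exact T.κ.one_mem

end Good

theorem R_coe {m : ℕ} {f : F} (w : Good T m f) {z : F} (h : w.IsM z) (j : Fin 2) :
    ((w.R z h j : T.O) : LaurentSeries (ResidueField A)) = rd A (w.G j z) := rfl

theorem IsZeta.mul {ν : NodeData T} {m : ℕ} {f f' : F} {w : Good T m f} {w' : Good T m f'}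
    {ζ ζ' ζ'' : Fin ν.s → ResidueField A} (h : IsZeta ν w ζ) (h' : IsZeta ν w' ζ')
    (h'' : IsZeta ν (w.mul w') ζ'') : ζ'' = ζ * ζ' := by
  funext i
  obtain ⟨z, hz, hb⟩ := h.exists_ne i
  obtain ⟨z', hz', hb'⟩ := h'.exists_ne i
  have hM : (w.mul w').IsM (z * z') := by
    refine ⟨?_, fun j => ?_⟩
    · rw [mul_pow, mul_mul_mul_comm]
      exact mul_mem hz.1 hz'.1
    · rw [Good.mul_G]
      exact (hz.2 j).mul (hz'.2 j)
  have hR : ∀ j, (w.mul w').R _ hM j = w.R z hz j * w'.R z' hz' j := by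
    intro j
    apply Subtype.ext
    change rd A ((w.mul w').G j (z * z')) = rd A (w.G j z) * rd A (w'.G j z')
    rw [Good.mul_G, rd_mul (hz.2 j) (hz'.2 j)]
  have h1 := h''.rel _ hM i
  rw [hR, hR, map_mul, map_mul, h.rel z hz i, h'.rel z' hz' i, hb, hb', mul_one, mul_one, mul_one,
    mul_one] at h1
  rw [Pi.mul_apply, h1]

theorem IsZeta.pow' {ν : NodeData T} {m : ℕ} {f : F} {w : Good T m f} {l : ℕ}
    {ζ ζ' : Fin ν.s → ResidueField A} (h : IsZeta ν w ζ)
    (h' : IsZeta ν (w.pow l) ζ') : ζ' = ζ ^ l := by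
  funext i
  obtain ⟨z, hz, hb⟩ := h.exists_ne i
  have hM : (w.pow l).IsM (z ^ l) := by
    refine ⟨?_, fun j => ?_⟩
    · rw [← pow_mul, mul_comm l m, pow_mul, ← mul_pow]
      exact pow_mem hz.1 _
    · rw [Good.pow_G]
      exact (hz.2 j).pow _
  have hR : ∀ j, (w.pow l).R _ hM j = (w.R z hz j) ^ l := by
    intro j
    apply Subtype.ext
    change rd A ((w.pow l).G j (z ^ l)) = (rd A (w.G j z)) ^ l
    rw [Good.pow_G, rd_pow (hz.2 j)]
  have h1 := h'.rel _ hM i
  rw [hR, hR, map_pow, map_pow, h.rel z hz i, hb, mul_one, one_pow, mul_one] at h1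
  rw [Pi.pow_apply, h1]

/-- change of the roots `H_j` by roots of unity -/
def Good.twist {m : ℕ} {f : F} (w : Good T m f) (θ : Fin 2 → K) (hθ : ∀ j, θ j ^ m = 1) :
    Good T m f where
  m_ne := w.m_ne
  f_ne := w.f_ne
  f_mem := w.f_mem
  D := w.D
  hD := w.hD
  H j := θ j • w.H j
  n := w.n
  H_lead j := (w.H_lead j).smul (mem_of_pow_eq_one w.m_ne (hθ j))
    (resid_ne_zero_of_pow_eq_one w.m_ne (hθ j))
  H_num j := (w.H_num j).smul _
  H_pow j := by rw [smul_pow, hθ, one_smul, w.H_pow]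
  H_mem j := by
    rw [rd_smul (mem_of_pow_eq_one w.m_ne (hθ j)) (w.H_lead j).int, Algebra.smul_def]
    exact T.κ.mul_mem (T.O_le _ (T.O.algebraMap_mem _)) (w.H_mem j)

theorem IsZeta.twist {ν : NodeData T} {m : ℕ} {f : F} {w : Good T m f} {θ : Fin 2 → K}
    {hθ : ∀ j, θ j ^ m = 1} {ζ ζ' : Fin ν.s → ResidueField A} (h : IsZeta ν w ζ)
    (h' : IsZeta ν (w.twist θ hθ) ζ') (i : Fin ν.s) :
    resid A (θ 0) * ζ i = ζ' i * resid A (θ 1) := by
  obtain ⟨z, hz, hb⟩ := h.exists_ne i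
  have hA : ∀ j, θ j ∈ A := fun j => mem_of_pow_eq_one w.m_ne (hθ j)
  have hG : ∀ j, (w.twist θ hθ).G j z = θ j • w.G j z := by
    intro j
    change T.e j z * (θ j • w.H j) = θ j • (T.e j z * w.H j)
    rw [mul_smul_comm]
  have hM : (w.twist θ hθ).IsM z := by
    refine ⟨hz.1, fun j => ?_⟩
    rw [hG]
    exact (hz.2 j).smul (hA j)
  have hR : ∀ j, (w.twist θ hθ).R z hM j = resid A (θ j) • w.R z hz j := by
    intro j
    apply Subtype.ext
    change rd A ((w.twist θ hθ).G j z) = resid A (θ j) • rd A (w.G j z)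
    rw [hG, rd_smul (hA j) (hz.2 j)]
  have h1 := h'.rel z hM i
  rw [hR, hR, map_smul, map_smul, h.rel z hz i, hb, smul_eq_mul, smul_eq_mul, mul_one, mul_one]
    at h1
  exact h1

/-- lowering the level -/
def Good.lower {p m' : ℕ} (hp : p ≠ 0) {f : F} (w : Good T (p * m') f) : Good T p f where
  m_ne := hp
  f_ne := w.f_ne
  f_mem := w.f_mem
  D := (m' : ℤ) • w.D
  hD v := by
    rw [Finsupp.smul_apply, smul_eq_mul, ← w.hD]
    push_cast
    ring
  H j := w.H j ^ m'
  n j := m' * w.n j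
  H_lead j := (w.H_lead j).pow m'
  H_num j := (w.H_num j).pow m'
  H_pow j := by rw [← pow_mul, mul_comm m' p, w.H_pow]
  H_mem j := by
    rw [rd_pow (w.H_lead j).int]
    exact T.κ.pow_mem (w.H_mem j) _

theorem IsZeta.lower {ν : NodeData T} {p m' : ℕ} {hp : p ≠ 0} {f : F}
    {w : Good T (p * m') f} {ζ ζ' : Fin ν.s → ResidueField A} (h : IsZeta ν w ζ)
    (h' : IsZeta ν (w.lower hp) ζ') : ζ' = ζ ^ m' := by
  funext i
  obtain ⟨z, hz, hb⟩ := h.exists_ne i
  have hG : ∀ j, (w.lower hp).G j (z ^ m') = w.G j z ^ m' := by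
    intro j
    change T.e j (z ^ m') * w.H j ^ m' = (T.e j z * w.H j) ^ m'
    rw [map_pow, mul_pow]
  have hM : (w.lower hp).IsM (z ^ m') := by
    refine ⟨?_, fun j => ?_⟩
    · rw [← pow_mul, mul_comm m' p]
      exact hz.1
    · rw [hG]
      exact (hz.2 j).pow _
  have hR : ∀ j, (w.lower hp).R _ hM j = (w.R z hz j) ^ m' := by
    intro j
    apply Subtype.ext
    change rd A ((w.lower hp).G j (z ^ m')) = (rd A (w.G j z)) ^ m'
    rw [hG, rd_pow (hz.2 j)]
  have h1 := h'.rel _ hM i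
  rw [hR, hR, map_pow, map_pow, h.rel z hz i, hb, mul_one, one_pow, mul_one] at h1
  rw [Pi.pow_apply, h1]

theorem laurent_exists_const [IsAlgClosed K] {x y : LaurentSeries K} {m : ℕ} (hm : m ≠ 0)
    (h : x ^ m = y ^ m) : ∃ c : K, c ^ m = 1 ∧ x = c • y := by
  obtain ⟨c, hc, h1⟩ := exists_const_of_pow_eq (k := K) hm h
  exact ⟨c, hc, by rw [h1, Algebra.smul_def]⟩

/-- extracting a root -/
theorem Good.exists_root [IsAlgClosed K] {p m' : ℕ} (hp : p ≠ 0) (hm' : m' ≠ 0) {g : F}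
    (w : Good T (p * m') (g ^ p)) :
    ∃ (θ : Fin 2 → K) (hθ : ∀ j, θ j ^ (p * m') = 1) (w' : Good T m' g),
      w'.D = w.D ∧ ∀ j, w'.H j = θ j • w.H j := by
  have h1 : ∀ j, (T.e j g) ^ p = (w.H j ^ m') ^ p := by
    intro j
    rw [← map_pow, ← w.H_pow, ← pow_mul, mul_comm m' p]
  choose η hη hη' using fun j => laurent_exists_const hp (h1 j)
  choose θ hθ using fun j => IsAlgClosed.exists_pow_nat_eq (η j) (Nat.pos_of_ne_zero hm')
  have hθ1 : ∀ j, θ j ^ (p * m') = 1 := fun j => by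
    rw [mul_comm, pow_mul, hθ, hη]
  have hg : g ≠ 0 := by
    rintro rfl
    exact w.f_ne (zero_pow hp)
  refine ⟨θ, hθ1, {
    m_ne := hm'
    f_ne := hg
    f_mem := TwoComp.mem_Rg_of_pow hp w.f_mem
    D := w.D
    hD := fun v => by
      have h2 := w.hD v
      rw [H18.ord_pow] at h2
      push_cast at h2
      rw [mul_assoc] at h2
      exact mul_left_cancel₀ (by exact_mod_cast hp) h2
    H := fun j => θ j • w.H j
    n := w.n
    H_lead := fun j => (w.H_lead j).smul (mem_of_pow_eq_one w.m_ne (hθ1 j))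
      (resid_ne_zero_of_pow_eq_one w.m_ne (hθ1 j))
    H_num := fun j => (w.H_num j).smul _
    H_pow := fun j => by rw [smul_pow, hθ, hη']
    H_mem := fun j => by
      rw [rd_smul (mem_of_pow_eq_one w.m_ne (hθ1 j)) (w.H_lead j).int, Algebra.smul_def]
      exact T.κ.mul_mem (T.O_le _ (T.O.algebraMap_mem _)) (w.H_mem j) }, rfl, fun j => rfl⟩

theorem IsZeta.root {ν : NodeData T} {p m' : ℕ} (hp : p ≠ 0) {g : F}
    {w : Good T (p * m') (g ^ p)} {ζ ζ' : Fin ν.s → ResidueField A} (h : IsZeta ν w ζ)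
    {θ : Fin 2 → K} (hθ : ∀ j, θ j ^ (p * m') = 1) {w' : Good T m' g}
    (hH : ∀ j, w'.H j = θ j • w.H j) (h' : IsZeta ν w' ζ') (i : Fin ν.s) :
    resid A (θ 0) * ζ i = ζ' i * resid A (θ 1) := by
  obtain ⟨z, hz, hb⟩ := h.exists_ne i
  have hA : ∀ j, θ j ∈ A := fun j => mem_of_pow_eq_one w.m_ne (hθ j)
  have hG : ∀ j, w'.G j z = θ j • w.G j z := by
    intro j
    change T.e j z * w'.H j = θ j • (T.e j z * w.H j)
    rw [hH, mul_smul_comm]
  have hM : w'.IsM z := by
    refine ⟨?_, fun j => ?_⟩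
    · apply TwoComp.mem_Rg_of_pow hp
      rw [mul_pow, ← pow_mul, mul_comm m' p]
      exact hz.1
    · rw [hG]
      exact (hz.2 j).smul (hA j)
  have hR : ∀ j, w'.R z hM j = resid A (θ j) • w.R z hz j := by
    intro j
    apply Subtype.ext
    change rd A (w'.G j z) = resid A (θ j) • rd A (w.G j z)
    rw [hG, rd_smul (hA j) (hz.2 j)]
  have h1 := h'.rel z hM i
  rw [hR, hR, map_smul, map_smul, h.rel z hz i, hb, smul_eq_mul, smul_eq_mul, mul_one, mul_one]
    at h1
  exact h1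

end Fermat.Agent.H11Q
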