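import Fermat.Agent.H11Q.Good
import Fermat.Agent.H11Q.Residue
import Fermat.Agent.H11Q.ArtinPts
import Fermat.Agent.Q.Frobenius

/-!
# The node structure, from the elements of level `M'`
-/

set_option autoImplicit false

noncomputable section

open IsLocalRing ModularCurve Module AlgebraicCurve

attribute [-instance] HahnSeries.instModule HahnSeries.instSMul HahnSeries.instDistribMulAction
  HahnSeries.instSMulZeroClass

namespace Fermat.Agent.H11Q

variable {K : Type*} [Field K] {A : ValuationSubring K} {F : Type*} [Field F] [Algebra K F]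

theorem fin2_cases (j : Fin 2) : j = 0 ∨ j = 1 := by omega

/-- The elements coming from level `M'`. -/
structure Raw (T : TwoComp K A F) (q : ℕ) [NeZero q] where
  w : F →+* F
  w_e : ∀ z, T.e 0 (w z) = T.e 1 z
  w_e' : ∀ z, T.e 1 (w z) = T.e 0 z
  w_R : ∀ z ∈ T.Rg, w z ∈ T.Rg
  X : Set F
  X_R : ∀ x ∈ X, x ∈ T.Rg
  X_int : ∀ x ∈ X, ∀ j, IsInt A (T.e j x)
  X_V : ∀ x ∈ X, rd A (T.e 1 x) = qExpand (ResidueField A) q (rd A (T.e 0 x))
  O_frob : ∀ φ : ResidueField A →+* ResidueField A, (∀ c, φ c = c ^ q) →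
    ∀ a, coeffMap φ a ∈ T.O ↔ a ∈ T.O
  X_span : ∀ a ∈ T.O, a ∈ Submodule.span (ResidueField A) {b | ∃ x ∈ X, b = rd A (T.e 0 x)}
  X_exact : ∃ n₀ : ℕ, ∀ n : ℕ, n₀ ≤ n → ∃ x ∈ X, UnitLead A (T.e 0 x) (-(n : ℤ)) ∧
    UnitLead A (T.e 1 x) (-((q * n : ℕ) : ℤ))

variable {T : TwoComp K A F}

/-- integral functions with poles only at the cusps -/
def IsR (T : TwoComp K A F) (z : F) : Prop := z ∈ T.Rg ∧ ∀ j, IsInt A (T.e j z)

theorem IsR.add {z z' : F} (h : IsR T z) (h' : IsR T z') : IsR T (z + z') :=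
  ⟨add_mem h.1 h'.1, fun j => by rw [map_add]; exact (h.2 j).add (h'.2 j)⟩

theorem IsR.sub {z z' : F} (h : IsR T z) (h' : IsR T z') : IsR T (z - z') :=
  ⟨sub_mem h.1 h'.1, fun j => by rw [map_sub]; exact (h.2 j).sub (h'.2 j)⟩

theorem IsR.mul {z z' : F} (h : IsR T z) (h' : IsR T z') : IsR T (z * z') :=
  ⟨mul_mem h.1 h'.1, fun j => by rw [map_mul]; exact (h.2 j).mul (h'.2 j)⟩

theorem IsR.pow {z : F} (h : IsR T z) (n : ℕ) : IsR T (z ^ n) :=
  ⟨pow_mem h.1 _, fun j => by rw [map_pow]; exact (h.2 j).pow _⟩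

theorem IsR.smul {z : F} (h : IsR T z) {c : K} (hc : c ∈ A) : IsR T (c • z) :=
  ⟨Subalgebra.smul_mem _ h.1 _, fun j => by rw [map_smul]; exact (h.2 j).smul hc⟩

theorem IsR.one : IsR T (1 : F) :=
  ⟨one_mem _, fun j => by rw [map_one]; exact IsInt.one⟩

/-- the pair of reductions -/
def rp {z : F} (h : IsR T z) : Fin 2 → T.O := fun j => ⟨rd A (T.e j z), T.res_O z h.1 h.2 j⟩

/-- the algebra of pairs of reductions -/
def Rbar (T : TwoComp K A F) : Submodule (ResidueField A) (Fin 2 → T.O) where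
  carrier := {a | ∃ z, ∃ h : IsR T z, a = rp h}
  zero_mem' := ⟨0, ⟨zero_mem _, fun j => by rw [map_zero]; exact IsInt.zero⟩, by
    funext j
    apply Subtype.ext
    change (0 : LaurentSeries (ResidueField A)) = rd A (T.e j 0)
    rw [map_zero, rd_zero]⟩
  add_mem' := by
    rintro _ _ ⟨z, h, rfl⟩ ⟨z', h', rfl⟩
    refine ⟨z + z', h.add h', ?_⟩
    funext j
    apply Subtype.ext
    change rd A (T.e j z) + rd A (T.e j z') = rd A (T.e j (z + z'))
    rw [map_add, rd_add (h.2 j) (h'.2 j)]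
  smul_mem' := by
    rintro c _ ⟨z, h, rfl⟩
    obtain ⟨a, ha, rfl⟩ := resid_surjective A c
    refine ⟨a • z, h.smul ha, ?_⟩
    funext j
    apply Subtype.ext
    change resid A a • rd A (T.e j z) = rd A (T.e j (a • z))
    rw [map_smul, rd_smul ha (h.2 j)]

theorem mem_Rbar {a : Fin 2 → T.O} : a ∈ Rbar T ↔ ∃ z, ∃ h : IsR T z, a = rp h := Iff.rfl

theorem rp_mem {z : F} (h : IsR T z) : rp h ∈ Rbar T := ⟨z, h, rfl⟩

theorem Rbar_mul {a b : Fin 2 → T.O} (ha : a ∈ Rbar T) (hb : b ∈ Rbar T) : a * b ∈ Rbar T := by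
  obtain ⟨z, h, rfl⟩ := ha
  obtain ⟨z', h', rfl⟩ := hb
  refine ⟨z * z', h.mul h', ?_⟩
  funext j
  apply Subtype.ext
  change rd A (T.e j z) * rd A (T.e j z') = rd A (T.e j (z * z'))
  rw [map_mul, rd_mul (h.2 j) (h'.2 j)]

theorem Rbar_one : (1 : Fin 2 → T.O) ∈ Rbar T := by
  refine ⟨1, IsR.one, ?_⟩
  funext j
  apply Subtype.ext
  change (1 : LaurentSeries (ResidueField A)) = rd A (T.e j 1)
  rw [map_one, rd_one]

namespace Raw

variable {q : ℕ} [NeZero q] (ρ : Raw T q)

include ρ in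
theorem isR {x : F} (hx : x ∈ ρ.X) : IsR T x := ⟨ρ.X_R x hx, ρ.X_int x hx⟩

theorem isR_w {z : F} (h : IsR T z) : IsR T (ρ.w z) := by
  refine ⟨ρ.w_R z h.1, fun j => ?_⟩
  have hj := fin2_cases j
  rcases hj with rfl | rfl
  · rw [ρ.w_e]; exact h.2 1
  · rw [ρ.w_e']; exact h.2 0

include ρ in
/-- the swap -/
theorem Rbar_swap {a : Fin 2 → T.O} (ha : a ∈ Rbar T) : ![a 1, a 0] ∈ Rbar T := by
  obtain ⟨z, h, rfl⟩ := ha
  refine ⟨ρ.w z, ρ.isR_w h, ?_⟩
  funext j
  apply Subtype.ext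
  have hj := fin2_cases j
  rcases hj with rfl | rfl
  · change rd A (T.e 1 z) = rd A (T.e 0 (ρ.w z))
    rw [ρ.w_e]
  · change rd A (T.e 0 z) = rd A (T.e 1 (ρ.w z))
    rw [ρ.w_e']

/-- the reduction of an element of level `M'` -/
def bb (x : ρ.X) : T.O := rp (ρ.isR x.2) 0

theorem coe_bb (x : ρ.X) : ((ρ.bb x : T.O) : LaurentSeries (ResidueField A)) =
    rd A (T.e 0 (x : F)) := rfl

theorem span_bb : Submodule.span (ResidueField A) (Set.range ρ.bb) = ⊤ := by
  rw [eq_top_iff]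
  intro a _
  have h1 := ρ.X_span a a.2
  have h2 : (Submodule.span (ResidueField A) (Set.range ρ.bb)).map T.O.toSubmodule.subtype =
      Submodule.span (ResidueField A) {b | ∃ x ∈ ρ.X, b = rd A (T.e 0 x)} := by
    rw [Submodule.map_span]
    congr 1
    ext b
    constructor
    · rintro ⟨_, ⟨x, rfl⟩, rfl⟩
      exact ⟨x, x.2, rfl⟩
    · rintro ⟨x, hx, rfl⟩
      exact ⟨_, ⟨⟨x, hx⟩, rfl⟩, rfl⟩
  rw [← h2] at h1
  obtain ⟨b, hb, hba⟩ := h1
  have : b = a := Subtype.ext hba
  rwa [← this]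

theorem qExpand_smul (c : ResidueField A) (x : LaurentSeries (ResidueField A)) :
    qExpand (ResidueField A) q (c • x) = c • qExpand (ResidueField A) q x := by
  exact map_smul (qExpandAlgHomC (ResidueField A) q) c x

include ρ in
/-- the elements `(a, V a)` -/
theorem exists_V (a : T.O) : ∃ h : qExpand (ResidueField A) q
    (a : LaurentSeries (ResidueField A)) ∈ T.O, (![a, ⟨_, h⟩] : Fin 2 → T.O) ∈ Rbar T := by
  have h : a ∈ Submodule.span (ResidueField A) (Set.range ρ.bb) := by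
    rw [ρ.span_bb]; exact Submodule.mem_top
  induction h using Submodule.span_induction with
  | mem x hx =>
    obtain ⟨x, rfl⟩ := hx
    have h1 : qExpand (ResidueField A) q (ρ.bb x : LaurentSeries (ResidueField A)) =
        rp (ρ.isR x.2) 1 := (ρ.X_V x x.2).symm
    refine ⟨by rw [h1]; exact (rp (ρ.isR x.2) 1).2, ?_⟩
    convert rp_mem (ρ.isR x.2) using 1
    funext j
    rcases fin2_cases j with rfl | rfl
    · rfl
    · exact Subtype.ext h1
  | zero =>
    refine ⟨by rw [ZeroMemClass.coe_zero, map_zero]; exact T.O.zero_mem, ?_⟩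
    convert (Rbar T).zero_mem using 1
    funext j
    rcases fin2_cases j with rfl | rfl
    · rfl
    · exact Subtype.ext (map_zero (qExpand (ResidueField A) q))
  | add x y _ _ hx hy =>
    obtain ⟨hx1, hx2⟩ := hx
    obtain ⟨hy1, hy2⟩ := hy
    have hm : qExpand (ResidueField A) q ((x + y : T.O) : LaurentSeries (ResidueField A)) =
        qExpand (ResidueField A) q (x : LaurentSeries (ResidueField A)) +
          qExpand (ResidueField A) q (y : LaurentSeries (ResidueField A)) :=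
      map_add (qExpand (ResidueField A) q) _ _
    refine ⟨by rw [hm]; exact T.O.add_mem hx1 hy1, ?_⟩
    convert (Rbar T).add_mem hx2 hy2 using 1
    funext j
    rcases fin2_cases j with rfl | rfl
    · rfl
    · exact Subtype.ext hm
  | smul c x _ hx =>
    obtain ⟨hx1, hx2⟩ := hx
    have hm : qExpand (ResidueField A) q ((c • x : T.O) : LaurentSeries (ResidueField A)) =
        c • qExpand (ResidueField A) q (x : LaurentSeries (ResidueField A)) := qExpand_smul c _
    refine ⟨by rw [hm]; exact T.O.smul_mem hx1 c, ?_⟩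
    convert (Rbar T).smul_mem c hx2 using 1
    funext j
    rcases fin2_cases j with rfl | rfl
    · rfl
    · exact Subtype.ext hm

/-- the operator `V` -/
def V (a : T.O) : T.O := ⟨_, (ρ.exists_V a).choose⟩

@[simp] theorem coe_V (a : T.O) : (ρ.V a : LaurentSeries (ResidueField A)) =
    qExpand (ResidueField A) q (a : LaurentSeries (ResidueField A)) := rfl

theorem mem_Rbar_V (a : T.O) : (![a, ρ.V a] : Fin 2 → T.O) ∈ Rbar T :=
  (ρ.exists_V a).choose_spec

theorem mem_Rbar_V' (a : T.O) : (![ρ.V a, a] : Fin 2 → T.O) ∈ Rbar T :=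
  ρ.Rbar_swap (ρ.mem_Rbar_V a)

theorem V_pow (a : T.O) (n : ℕ) : ρ.V (a ^ n) = ρ.V a ^ n := by
  apply Subtype.ext
  rw [coe_V, SubmonoidClass.coe_pow, SubmonoidClass.coe_pow, map_pow, coe_V]

include ρ in
/-- the first projection of `Rbar` is surjective -/
theorem exists_fst (a : T.O) : ∃ b : T.O, (![a, b] : Fin 2 → T.O) ∈ Rbar T :=
  ⟨_, ρ.mem_Rbar_V a⟩

include ρ in
theorem exists_snd (b : T.O) : ∃ a : T.O, (![a, b] : Fin 2 → T.O) ∈ Rbar T :=
  ⟨_, ρ.mem_Rbar_V' b⟩

/-- the ideal of the nodes on the first component -/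
def I : Ideal T.O where
  carrier := {a | (![a, 0] : Fin 2 → T.O) ∈ Rbar T}
  zero_mem' := by
    change (![0, 0] : Fin 2 → T.O) ∈ Rbar T
    convert (Rbar T).zero_mem using 1
    funext j
    fin_cases j <;> rfl
  add_mem' := by
    intro a b ha hb
    change (![a + b, 0] : Fin 2 → T.O) ∈ Rbar T
    convert (Rbar T).add_mem ha hb using 1
    funext j
    have hj := fin2_cases j
    rcases hj with rfl | rfl
    · rfl
    · exact (add_zero (0 : T.O)).symm
  smul_mem' := by
    intro c a ha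
    obtain ⟨d, hd⟩ := ρ.exists_fst c
    change (![c * a, 0] : Fin 2 → T.O) ∈ Rbar T
    convert Rbar_mul hd ha using 1
    funext j
    have hj := fin2_cases j
    rcases hj with rfl | rfl
    · rfl
    · exact (mul_zero d).symm

theorem mem_I {a : T.O} : a ∈ ρ.I ↔ (![a, 0] : Fin 2 → T.O) ∈ Rbar T := Iff.rfl

section Frob

variable (hq : q.Prime) [hchar : CharP (ResidueField A) q]

include hq hchar in
/-- every `V a` is a `q`-th power -/
theorem exists_root [IsAlgClosed (ResidueField A)] (a : T.O) : ∃ b : T.O, b ^ q = ρ.V a := by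
  have hprime : Fact q.Prime := ⟨hq⟩
  -- an inverse of Frobenius
  have hbij : Function.Bijective (frobenius (ResidueField A) q) := by
    refine ⟨frobenius_inj _ q, fun c => ?_⟩
    obtain ⟨d, hd⟩ := IsAlgClosed.exists_pow_nat_eq c hq.pos
    exact ⟨d, hd⟩
  let ψ := (RingEquiv.ofBijective (frobenius (ResidueField A) q) hbij).symm
  have h1 : coeffMap (frobenius (ResidueField A) q)
      (coeffMap (ψ : ResidueField A →+* ResidueField A) (a : LaurentSeries (ResidueField A))) =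
      a := by
    ext n
    rw [coeffMap_coeff, coeffMap_coeff]
    exact (RingEquiv.ofBijective (frobenius (ResidueField A) q) hbij).apply_symm_apply _
  have h2 : coeffMap (ψ : ResidueField A →+* ResidueField A)
      (a : LaurentSeries (ResidueField A)) ∈ T.O := by
    rw [← ρ.O_frob (frobenius (ResidueField A) q) (fun c => rfl), h1]
    exact a.2
  refine ⟨⟨_, h2⟩, ?_⟩
  apply Subtype.ext
  rw [SubmonoidClass.coe_pow, coe_V]
  change (coeffMap (ψ : ResidueField A →+* ResidueField A)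
      (a : LaurentSeries (ResidueField A))) ^ q = _
  rw [Q.pow_char q, h1]

omit hchar in
theorem sub_mem_I {a b : T.O} (hb : b ^ q = ρ.V a) : a - ρ.V b ^ q ∈ ρ.I := by
  rw [mem_I]
  have hpow : ∀ n : ℕ, (![ρ.V b, b] : Fin 2 → T.O) ^ n ∈ Rbar T := by
    intro n
    induction n with
    | zero => rw [pow_zero]; exact Rbar_one
    | succ n ih => rw [pow_succ]; exact Rbar_mul ih (ρ.mem_Rbar_V' b)
  convert (Rbar T).sub_mem (ρ.mem_Rbar_V a) (hpow q) using 1
  funext j
  have hj := fin2_cases j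
  rcases hj with rfl | rfl
  · rfl
  · change (0 : T.O) = ρ.V a - b ^ q
    rw [hb, sub_self]

include hq hchar in
/-- every element is a `q ^ 2`-th power modulo `I` -/
theorem exists_pow_sub_mem_I [IsAlgClosed (ResidueField A)] (a : T.O) :
    ∃ c : T.O, a - c ^ q ^ 2 ∈ ρ.I := by
  obtain ⟨b, hb⟩ := ρ.exists_root hq a
  obtain ⟨c, hc⟩ := ρ.exists_root hq b
  refine ⟨c, ?_⟩
  rw [pow_two, pow_mul, hc]
  exact ρ.sub_mem_I hb

end Frob

end Raw

end Fermat.Agent.H11Q
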