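import Fermat.Agent.H11Q.Nodes

/-!
# The node structure: filtration, finiteness, existence of node data
-/

set_option autoImplicit false

noncomputable section

open IsLocalRing ModularCurve Module AlgebraicCurve

attribute [-instance] HahnSeries.instModule HahnSeries.instSMul HahnSeries.instDistribMulAction
  HahnSeries.instSMulZeroClass

namespace Fermat.Agent.H11Q

variable {K : Type*} [Field K] {A : ValuationSubring K} {F : Type*} [Field F] [Algebra K F]
variable {T : TwoComp K A F}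

theorem coe_rp {z : F} (h : IsR T z) (j : Fin 2) :
    ((rp h j : T.O) : LaurentSeries (ResidueField A)) = rd A (T.e j z) := rfl

theorem fin2_vec {α : Type*} (a : Fin 2 → α) : a = ![a 0, a 1] := by
  funext j
  rcases fin2_cases j with rfl | rfl <;> rfl

namespace Raw

variable {q : ℕ} [NeZero q] (ρ : Raw T q)

include ρ in
theorem exists_symbol (hq : 2 ≤ q) : ∃ n₁ : ℕ, ∀ n : ℕ, n₁ ≤ n → ∃ z, IsR T z ∧
    (∀ j, Low (T.e j z) (-n)) ∧ resid A ((T.e 0 z).coeff (-n)) ≠ 0 ∧ (T.e 1 z).coeff (-n) = 0 := by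
  obtain ⟨n₀, h⟩ := ρ.X_exact
  refine ⟨n₀ + q * (n₀ + q), fun n hn => ?_⟩
  set a := n₀ + (n - n₀) % q with ha
  set b := (n - n₀) / q with hb
  have hmod : (n - n₀) % q < q := Nat.mod_lt _ (by omega)
  have hb1 : n₀ + q ≤ b := by
    rw [hb, Nat.le_div_iff_mul_le (by omega), mul_comm]
    omega
  have hn' : n = a + q * b := by
    have := Nat.div_add_mod (n - n₀) q
    rw [ha, hb]
    omega
  obtain ⟨x, hx, hx0, hx1⟩ := h a (by omega)
  obtain ⟨y, hy, hy0, hy1⟩ := h b (by omega)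
  have hz0 : UnitLead A (T.e 0 (x * ρ.w y)) (-n) := by
    rw [map_mul, ρ.w_e]
    convert hx0.mul hy1 using 1
    rw [hn']
    push_cast
    ring
  have hz1 : UnitLead A (T.e 1 (x * ρ.w y)) (-((q * a + b : ℕ) : ℤ)) := by
    rw [map_mul, ρ.w_e']
    convert hx1.mul hy0 using 1
    push_cast
    ring
  have hlt : q * a + b < n := by
    rw [hn']
    obtain ⟨q', rfl⟩ : ∃ q', q = q' + 1 := ⟨q - 1, by omega⟩
    have h1 : a < b := by omega
    have h2 : 0 < q' := by omega
    nlinarith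
  refine ⟨x * ρ.w y, (ρ.isR hx).mul (ρ.isR_w (ρ.isR hy)), fun j => ?_, hz0.lead,
    hz1.below _ (by omega)⟩
  rcases fin2_cases j with rfl | rfl
  · exact hz0.below
  · exact fun i hi => hz1.below i (by omega)

include ρ in
/-- removal of the leading terms -/
theorem Rbar_inter_aux {n : ℕ} (hsym : ∀ N : ℕ, n ≤ N → ∃ z, IsR T z ∧
    (∀ j, Low (T.e j z) (-N)) ∧ resid A ((T.e 0 z).coeff (-N)) ≠ 0 ∧ (T.e 1 z).coeff (-N) = 0)
    (d : ℕ) : ∀ (z : F) (h : IsR T z), (∀ j, Low (T.e j z) (-((n + d : ℕ) : ℤ))) → rp h ∈ XO T n →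
    ∃ z', ∃ h' : IsR T z', (∀ j, Low (T.e j z') (-(n : ℤ))) ∧ rp h' = rp h := by
  induction d with
  | zero => exact fun z h hlow _ => ⟨z, h, hlow, rfl⟩
  | succ d ih =>
    intro z h hlow hX
    set N : ℕ := n + (d + 1) with hN
    obtain ⟨z₁, h₁, hl₁, hu₁, hv₁⟩ := hsym N (by omega)
    set z₂ := ρ.w z₁ with hz₂
    have h₂ : IsR T z₂ := ρ.isR_w h₁
    have he₂0 : T.e 0 z₂ = T.e 1 z₁ := ρ.w_e z₁
    have he₂1 : T.e 1 z₂ = T.e 0 z₁ := ρ.w_e' z₁
    set u := (T.e 0 z₁).coeff (-N) with hu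
    have huA : u ∈ A := h₁.2 0 _
    have huinv := (resid_ne_zero_iff A huA).1 hu₁
    have hc : ∀ j, resid A ((T.e j z).coeff (-N)) = 0 := by
      intro j
      rw [← rd_coeff, ← coe_rp h]
      exact hX j _ (by omega)
    set c := (T.e 0 z).coeff (-N) * u⁻¹ with hcdef
    set c' := (T.e 1 z).coeff (-N) * u⁻¹ with hcdef'
    have hcA : c ∈ A := A.mul_mem _ _ (h.2 0 _) huinv.1
    have hcA' : c' ∈ A := A.mul_mem _ _ (h.2 1 _) huinv.1
    have hcr : resid A c = 0 := by
      rw [hcdef, resid_mul A (h.2 0 _) huinv.1, hc, zero_mul]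
    have hcr' : resid A c' = 0 := by
      rw [hcdef', resid_mul A (h.2 1 _) huinv.1, hc, zero_mul]
    set z' := z - c • z₁ - c' • z₂ with hz'
    have h' : IsR T z' := (h.sub (h₁.smul hcA)).sub (h₂.smul hcA')
    have hrp : rp h' = rp h := by
      funext j
      apply Subtype.ext
      rw [coe_rp, coe_rp, hz', map_sub, map_sub, map_smul, map_smul,
        rd_sub ((h.2 j).sub ((h₁.2 j).smul hcA)) ((h₂.2 j).smul hcA'),
        rd_sub (h.2 j) ((h₁.2 j).smul hcA), rd_smul hcA (h₁.2 j), rd_smul hcA' (h₂.2 j), hcr, hcr',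
        zero_smul, zero_smul, sub_zero, sub_zero]
    have hlow2 : ∀ j, Low (T.e j z₂) (-N) := by
      intro j
      rcases fin2_cases j with rfl | rfl
      · rw [he₂0]; exact hl₁ 1
      · rw [he₂1]; exact hl₁ 0
    have hlow' : ∀ j, Low (T.e j z') (-((n + d : ℕ) : ℤ)) := by
      intro j i hi
      rcases lt_or_ge i (-(N : ℤ)) with hi2 | hi2
      · have h3 : Low (T.e j z') (-N) := by
          rw [hz', map_sub, map_sub, map_smul, map_smul]
          exact ((hlow j).sub ((hl₁ j).smul c)).sub ((hlow2 j).smul c')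
        exact h3 i hi2
      · have hi3 : i = -(N : ℤ) := by
          rw [hN] at hi2 ⊢
          push_cast at hi hi2 ⊢
          omega
        rw [hi3, hz', map_sub, map_sub, map_smul, map_smul, HahnSeries.coeff_sub,
          HahnSeries.coeff_sub, coeff_smul', coeff_smul']
        rcases fin2_cases j with rfl | rfl
        · rw [he₂0, hv₁, mul_zero, sub_zero, ← hu, hcdef, mul_assoc, inv_mul_cancel₀ huinv.2,
            mul_one, sub_self]
        · rw [he₂1, hv₁, mul_zero, sub_zero, ← hu, hcdef', mul_assoc, inv_mul_cancel₀ huinv.2,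
            mul_one, sub_self]
    obtain ⟨z'', h'', hl'', hr''⟩ := ih z' h' hlow' (by rw [hrp]; exact hX)
    exact ⟨z'', h'', hl'', by rw [hr'', hrp]⟩

end Raw

/-- the trivial twist datum -/
def tw1 (T : TwoComp K A F) : Tw T 1 (1 : F) where
  m_ne := one_ne_zero
  f_ne := one_ne_zero
  f_mem := one_mem _
  D := 0
  hD v := by rw [v.ord_one, Finsupp.coe_zero, Pi.zero_apply, mul_zero]
  t _ := 1
  t_ne _ := one_ne_zero
  int j := by
    rw [one_pow, inv_one, one_smul, map_one]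
    exact IsInt.one
  u _ := 1
  u_mem _ := T.κ.one_mem
  u_ne _ := one_ne_zero
  rd_eq j := by rw [one_pow, inv_one, one_smul, map_one, rd_one, one_pow]

theorem tw1_E (j : Fin 2) (z : F) : (tw1 T).E j z = T.e j z := by
  rw [Tw.E_apply]
  change ((1 : K) ^ (1 - 1))⁻¹ • T.e j (z * 1) = _
  rw [one_pow, inv_one, one_smul, mul_one]

theorem tw1_r (j : Fin 2) (z : F) : (tw1 T).r z j = rd A (T.e j z) := by
  rw [Tw.r, tw1_E]
  change _ / (1 : LaurentSeries (ResidueField A)) ^ (1 - 1) = _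
  rw [one_pow, div_one]

theorem mem_tw1_N {n : ℤ} {a : Fin 2 → T.O} : a ∈ (tw1 T).N n ↔
    ∃ z, ∃ h : IsR T z, (∀ j, Low (T.e j z) (-n)) ∧ rp h = a := by
  rw [Tw.mem_N]
  constructor
  · rintro ⟨z, hz, hi, ha⟩
    obtain ⟨h1, h2⟩ := (tw1 T).mem_of_mem_M hz
    rw [pow_one, mul_one] at h1
    have hR : IsR T z := ⟨h1, fun j => by rw [← tw1_E]; exact hi j⟩
    refine ⟨z, hR, fun j => ?_, ?_⟩
    · have := h2 j
      rwa [pow_one, mul_one, Nat.cast_one, one_mul] at this
    · funext j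
      apply Subtype.ext
      rw [ha, tw1_r]
      rfl
  · rintro ⟨z, h, hlow, rfl⟩
    have hi : ∀ j, IsInt A ((tw1 T).E j z) := fun j => by rw [tw1_E]; exact h.2 j
    have ha : ∀ j, ((rp h j : T.O) : LaurentSeries (ResidueField A)) = (tw1 T).r z j := fun j => by
      rw [tw1_r]; rfl
    refine ⟨z, ?_, hi, ha⟩
    rcases eq_or_ne z 0 with rfl | h0
    · exact Submodule.zero_mem _
    · rw [Tw.mem_M_iff _ h0, pow_one, mul_one]
      refine ⟨h.1, fun j => ?_⟩
      rw [Nat.cast_one, one_mul]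
      exact hlow j

namespace Raw

variable {q : ℕ} [NeZero q] (ρ : Raw T q)

include ρ in
/-- the reductions with poles of order `≤ n` come from functions with poles of order `≤ n` -/
theorem exists_inter (hq : 2 ≤ q) : ∃ n₁ : ℕ, ∀ n : ℕ, n₁ ≤ n →
    (tw1 T).N n = Rbar T ⊓ XO T n := by
  obtain ⟨n₁, h⟩ := ρ.exists_symbol hq
  refine ⟨n₁, fun n hn => ?_⟩
  ext a
  rw [mem_tw1_N, Submodule.mem_inf]
  constructor
  · rintro ⟨z, hz, hlow, rfl⟩
    exact ⟨rp_mem hz, fun j => (hlow j).rd⟩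
  · rintro ⟨⟨z, hz, rfl⟩, hX⟩
    obtain ⟨d, hd⟩ : ∃ d : ℕ, ∀ j, Low (T.e j z) (-((n + d : ℕ) : ℤ)) := by
      refine ⟨(T.e 0 z).order.natAbs + (T.e 1 z).order.natAbs, fun j i hi => ?_⟩
      apply HahnSeries.coeff_eq_zero_of_lt_order
      rcases fin2_cases j with rfl | rfl <;> omega
    exact ρ.Rbar_inter_aux (fun N hN => h N (hn.trans hN)) d z hz hd hX

include ρ in
theorem exists_sup (hq : 2 ≤ q) : ∃ n₁ : ℕ, ∀ n : ℕ, n₁ ≤ n → Rbar T ⊔ XO T n = ⊤ := by
  obtain ⟨n₁, h⟩ := ρ.exists_symbol hq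
  refine ⟨n₁, fun n hn => ?_⟩
  have key : ∀ d : ℕ, XO T ((n + d : ℕ) : ℤ) ≤ Rbar T ⊔ XO T n := by
    intro d
    induction d with
    | zero => exact le_sup_right
    | succ d ih =>
      intro a ha
      set N : ℕ := n + (d + 1) with hN
      obtain ⟨z₁, h₁, hl₁, hu₁, hv₁⟩ := h N (by omega)
      have h₂ : IsR T (ρ.w z₁) := ρ.isR_w h₁
      have he₂0 : T.e 0 (ρ.w z₁) = T.e 1 z₁ := ρ.w_e z₁
      have he₂1 : T.e 1 (ρ.w z₁) = T.e 0 z₁ := ρ.w_e' z₁
      set u := resid A ((T.e 0 z₁).coeff (-N)) with hu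
      have hrp1 : ∀ j, Low (rp h₁ j : LaurentSeries (ResidueField A)) (-N) := fun j => (hl₁ j).rd
      have hrp2 : ∀ j, Low (rp h₂ j : LaurentSeries (ResidueField A)) (-N) := by
        intro j
        rw [coe_rp]
        rcases fin2_cases j with rfl | rfl
        · rw [he₂0]; exact (hl₁ 1).rd
        · rw [he₂1]; exact (hl₁ 0).rd
      set c := (a 0 : LaurentSeries (ResidueField A)).coeff (-N) * u⁻¹ with hc
      set c' := (a 1 : LaurentSeries (ResidueField A)).coeff (-N) * u⁻¹ with hc'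
      have h3 : a - c • rp h₁ - c' • rp h₂ ∈ XO T ((n + d : ℕ) : ℤ) := by
        intro j i hi
        change ((a j : LaurentSeries (ResidueField A)) - c • (rp h₁ j : LaurentSeries _) -
          c' • (rp h₂ j : LaurentSeries _)).coeff i = 0
        rw [HahnSeries.coeff_sub, HahnSeries.coeff_sub, coeff_smul', coeff_smul']
        rcases lt_or_ge i (-(N : ℤ)) with hi2 | hi2
        · rw [ha j i (by exact hi2), hrp1 j i hi2, hrp2 j i hi2, mul_zero, mul_zero, sub_zero,
            sub_zero]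
        · have hi3 : i = -(N : ℤ) := by
            rw [hN] at hi2 ⊢
            push_cast at hi hi2 ⊢
            omega
          rw [hi3, coe_rp, coe_rp, rd_coeff, rd_coeff]
          rcases fin2_cases j with rfl | rfl
          · rw [he₂0, hv₁, resid_zero, mul_zero, sub_zero, ← hu, hc, mul_assoc,
              inv_mul_cancel₀ hu₁, mul_one, sub_self]
          · rw [he₂1, hv₁, resid_zero, mul_zero, sub_zero, ← hu, hc', mul_assoc,
              inv_mul_cancel₀ hu₁, mul_one, sub_self]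
      have h4 := ih h3
      have h5 : a = (a - c • rp h₁ - c' • rp h₂) + (c • rp h₁ + c' • rp h₂) := by abel
      rw [h5]
      refine Submodule.add_mem _ h4 (Submodule.mem_sup_left ?_)
      exact Submodule.add_mem _ (Submodule.smul_mem _ _ (rp_mem h₁))
        (Submodule.smul_mem _ _ (rp_mem h₂))
  rw [eq_top_iff]
  intro a _
  refine key ((a 0 : LaurentSeries (ResidueField A)).order.natAbs +
    (a 1 : LaurentSeries (ResidueField A)).order.natAbs) ?_
  intro j i hi
  apply HahnSeries.coeff_eq_zero_of_lt_order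
  rcases fin2_cases j with rfl | rfl <;> omega

/-- finiteness of the node scheme -/
theorem finite_quot (hq : 2 ≤ q) : Module.Finite (ResidueField A) (T.O ⧸ ρ.I) := by
  obtain ⟨n₁, h1⟩ := ρ.exists_sup hq
  obtain ⟨n₂, h2⟩ := exists_XO_dim (T := T)
  set n := max n₁ n₂ with hn
  have hsup := h1 n (le_max_left _ _)
  have hfd := (h2 n (le_max_right _ _)).1
  -- the quotient by `Rbar` is finite dimensional
  have hQ : Module.Finite (ResidueField A) ((Fin 2 → T.O) ⧸ Rbar T) := by
    let f : XO T n →ₗ[ResidueField A] ((Fin 2 → T.O) ⧸ Rbar T) :=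
      (Rbar T).mkQ.comp (XO T n).subtype
    apply Module.Finite.of_surjective f
    intro y
    obtain ⟨a, rfl⟩ := (Rbar T).mkQ_surjective y
    have ha : a ∈ Rbar T ⊔ XO T n := by rw [hsup]; exact Submodule.mem_top
    obtain ⟨b, hb, c, hc, rfl⟩ := Submodule.mem_sup.1 ha
    refine ⟨⟨c, hc⟩, ?_⟩
    change (Rbar T).mkQ c = (Rbar T).mkQ (b + c)
    rw [map_add, (Submodule.Quotient.mk_eq_zero (Rbar T)).2 hb |> fun h => (h : (Rbar T).mkQ b = 0),
      zero_add]
  let g : T.O →ₗ[ResidueField A] ((Fin 2 → T.O) ⧸ Rbar T) :=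
    (Rbar T).mkQ.comp (LinearMap.single (ResidueField A) (fun _ : Fin 2 => T.O) 0)
  have hker : LinearMap.ker g = ρ.I.restrictScalars (ResidueField A) := by
    ext a
    rw [LinearMap.mem_ker, Submodule.restrictScalars_mem, ρ.mem_I]
    have h4 : (Pi.single 0 a : Fin 2 → T.O) = ![a, 0] := by
      funext j
      rcases fin2_cases j with rfl | rfl
      · simp
      · simp
    have h5 : g a = (Rbar T).mkQ (Pi.single 0 a : Fin 2 → T.O) := rfl
    rw [h5, h4, Submodule.mkQ_apply, Submodule.Quotient.mk_eq_zero]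
  have h3 : Module.Finite (ResidueField A) (T.O ⧸ (ρ.I.restrictScalars (ResidueField A))) := by
    rw [← hker]
    have h6 : Module.Finite (ResidueField A) (LinearMap.range g) :=
      FiniteDimensional.finiteDimensional_submodule _
    exact Module.Finite.equiv g.quotKerEquivRange.symm
  exact Module.Finite.equiv (Submodule.Quotient.restrictScalarsEquiv (ResidueField A) ρ.I)

end Raw

end Fermat.Agent.H11Q
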