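import Fermat.Agent.H11Q.Nodes2

/-!
# Existence of node data
-/

set_option autoImplicit false

noncomputable section

open IsLocalRing ModularCurve Module AlgebraicCurve

attribute [-instance] HahnSeries.instModule HahnSeries.instSMul HahnSeries.instDistribMulAction
  HahnSeries.instSMulZeroClass

namespace Fermat.Agent.H11Q

variable {K : Type*} [Field K] {A : ValuationSubring K} {F : Type*} [Field F] [Algebra K F]
variable {T : TwoComp K A F}

namespace Raw

variable {q : ℕ} [NeZero q] (ρ : Raw T q)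

/-- the gluing map -/
def θfun (b : T.O) : T.O ⧸ ρ.I := Ideal.Quotient.mk ρ.I (ρ.exists_snd b).choose

theorem θfun_eq {a b : T.O} (h : (![a, b] : Fin 2 → T.O) ∈ Rbar T) :
    ρ.θfun b = Ideal.Quotient.mk ρ.I a := by
  have h1 := (ρ.exists_snd b).choose_spec
  rw [θfun, Ideal.Quotient.eq, ρ.mem_I]
  have h2 := (Rbar T).sub_mem h1 h
  have h3 : (![(ρ.exists_snd b).choose, b] : Fin 2 → T.O) - ![a, b] =
      ![(ρ.exists_snd b).choose - a, 0] := by
    funext j
    rcases fin2_cases j with rfl | rfl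
    · rfl
    · exact sub_self b
  rwa [h3] at h2

theorem vec_mul (a b c d : T.O) : (![a, b] : Fin 2 → T.O) * ![c, d] = ![a * c, b * d] := by
  funext j
  rcases fin2_cases j with rfl | rfl <;> rfl

theorem vec_add (a b c d : T.O) : (![a, b] : Fin 2 → T.O) + ![c, d] = ![a + c, b + d] := by
  funext j
  rcases fin2_cases j with rfl | rfl <;> rfl

/-- the gluing homomorphism -/
def θ : T.O →ₐ[ResidueField A] (T.O ⧸ ρ.I) where
  toFun := ρ.θfun
  map_one' := by
    rw [ρ.θfun_eq (a := 1) (b := 1), map_one]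
    rw [← show (1 : Fin 2 → T.O) = ![1, 1] by
      funext j
      rcases fin2_cases j with rfl | rfl <;> rfl]
    exact Rbar_one
  map_mul' b b' := by
    obtain ⟨a, ha⟩ := ρ.exists_snd b
    obtain ⟨a', ha'⟩ := ρ.exists_snd b'
    rw [ρ.θfun_eq ha, ρ.θfun_eq ha', ← map_mul]
    apply ρ.θfun_eq
    rw [← vec_mul]
    exact Rbar_mul ha ha'
  map_zero' := by
    rw [ρ.θfun_eq (a := 0) (b := 0), map_zero]
    rw [← show (0 : Fin 2 → T.O) = ![0, 0] by
      funext j
      rcases fin2_cases j with rfl | rfl <;> rfl]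
    exact (Rbar T).zero_mem
  map_add' b b' := by
    obtain ⟨a, ha⟩ := ρ.exists_snd b
    obtain ⟨a', ha'⟩ := ρ.exists_snd b'
    rw [ρ.θfun_eq ha, ρ.θfun_eq ha', ← RingHom.map_add]
    apply ρ.θfun_eq
    rw [← vec_add]
    exact (Rbar T).add_mem ha ha'
  commutes' c := by
    rw [ρ.θfun_eq (a := algebraMap _ _ c) (b := algebraMap _ _ c)]
    · rfl
    · have h := (Rbar T).smul_mem c Rbar_one
      convert h using 1
      funext j
      rcases fin2_cases j with rfl | rfl
      · change algebraMap _ _ c = c • (1 : T.O)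
        rw [Algebra.algebraMap_eq_smul_one]
      · change algebraMap _ _ c = c • (1 : T.O)
        rw [Algebra.algebraMap_eq_smul_one]

theorem θ_eq {a b : T.O} (h : (![a, b] : Fin 2 → T.O) ∈ Rbar T) :
    ρ.θ b = Ideal.Quotient.mk ρ.I a := ρ.θfun_eq h

theorem θ_iff {a b : T.O} : (![a, b] : Fin 2 → T.O) ∈ Rbar T ↔ ρ.θ b = Ideal.Quotient.mk ρ.I a := by
  refine ⟨ρ.θ_eq, fun h => ?_⟩
  obtain ⟨a', ha'⟩ := ρ.exists_snd b
  rw [ρ.θ_eq ha', Ideal.Quotient.eq, ρ.mem_I] at h
  have h1 := (Rbar T).sub_mem ha' h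
  have h2 : (![a', b] : Fin 2 → T.O) - ![a' - a, 0] = ![a, b] := by
    funext j
    rcases fin2_cases j with rfl | rfl
    · exact sub_sub_cancel a' a
    · exact sub_zero b
  rwa [h2] at h1

theorem θ_surjective : Function.Surjective ρ.θ := by
  intro y
  obtain ⟨a, rfl⟩ := Ideal.Quotient.mk_surjective y
  obtain ⟨b, hb⟩ := ρ.exists_fst a
  exact ⟨b, ρ.θ_eq hb⟩

/-- characteristic of the residue field -/
theorem _root_.Fermat.Agent.H11Q.charP_residue {q : ℕ} (hq : q.Prime)
    (hqA : (q : K) ∈ A.nonunits) : CharP (ResidueField A) q := by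
  rw [CharP.charP_iff_prime_eq_zero hq]
  have h1 : resid A (q : K) = 0 := (resid_eq_zero_iff A (natCast_mem A q)).2 hqA
  rw [resid_of_mem A (natCast_mem A q)] at h1
  have h2 : (⟨(q : K), natCast_mem A q⟩ : A) = (q : A) := Subtype.ext rfl
  rwa [h2, map_natCast] at h1

section Main

variable [IsAlgClosed K] [FF.FunField K F]
variable [CharZero K] [Algebra.IsAlgebraic ℤ K] (hq : q.Prime)
  (hqA : (q : K) ∈ A.nonunits)

include hq hqA

/-- existence of node data, with the Frobenius relation between the nodes, and the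
description of the ring of the special fibre -/
theorem exists_nodeData' : ∃ ν : NodeData T, (∀ i (a : T.O),
    ν.α i a = ν.β i (ρ.V a) ∧ ν.β i a = ν.α i (ρ.V a)) ∧
    ∀ a : Fin 2 → T.O, a ∈ Rbar T ↔ ∀ i, ν.α i (a 0) = ν.β i (a 1) := by
  have := isAlgClosed_residueField A
  have hchar := charP_residue (A := A) hq hqA
  have hfin := ρ.finite_quot hq.two_le
  have hred : IsReduced (T.O ⧸ ρ.I) := by
    refine isReduced_of_pow_surj (k := ResidueField A) (B := T.O ⧸ ρ.I) (N := q ^ 2) ?_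
      fun y => ?_
    · have h1 := hq.two_le
      nlinarith
    · obtain ⟨a, rfl⟩ := Ideal.Quotient.mk_surjective y
      obtain ⟨c, hc⟩ := ρ.exists_pow_sub_mem_I hq a
      refine ⟨Ideal.Quotient.mk ρ.I c, ?_⟩
      rw [← map_pow, eq_comm, Ideal.Quotient.eq]
      exact hc
  obtain ⟨s, γ, hγ1, hγ2⟩ := exists_points (k := ResidueField A) (B := T.O ⧸ ρ.I)
  set α : Fin s → (T.O →ₐ[ResidueField A] ResidueField A) := fun i =>
    (γ i).comp (Ideal.Quotient.mkₐ (ResidueField A) ρ.I) with hα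
  set β : Fin s → (T.O →ₐ[ResidueField A] ResidueField A) := fun i => (γ i).comp ρ.θ with hβ
  have hα' : ∀ i a, α i a = γ i (Ideal.Quotient.mk ρ.I a) := fun i a => rfl
  have hβ' : ∀ i b, β i b = γ i (ρ.θ b) := fun i b => rfl
  have hαs : ∀ c : Fin s → ResidueField A, ∃ a : T.O, ∀ i, α i a = c i := by
    intro c
    obtain ⟨y, hy⟩ := hγ1 c
    obtain ⟨a, rfl⟩ := Ideal.Quotient.mk_surjective y
    exact ⟨a, hy⟩
  have hβs : ∀ c : Fin s → ResidueField A, ∃ a : T.O, ∀ i, β i a = c i := by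
    intro c
    obtain ⟨y, hy⟩ := hγ1 c
    obtain ⟨a, rfl⟩ := ρ.θ_surjective y
    exact ⟨a, hy⟩
  have hiff : ∀ a : Fin 2 → T.O, a ∈ Rbar T ↔ ∀ i, α i (a 0) = β i (a 1) := by
    intro a
    conv_lhs => rw [fin2_vec a]
    rw [ρ.θ_iff]
    constructor
    · intro h i
      rw [hα', hβ', h]
    · intro h
      have h1 : ρ.θ (a 1) - Ideal.Quotient.mk ρ.I (a 0) = 0 := hγ2 _ (fun i => by
        rw [map_sub, sub_eq_zero]
        exact (h i).symm)
      exact sub_eq_zero.1 h1
  have hcount : s + 2 * T.g' = genusFF K F + 1 := by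
    obtain ⟨n₁, h1⟩ := ρ.exists_inter hq.two_le
    obtain ⟨n₂, h2⟩ := exists_XO_dim (T := T)
    obtain ⟨n₃, h3⟩ := exists_surj_low (T := T) α hαs
    set n := max (max n₁ n₂) (max n₃ (genusFF K F)) with hn
    have hN := (tw1 T).finrank_N hq hqA (n := n) (by omega)
    obtain ⟨hfd, hX⟩ := h2 n (by omega)
    rw [h1 n (by omega)] at hN
    have hδ := finrank_add_of_surj (XO T n) (Rbar T ⊓ XO T n) inf_le_right
      (fun i => (α i).toLinearMap.comp (LinearMap.proj 0) -
        (β i).toLinearMap.comp (LinearMap.proj 1)) (by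
        intro c
        obtain ⟨x, hx, hx2⟩ := h3 n (by omega) c
        refine ⟨![x, 0], fun j => ?_, fun i => ?_⟩
        · rcases fin2_cases j with rfl | rfl
          · exact hx
          · exact low_zero _
        · change α i x - β i 0 = c i
          rw [hx2, map_zero, sub_zero]) (by
        intro x hx
        rw [Submodule.mem_inf, hiff]
        constructor
        · rintro ⟨h, _⟩ i
          exact sub_eq_zero.2 (h i)
        · intro h
          exact ⟨fun i => sub_eq_zero.1 (h i), hx⟩)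
    omega
  refine ⟨{
    s := s
    α := α
    β := β
    α_surj := hαs
    β_surj := hβs
    compat := fun z hz hi i => ((hiff _).1 (rp_mem (⟨hz, hi⟩ : IsR T z))) i
    count := hcount }, fun i x => ⟨?_, ?_⟩, hiff⟩
  · exact (hiff _).1 (ρ.mem_Rbar_V x) i
  · exact ((hiff _).1 (ρ.mem_Rbar_V' x) i).symm

/-- existence of node data, with the Frobenius relation between the nodes -/
theorem exists_nodeData : ∃ ν : NodeData T, ∀ i (a : T.O),
    ν.α i a = ν.β i (ρ.V a) ∧ ν.β i a = ν.α i (ρ.V a) := by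
  obtain ⟨ν, h, -⟩ := ρ.exists_nodeData' hq hqA
  exact ⟨ν, h⟩

end Main

end Raw

end Fermat.Agent.H11Q
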