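import Fermat.Agent.H11Q.Basic

/-!
# Bounded series with coefficients in a finitely generated (number) field
-/

set_option autoImplicit false

noncomputable section

open IsLocalRing ModularCurve Module

attribute [-instance] HahnSeries.instModule HahnSeries.instSMul HahnSeries.instDistribMulAction
  HahnSeries.instSMulZeroClass

namespace Fermat.Agent.H11Q

/-! ### power series roots -/

theorem exists_ps_root {R : Type*} [CommRing R] {m : ℕ} (hm0 : m ≠ 0) (hm : IsUnit (m : R))
    (f : PowerSeries R) (hf : PowerSeries.constantCoeff f = 1) :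
    ∃ g : PowerSeries R, PowerSeries.constantCoeff g = 1 ∧ g ^ m = f := by
  have hI : HenselianRing (PowerSeries R) (Ideal.span {(PowerSeries.X : PowerSeries R)}) :=
    inferInstance
  have h1 : (Polynomial.X ^ m - Polynomial.C f : Polynomial (PowerSeries R)).Monic :=
    Polynomial.monic_X_pow_sub_C f hm0
  obtain ⟨g, hg1, hg2⟩ := hI.is_henselian _ h1 1 (by
    rw [Polynomial.eval_sub, Polynomial.eval_pow, Polynomial.eval_X, Polynomial.eval_C, one_pow,
      Ideal.mem_span_singleton, PowerSeries.X_dvd_iff, map_sub, hf, map_one, sub_self]) (by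
    rw [Polynomial.derivative_sub, Polynomial.derivative_X_pow, Polynomial.derivative_C, sub_zero,
      Polynomial.eval_mul, Polynomial.eval_pow, Polynomial.eval_X, one_pow, mul_one,
      Polynomial.eval_C]
    have h2 := (hm.map (PowerSeries.C (R := R))).map
      (Ideal.Quotient.mk (Ideal.span {(PowerSeries.X : PowerSeries R)}))
    rwa [map_natCast] at h2)
  refine ⟨g, ?_, ?_⟩
  · rw [Ideal.mem_span_singleton, PowerSeries.X_dvd_iff, map_sub, map_one, sub_eq_zero] at hg2
    exact hg2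
  · rw [Polynomial.IsRoot.def, Polynomial.eval_sub, Polynomial.eval_pow, Polynomial.eval_X,
      Polynomial.eval_C, sub_eq_zero] at hg1
    exact hg1

/-! ### coefficients in a subring -/

section CoefIn

variable {K : Type*} [CommRing K]

/-- all coefficients are in the subring `R` -/
def CoefIn (R : Subring K) (x : LaurentSeries K) : Prop := ∀ n, x.coeff n ∈ R

theorem coefIn_iff {R : Subring K} {x : LaurentSeries K} :
    CoefIn R x ↔ ∃ X : LaurentSeries R, coeffMap R.subtype X = x := by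
  constructor
  · intro h
    refine ⟨⟨fun n => ⟨x.coeff n, h n⟩, x.isPWO_support'.mono ?_⟩, ?_⟩
    · intro n hn hx
      exact hn (Subtype.ext hx)
    · ext n
      rfl
  · rintro ⟨X, rfl⟩ n
    exact (X.coeff n).2

theorem CoefIn.add {R : Subring K} {x y : LaurentSeries K} (hx : CoefIn R x) (hy : CoefIn R y) :
    CoefIn R (x + y) := by
  obtain ⟨X, rfl⟩ := coefIn_iff.1 hx
  obtain ⟨Y, rfl⟩ := coefIn_iff.1 hy
  exact coefIn_iff.2 ⟨X + Y, map_add _ _ _⟩

theorem CoefIn.mul {R : Subring K} {x y : LaurentSeries K} (hx : CoefIn R x) (hy : CoefIn R y) :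
    CoefIn R (x * y) := by
  obtain ⟨X, rfl⟩ := coefIn_iff.1 hx
  obtain ⟨Y, rfl⟩ := coefIn_iff.1 hy
  exact coefIn_iff.2 ⟨X * Y, map_mul _ _ _⟩

theorem CoefIn.mono {R R' : Subring K} (h : R ≤ R') {x : LaurentSeries K} (hx : CoefIn R x) :
    CoefIn R' x := fun n => h (hx n)

end CoefIn

variable {K : Type*} [Field K]

/-- coefficients in a finitely generated subfield -/
def NumF (x : LaurentSeries K) : Prop :=
  ∃ S : Finset K, CoefIn (Subfield.closure (S : Set K)).toSubring x

theorem closure_mono' {S T : Finset K} (h : S ⊆ T) :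
    (Subfield.closure (S : Set K)).toSubring ≤ (Subfield.closure (T : Set K)).toSubring := by
  intro x hx
  exact Subfield.closure_mono (Finset.coe_subset.2 h) hx

theorem NumF.common {x y : LaurentSeries K} (hx : NumF x) (hy : NumF y) :
    ∃ S : Finset K, CoefIn (Subfield.closure (S : Set K)).toSubring x ∧
      CoefIn (Subfield.closure (S : Set K)).toSubring y := by
  classical
  obtain ⟨S, hS⟩ := hx
  obtain ⟨T, hT⟩ := hy
  exact ⟨S ∪ T, hS.mono (closure_mono' Finset.subset_union_left),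
    hT.mono (closure_mono' Finset.subset_union_right)⟩

theorem NumF.add {x y : LaurentSeries K} (hx : NumF x) (hy : NumF y) : NumF (x + y) := by
  obtain ⟨S, h1, h2⟩ := hx.common hy
  exact ⟨S, h1.add h2⟩

theorem NumF.mul {x y : LaurentSeries K} (hx : NumF x) (hy : NumF y) : NumF (x * y) := by
  obtain ⟨S, h1, h2⟩ := hx.common hy
  exact ⟨S, h1.mul h2⟩

theorem numF_algebraMap (c : K) : NumF (algebraMap K (LaurentSeries K) c) := by
  refine ⟨{c}, fun n => ?_⟩
  rw [algebraMap_laurentSeries_eq_single, HahnSeries.coeff_single]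
  split_ifs
  · exact Subfield.subset_closure (by simp)
  · exact Subring.zero_mem _

theorem NumF.smul {x : LaurentSeries K} (c : K) (hx : NumF x) : NumF (c • x) := by
  rw [Algebra.smul_def]
  exact (numF_algebraMap c).mul hx

variable (A : ValuationSubring K)

/-- bounded Gauss norm -/
def Bdd (x : LaurentSeries K) : Prop := ∃ c : K, c ≠ 0 ∧ IsInt A (c • x)

variable {A}

theorem IsInt.bdd {x : LaurentSeries K} (h : IsInt A x) : Bdd A x :=
  ⟨1, one_ne_zero, by rwa [one_smul]⟩

theorem Bdd.smul {x : LaurentSeries K} (c : K) (hx : Bdd A x) : Bdd A (c • x) := by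
  obtain ⟨d, hd, h1⟩ := hx
  rcases eq_or_ne c 0 with rfl | hc
  · rw [zero_smul]
    exact IsInt.zero.bdd
  · refine ⟨d * c⁻¹, mul_ne_zero hd (inv_ne_zero hc), ?_⟩
    rwa [smul_smul, mul_assoc, inv_mul_cancel₀ hc, mul_one]

theorem exists_common_scale {c d : K} (hc : c ≠ 0) (hd : d ≠ 0) :
    ∃ e : K, e ≠ 0 ∧ e * c⁻¹ ∈ A ∧ e * d⁻¹ ∈ A := by
  rcases A.mem_or_inv_mem (c * d⁻¹) with h | h
  · exact ⟨c, hc, by rw [mul_inv_cancel₀ hc]; exact A.one_mem, h⟩
  · refine ⟨d, hd, ?_, by rw [mul_inv_cancel₀ hd]; exact A.one_mem⟩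
    rwa [mul_inv, inv_inv, mul_comm] at h

theorem Bdd.add {x y : LaurentSeries K} (hx : Bdd A x) (hy : Bdd A y) : Bdd A (x + y) := by
  obtain ⟨c, hc, h1⟩ := hx
  obtain ⟨d, hd, h2⟩ := hy
  obtain ⟨e, he, h3, h4⟩ := exists_common_scale (A := A) hc hd
  refine ⟨e, he, ?_⟩
  have h5 := (h1.smul h3).add (h2.smul h4)
  rwa [smul_smul, smul_smul, mul_assoc, inv_mul_cancel₀ hc, mul_assoc, inv_mul_cancel₀ hd,
    mul_one, ← smul_add] at h5

theorem Bdd.mul {x y : LaurentSeries K} (hx : Bdd A x) (hy : Bdd A y) : Bdd A (x * y) := by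
  obtain ⟨c, hc, h1⟩ := hx
  obtain ⟨d, hd, h2⟩ := hy
  refine ⟨c * d, mul_ne_zero hc hd, ?_⟩
  rw [mul_smul, ← mul_smul_comm d x y, ← smul_mul_assoc c]
  exact h1.mul h2

/-! ### discreteness of the valuation on finitely generated subfields -/

section Disc

variable [CharZero K] {q : ℕ} (hq : q.Prime) (hqA : (q : K) ∈ A.nonunits)

include hqA in
omit [CharZero K] in
theorem valuation_q_lt_one : A.valuation (q : K) < 1 := (ValuationSubring.mem_nonunits_iff A).1 hqA

omit [CharZero K] in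
theorem natCast_mem' (n : ℕ) : (n : K) ∈ A := natCast_mem A n

include hq hqA in
omit [CharZero K] in
theorem valuation_natCast_eq_one {n : ℕ} (hn : ¬ q ∣ n) : A.valuation (n : K) = 1 := by
  apply le_antisymm ((A.valuation_le_one_iff _).2 (natCast_mem' n))
  by_contra hlt
  rw [not_le] at hlt
  have hcop : Nat.Coprime q n := (Nat.Prime.coprime_iff_not_dvd hq).2 hn
  have hbez : IsCoprime (q : ℤ) (n : ℤ) := Nat.isCoprime_iff_coprime.2 hcop
  obtain ⟨u, w, huw⟩ := hbez
  have h1 : (u : K) * (q : K) + (w : K) * (n : K) = 1 := by exact_mod_cast congrArg (Int.cast : ℤ → K) huw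
  have hu : A.valuation (u : K) ≤ 1 := (A.valuation_le_one_iff _).2 (intCast_mem A u)
  have hw : A.valuation (w : K) ≤ 1 := (A.valuation_le_one_iff _).2 (intCast_mem A w)
  have h2 : A.valuation ((u : K) * (q : K) + (w : K) * (n : K)) < 1 := by
    apply Valuation.map_add_lt
    · rw [map_mul]
      exact mul_lt_one_of_nonneg_of_lt_one_right hu zero_le (valuation_q_lt_one hqA)
    · rw [map_mul]
      exact mul_lt_one_of_nonneg_of_lt_one_right hw zero_le hlt
  rw [h1, map_one] at h2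
  exact lt_irrefl _ h2

include hq hqA in
omit [CharZero K] in
theorem valuation_natCast {n : ℕ} (hn : n ≠ 0) :
    ∃ e : ℕ, A.valuation (n : K) = A.valuation (q : K) ^ e := by
  obtain ⟨e, m, hm, rfl⟩ := Nat.exists_eq_pow_mul_and_not_dvd hn q hq.ne_one
  refine ⟨e, ?_⟩
  rw [Nat.cast_mul, map_mul, valuation_natCast_eq_one hq hqA hm, mul_one, Nat.cast_pow, map_pow]

include hq hqA in
theorem valuation_ratCast {r : ℚ} (hr : r ≠ 0) :
    ∃ e : ℤ, A.valuation (r : K) = A.valuation (q : K) ^ e := by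
  have hq0 : A.valuation (q : K) ≠ 0 := by
    rw [Valuation.ne_zero_iff]
    exact_mod_cast hq.ne_zero
  obtain ⟨a, ha⟩ := valuation_natCast hq hqA (n := r.num.natAbs)
    (Int.natAbs_ne_zero.2 (Rat.num_ne_zero.2 hr))
  obtain ⟨b, hb⟩ := valuation_natCast hq hqA r.den_nz
  refine ⟨a - b, ?_⟩
  have h1 : A.valuation ((r.num : ℤ) : K) = A.valuation ((r.num.natAbs : ℕ) : K) := by
    rcases Int.natAbs_eq r.num with h | h
    · conv_lhs => rw [h]
      rw [Int.cast_natCast]
    · conv_lhs => rw [h]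
      rw [Int.cast_neg, Int.cast_natCast, Valuation.map_neg]
  rw [Rat.cast_def, map_div₀, h1, ha, hb, zpow_sub₀ hq0, zpow_natCast, zpow_natCast]

include hq hqA in
/-- on algebraic elements of bounded degree the valuation has bounded denominators -/
theorem valuation_pow_of_poly {a : K} (ha : a ≠ 0) (P : Polynomial ℚ) (hP : P ≠ 0)
    (h : P.aeval a = 0) :
    ∃ d : ℕ, 0 < d ∧ d ≤ P.natDegree ∧ ∃ e : ℤ, A.valuation a ^ d = A.valuation (q : K) ^ e := by
  classical
  set v := A.valuation with hv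
  have hva : v a ≠ 0 := (Valuation.ne_zero_iff _).2 ha
  let t : ℕ → K := fun i => ((P.coeff i : ℚ) : K) * a ^ i
  have hsum : ∑ i ∈ P.support, t i = 0 := by
    rw [Polynomial.aeval_def, Polynomial.eval₂_eq_sum, Polynomial.sum] at h
    rw [← h]
    refine Finset.sum_congr rfl fun i _ => ?_
    rw [eq_ratCast]
  have hne : P.support.Nonempty := Polynomial.nonempty_support_iff.2 hP
  obtain ⟨i₀, hi₀, hmax⟩ := Finset.exists_max_image P.support (fun i => v (t i)) hne
  have ht0 : ∀ i ∈ P.support, v (t i) ≠ 0 := by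
    intro i hi
    rw [Valuation.ne_zero_iff]
    refine mul_ne_zero ?_ (pow_ne_zero _ ha)
    exact_mod_cast Polynomial.mem_support_iff.1 hi
  obtain ⟨i₁, hi₁, hne', heq⟩ : ∃ i₁ ∈ P.support, i₁ ≠ i₀ ∧ v (t i₁) = v (t i₀) := by
    by_contra hcon
    push Not at hcon
    have h1 : v (∑ i ∈ P.support.erase i₀, t i) < v (t i₀) := by
      apply Valuation.map_sum_lt
      · exact ht0 i₀ hi₀
      · intro i hi
        exact lt_of_le_of_ne (hmax i (Finset.mem_of_mem_erase hi))
          (hcon i (Finset.mem_of_mem_erase hi) (Finset.ne_of_mem_erase hi))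
    rw [← Finset.add_sum_erase _ _ hi₀] at hsum
    have h2 : t i₀ = -∑ i ∈ P.support.erase i₀, t i := eq_neg_of_add_eq_zero_left hsum
    rw [← Valuation.map_neg, ← h2] at h1
    exact lt_irrefl _ h1
  have hdeg : ∀ i ∈ P.support, i ≤ P.natDegree := fun i hi => Polynomial.le_natDegree_of_mem_supp _ hi
  have hcoef : ∀ i ∈ P.support, ∃ e : ℤ, v ((P.coeff i : ℚ) : K) = v (q : K) ^ e := fun i hi =>
    valuation_ratCast hq hqA (Polynomial.mem_support_iff.1 hi)
  have hq0 : v (q : K) ≠ 0 := by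
    rw [Valuation.ne_zero_iff]
    exact_mod_cast hq.ne_zero
  -- symmetric statement
  have key : ∀ i j : ℕ, i ∈ P.support → j ∈ P.support → i < j → v (t i) = v (t j) →
      ∃ e : ℤ, v a ^ (j - i) = v (q : K) ^ e := by
    intro i j hi hj hij he
    obtain ⟨e₁, he₁⟩ := hcoef i hi
    obtain ⟨e₂, he₂⟩ := hcoef j hj
    refine ⟨e₁ - e₂, ?_⟩
    rw [map_mul, map_mul, map_pow, map_pow, he₁, he₂] at he
    obtain ⟨l, rfl⟩ := Nat.exists_eq_add_of_lt hij
    have h3 : i + l + 1 - i = l + 1 := by omega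
    rw [h3, zpow_sub₀ hq0]
    rw [add_assoc, pow_add] at he
    rw [eq_div_iff (zpow_ne_zero _ hq0)]
    have h4 : v a ^ i ≠ 0 := pow_ne_zero _ hva
    have h5 : (v a ^ (l + 1) * v (q : K) ^ e₂) * v a ^ i = v (q : K) ^ e₁ * v a ^ i := by
      rw [he, mul_comm (v a ^ i) (v a ^ (l + 1)), mul_comm (v a ^ (l + 1)), mul_assoc]
    exact mul_right_cancel₀ h4 h5
  rcases lt_or_gt_of_ne hne' with hlt | hlt
  · exact ⟨i₀ - i₁, Nat.sub_pos_of_lt hlt, (Nat.sub_le _ _).trans (hdeg i₀ hi₀),
      key i₁ i₀ hi₁ hi₀ hlt heq⟩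
  · exact ⟨i₁ - i₀, Nat.sub_pos_of_lt hlt, (Nat.sub_le _ _).trans (hdeg i₁ hi₁),
      key i₀ i₁ hi₀ hi₁ hlt heq.symm⟩

variable [Algebra.IsAlgebraic ℤ K]

theorem isAlgebraic_rat (a : K) : IsAlgebraic ℚ a := by
  obtain ⟨P, hP, h⟩ := Algebra.IsAlgebraic.isAlgebraic (R := ℤ) a
  refine ⟨P.map (Int.castRingHom ℚ), ?_, ?_⟩
  · rwa [Ne, Polynomial.map_eq_zero_iff (Int.cast_injective)]
  · rw [Polynomial.aeval_def, Polynomial.eval₂_map]
    rw [Polynomial.aeval_def] at h
    rw [← h]
    congr 1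
    exact RingHom.ext_int _ _

include hq hqA in
theorem valuation_disc (S : Finset K) : ∃ D : ℕ, 0 < D ∧ ∀ a ∈ Subfield.closure (S : Set K), a ≠ 0 →
    ∃ e : ℤ, A.valuation a ^ D = A.valuation (q : K) ^ e := by
  have hfd : FiniteDimensional ℚ (IntermediateField.adjoin ℚ (S : Set K)) :=
    IntermediateField.finiteDimensional_adjoin fun x _ => (isAlgebraic_rat x).isIntegral
  set L := IntermediateField.adjoin ℚ (S : Set K) with hL
  have hle : Subfield.closure (S : Set K) ≤ L.toSubfield := by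
    rw [Subfield.closure_le]
    exact IntermediateField.subset_adjoin ℚ (S : Set K)
  refine ⟨(finrank ℚ L).factorial, Nat.factorial_pos _, fun a ha ha0 => ?_⟩
  have haL : a ∈ L := hle ha
  let a' : L := ⟨a, haL⟩
  have hint : IsIntegral ℚ a' := IsIntegral.of_finite ℚ a'
  have hdeg : (minpoly ℚ a').natDegree ≤ finrank ℚ L := minpoly.natDegree_le a'
  obtain ⟨d, hd0, hd, e, he⟩ := valuation_pow_of_poly hq hqA ha0 (minpoly ℚ a')
    (minpoly.ne_zero hint) (by
      have h1 : Polynomial.aeval ((L.val : L →ₐ[ℚ] K) a') (minpoly ℚ a') = 0 := by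
        rw [Polynomial.aeval_algHom_apply, minpoly.aeval, map_zero]
      exact h1)
  obtain ⟨c, hc⟩ := Nat.dvd_factorial hd0 (hd.trans hdeg)
  refine ⟨e * c, ?_⟩
  rw [hc, pow_mul, he, ← zpow_natCast, ← zpow_mul]

end Disc

end Fermat.Agent.H11Q
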