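import Fermat.Agent.H11Q.TwoComp

/-!
# The twisted node conditions of an `m`-torsion class with trivial reduction
-/

set_option autoImplicit false

noncomputable section

open IsLocalRing ModularCurve Module AlgebraicCurve

attribute [-instance] HahnSeries.instModule HahnSeries.instSMul HahnSeries.instDistribMulAction
  HahnSeries.instSMulZeroClass

namespace Fermat.Agent.H11Q

section Extra

variable {K : Type*} [Field K] {A : ValuationSubring K}

/-- cancellation: integral product with a factor of nonzero reduction -/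
theorem Att.isInt_of_mul {x y : LaurentSeries K} (hx : Att A x) (hy : IsInt A y)
    (hy0 : rd A y ≠ 0) (h : IsInt A (x * y)) : IsInt A x := by
  obtain ⟨c, hc, h1, h2⟩ := hx
  have h3 : c⁻¹ ∈ A := by
    apply mem_of_isInt_smul (h1.mul hy)
    · rw [rd_mul h1 hy]
      exact mul_ne_zero h2 hy0
    · rw [smul_mul_assoc, smul_smul, inv_mul_cancel₀ hc, one_smul]
      exact h
  have h4 := h1.smul h3
  rwa [smul_smul, inv_mul_cancel₀ hc, one_smul] at h4

end Extra

variable {K : Type*} [Field K] {A : ValuationSubring K} {F : Type*} [Field F] [Algebra K F]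

/-- node data: two systems of points on the components -/
structure NodeData (T : TwoComp K A F) where
  s : ℕ
  α : Fin s → (T.O →ₐ[ResidueField A] ResidueField A)
  β : Fin s → (T.O →ₐ[ResidueField A] ResidueField A)
  α_surj : ∀ c : Fin s → ResidueField A, ∃ a : T.O, ∀ i, α i a = c i
  β_surj : ∀ c : Fin s → ResidueField A, ∃ a : T.O, ∀ i, β i a = c i
  compat : ∀ (z : F) (hz : z ∈ T.Rg) (hi : ∀ j, IsInt A (T.e j z)) (i : Fin s),
    α i ⟨rd A (T.e 0 z), T.res_O z hz hi 0⟩ = β i ⟨rd A (T.e 1 z), T.res_O z hz hi 1⟩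
  count : s + 2 * T.g' = genusFF K F + 1

/-- a function `f` whose reductions (after scaling) are `m`-th powers -/
structure Tw (T : TwoComp K A F) (m : ℕ) (f : F) where
  m_ne : m ≠ 0
  f_ne : f ≠ 0
  f_mem : f ∈ T.Rg
  D : Divisor K F
  hD : ∀ v, (m : ℤ) * D v = v.ord f
  t : Fin 2 → K
  t_ne : ∀ j, t j ≠ 0
  int : ∀ j, IsInt A ((t j ^ m)⁻¹ • T.e j f)
  u : Fin 2 → LaurentSeries (ResidueField A)
  u_mem : ∀ j, u j ∈ T.κ
  u_ne : ∀ j, u j ≠ 0
  rd_eq : ∀ j, rd A ((t j ^ m)⁻¹ • T.e j f) = u j ^ m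

namespace Tw

variable {T : TwoComp K A F} {m : ℕ} {f : F} (w : Tw T m f)

/-- the normalised expansion of `z f^{1/m}`, times `(f^{1/m})^{m-1}` -/
def E (j : Fin 2) : F →ₗ[K] LaurentSeries K :=
  ((w.t j ^ (m - 1))⁻¹) • ((T.e j).toLinearMap.comp (LinearMap.mulRight K f))

theorem E_apply (j : Fin 2) (z : F) : w.E j z = (w.t j ^ (m - 1))⁻¹ • T.e j (z * f) := rfl

theorem E_pow (j : Fin 2) (z : F) :
    (w.E j z) ^ m = T.e j (z ^ m * f) * ((w.t j ^ m)⁻¹ • T.e j f) ^ (m - 1) := by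
  obtain ⟨n, hn⟩ : ∃ n, m = n + 1 := Nat.exists_eq_succ_of_ne_zero w.m_ne
  rw [E_apply, Algebra.smul_def, Algebra.smul_def, mul_pow, mul_pow, map_mul, map_mul, mul_pow,
    map_pow]
  have h1 : ((algebraMap K (LaurentSeries K)) (w.t j ^ (m - 1))⁻¹) ^ m =
      ((algebraMap K (LaurentSeries K)) (w.t j ^ m)⁻¹) ^ (m - 1) := by
    rw [← map_pow, ← map_pow, inv_pow, inv_pow, ← pow_mul, ← pow_mul, mul_comm]
  rw [h1]
  have h2 : (T.e j f) ^ m = T.e j f * T.e j f ^ (m - 1) := by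
    rw [← pow_succ', hn]
    rfl
  rw [h2]
  ring

include w in
theorem mul_mem_Rg {z : F} (hz : z ^ m * f ∈ T.Rg) : z * f ∈ T.Rg := by
  apply TwoComp.mem_Rg_of_pow w.m_ne
  have h1 : (z * f) ^ m = (z ^ m * f) * f ^ (m - 1) := by
    obtain ⟨n, hn⟩ : ∃ n, m = n + 1 := Nat.exists_eq_succ_of_ne_zero w.m_ne
    rw [mul_pow, hn, Nat.add_sub_cancel, pow_succ f n]
    ring
  rw [h1]
  exact mul_mem hz (pow_mem w.f_mem _)

theorem E_mem_κ {z : F} (hz : z ^ m * f ∈ T.Rg) {j : Fin 2} (h : IsInt A (w.E j z)) :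
    rd A (w.E j z) ∈ T.κ := by
  rw [E_apply, ← map_smul] at h ⊢
  exact T.res_κ _ (Subalgebra.smul_mem _ (w.mul_mem_Rg hz) _) j h

section Disc

variable [CharZero K] [Algebra.IsAlgebraic ℤ K] {q : ℕ} (hq : q.Prime)
  (hqA : (q : K) ∈ A.nonunits)

include hq hqA

theorem att_E {z : F} (hz : z ^ m * f ∈ T.Rg) (h0 : z ≠ 0) (j : Fin 2) : Att A (w.E j z) := by
  rw [E_apply]
  exact (TwoComp.att_e hq hqA (w.mul_mem_Rg hz) (mul_ne_zero h0 w.f_ne) j).smul
    (inv_ne_zero (pow_ne_zero _ (w.t_ne j)))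

theorem isInt_E_iff {z : F} (hz : z ^ m * f ∈ T.Rg) {j : Fin 2} :
    IsInt A (w.E j z) ↔ IsInt A (T.e j (z ^ m * f)) := by
  rcases eq_or_ne z 0 with rfl | h0
  · rw [map_zero, zero_pow w.m_ne, zero_mul, map_zero]
  have hu : rd A (((w.t j ^ m)⁻¹ • T.e j f) ^ (m - 1)) ≠ 0 := by
    rw [rd_pow (w.int j), w.rd_eq]
    exact pow_ne_zero _ (pow_ne_zero _ (w.u_ne j))
  constructor
  · intro h
    have h1 := h.pow m
    rw [E_pow] at h1
    exact (TwoComp.att_e hq hqA hz (mul_ne_zero (pow_ne_zero _ h0) w.f_ne) j).isInt_of_mul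
      ((w.int j).pow _) hu h1
  · intro h
    apply (w.att_E hq hqA hz h0 j).isInt_of_pow w.m_ne
    rw [E_pow]
    exact h.mul ((w.int j).pow _)

end Disc

/-- the reduction of `z f^{1/m}` -/
def r (z : F) (j : Fin 2) : LaurentSeries (ResidueField A) := rd A (w.E j z) / w.u j ^ (m - 1)

theorem rd_E (z : F) (j : Fin 2) : rd A (w.E j z) = w.r z j * w.u j ^ (m - 1) := by
  rw [r, div_mul_cancel₀ _ (pow_ne_zero _ (w.u_ne j))]

theorem r_pow {z : F} {j : Fin 2} (h : IsInt A (w.E j z)) (h' : IsInt A (T.e j (z ^ m * f))) :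
    (w.r z j) ^ m = rd A (T.e j (z ^ m * f)) := by
  rw [r, div_pow, ← rd_pow h, E_pow, rd_mul h' ((w.int j).pow _), rd_pow (w.int j), w.rd_eq,
    ← pow_mul, ← pow_mul, mul_comm (m - 1) m, mul_div_assoc, div_self
      (pow_ne_zero _ (w.u_ne j)), mul_one]

theorem r_mem_κ {z : F} (hz : z ^ m * f ∈ T.Rg) {j : Fin 2} (h : IsInt A (w.E j z)) :
    w.r z j ∈ T.κ :=
  T.κ.div_mem (w.E_mem_κ hz h) (T.κ.pow_mem (w.u_mem j) _)

theorem r_mem_O {z : F} (hz : z ^ m * f ∈ T.Rg) (h : ∀ j, IsInt A (w.E j z))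
    (h' : ∀ j, IsInt A (T.e j (z ^ m * f))) (j : Fin 2) : w.r z j ∈ T.O := by
  apply T.O_root _ (w.r_mem_κ hz (h j)) m w.m_ne
  rw [w.r_pow (h j) (h' j)]
  exact T.res_O _ hz h' j

theorem r_low {z : F} {n : ℤ} {j : Fin 2} (h : IsInt A (w.E j z))
    (h' : IsInt A (T.e j (z ^ m * f))) (hn : Low (T.e j (z ^ m * f)) (m * n)) :
    Low (w.r z j) n := by
  apply low_of_pow w.m_ne
  rw [w.r_pow h h']
  exact hn.rd

theorem r_smul {z : F} {c : K} (hc : c ∈ A) {j : Fin 2} (h : IsInt A (w.E j z)) :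
    w.r (c • z) j = resid A c • w.r z j := by
  rw [r, map_smul, rd_smul hc h, r, smul_div_assoc]

theorem r_add {z z' : F} {j : Fin 2} (h : IsInt A (w.E j z)) (h' : IsInt A (w.E j z')) :
    w.r (z + z') j = w.r z j + w.r z' j := by
  rw [r, map_add, rd_add h h', r, r, add_div]

end Tw

/-! ### dimension of the spaces on the components -/

section Comp

variable (T : TwoComp K A F)

/-- functions on a component with a pole of order `≤ n` at the cusp -/
def LO (n : ℤ) : Submodule (ResidueField A) (LaurentSeries (ResidueField A)) where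
  carrier := {a | a ∈ T.O ∧ Low a (-n)}
  zero_mem' := ⟨T.O.zero_mem, low_zero _⟩
  add_mem' := fun ha hb => ⟨T.O.add_mem ha.1 hb.1, ha.2.add hb.2⟩
  smul_mem' := fun c _ ha => ⟨T.O.smul_mem ha.1 c, ha.2.smul c⟩

/-- pairs of functions on the components with poles of order `≤ n` -/
def XO (n : ℤ) : Submodule (ResidueField A) (Fin 2 → T.O) where
  carrier := {a | ∀ j, Low (a j : LaurentSeries (ResidueField A)) (-n)}
  zero_mem' := fun _ => low_zero _
  add_mem' := fun ha hb j => (ha j).add (hb j)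
  smul_mem' := fun c _ ha j => (ha j).smul c

variable {T}

theorem mem_XO {n : ℤ} {a : Fin 2 → T.O} :
    a ∈ XO T n ↔ ∀ j, Low (a j : LaurentSeries (ResidueField A)) (-n) := Iff.rfl

/-- product decomposition -/
def XO_equiv (n : ℤ) : XO T n ≃ₗ[ResidueField A] (Fin 2 → LO T n) where
  toFun a j := ⟨(a.1 j : LaurentSeries (ResidueField A)), (a.1 j).2, a.2 j⟩
  map_add' a b := by
    funext j
    exact Subtype.ext rfl
  map_smul' c a := by
    funext j
    exact Subtype.ext rfl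
  invFun b := ⟨fun j => ⟨(b j : LaurentSeries (ResidueField A)), (b j).2.1⟩, fun j => (b j).2.2⟩
  left_inv a := rfl
  right_inv b := rfl

theorem exists_XO_dim : ∃ n₀ : ℕ, ∀ n : ℕ, n₀ ≤ n → FiniteDimensional (ResidueField A) (XO T n) ∧
    finrank (ResidueField A) (XO T n) + 2 * T.g' = 2 * n + 2 := by
  obtain ⟨n₀, h⟩ := T.O_dim
  refine ⟨n₀, fun n hn => ?_⟩
  obtain ⟨h1, h2⟩ := h n hn (LO T n) (fun a => Iff.rfl)
  refine ⟨Module.Finite.equiv (XO_equiv (T := T) (n : ℤ)).symm, ?_⟩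
  have hfree : Module.Free (ResidueField A) (LO T (n : ℤ)) := Module.Free.of_divisionRing _ _
  have h3 : finrank (ResidueField A) (Fin 2 → LO T (n : ℤ)) =
      ∑ _i : Fin 2, finrank (ResidueField A) (LO T (n : ℤ)) := by
    have : ∀ _i : Fin 2, Module.Free (ResidueField A) (LO T (n : ℤ)) := fun _ => hfree
    have : ∀ _i : Fin 2, Module.Finite (ResidueField A) (LO T (n : ℤ)) := fun _ => h1
    exact finrank_pi_fintype (ResidueField A) (M := fun _ : Fin 2 => LO T (n : ℤ))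
  rw [(XO_equiv (T := T) (n : ℤ)).finrank_eq, h3]
  simp only [Finset.sum_const, Finset.card_univ, Fintype.card_fin, smul_eq_mul]
  omega

theorem exists_low (a : LaurentSeries (ResidueField A)) : ∃ n : ℕ, Low a (-n) := by
  refine ⟨a.order.natAbs, fun i hi => HahnSeries.coeff_eq_zero_of_lt_order ?_⟩
  omega

theorem exists_surj_low {s : ℕ} (α : Fin s → (T.O →ₐ[ResidueField A] ResidueField A))
    (hα : ∀ c : Fin s → ResidueField A, ∃ a : T.O, ∀ i, α i a = c i) :
    ∃ n₀ : ℕ, ∀ n : ℕ, n₀ ≤ n → ∀ c : Fin s → ResidueField A,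
      ∃ a : T.O, Low (a : LaurentSeries (ResidueField A)) (-n) ∧ ∀ i, α i a = c i := by
  classical
  choose a ha using fun i : Fin s => hα (Pi.single i 1)
  choose N hN using fun i : Fin s => exists_low (a i : LaurentSeries (ResidueField A))
  refine ⟨Finset.univ.sup N, fun n hn c => ⟨∑ i, c i • a i, ?_, fun j => ?_⟩⟩
  · intro i hi
    rw [AddSubmonoidClass.coe_finsetSum, HahnSeries.coeff_sum]
    refine Finset.sum_eq_zero fun l _ => ?_
    have h1 : Low (((c l • a l : T.O)) : LaurentSeries (ResidueField A)) (-n) := by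
      refine ((hN l).smul (c l)).mono ?_
      have : N l ≤ Finset.univ.sup N := Finset.le_sup (Finset.mem_univ l)
      omega
    exact h1 i hi
  · rw [map_sum]
    simp only [map_smul, ha, smul_eq_mul, Pi.single_apply, mul_ite, mul_one, mul_zero,
      Finset.sum_ite_eq, Finset.mem_univ, if_true]

end Comp

namespace Tw

variable {T : TwoComp K A F} {m : ℕ} {f : F} (w : Tw T m f)

/-- multiplication by the `(m-1)`-st powers of the roots -/
def sc : (Fin 2 → T.O) →ₗ[ResidueField A] (Fin 2 → LaurentSeries (ResidueField A)) where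
  toFun a j := (a j : LaurentSeries (ResidueField A)) * w.u j ^ (m - 1)
  map_add' a b := by
    funext j
    change ((a j : LaurentSeries (ResidueField A)) + b j) * _ = _
    rw [add_mul]
    rfl
  map_smul' c a := by
    funext j
    change (c • (a j : LaurentSeries (ResidueField A))) * _ = c • (_ * _)
    rw [smul_mul_assoc]

theorem sc_injective : Function.Injective w.sc := by
  intro a b h
  funext j
  have h1 : (a j : LaurentSeries (ResidueField A)) * w.u j ^ (m - 1) =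
      (b j : LaurentSeries (ResidueField A)) * w.u j ^ (m - 1) := congrFun h j
  exact Subtype.ext (mul_right_cancel₀ (pow_ne_zero _ (w.u_ne j)) h1)

/-- the space of reductions of `z f^{1/m}` -/
def N (n : ℤ) : Submodule (ResidueField A) (Fin 2 → T.O) :=
  (redSpace A (T.M w.D n) w.E).comap w.sc

theorem mem_N {n : ℤ} {a : Fin 2 → T.O} :
    a ∈ w.N n ↔ ∃ z ∈ T.M w.D n, (∀ j, IsInt A (w.E j z)) ∧ ∀ j, (a j : LaurentSeries _) = w.r z j := by
  rw [N, Submodule.mem_comap, mem_redSpace]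
  refine exists_congr fun z => and_congr_right fun _ => and_congr_right fun _ =>
    forall_congr' fun j => ?_
  change (a j : LaurentSeries (ResidueField A)) * w.u j ^ (m - 1) = _ ↔ _
  rw [w.rd_E]
  exact mul_left_inj' (pow_ne_zero _ (w.u_ne j))

section Disc

variable [IsAlgClosed K] [FF.FunField K F]
variable [CharZero K] [Algebra.IsAlgebraic ℤ K] {q : ℕ} (hq : q.Prime)
  (hqA : (q : K) ∈ A.nonunits)

omit [IsAlgClosed K] [FF.FunField K F] [CharZero K] [Algebra.IsAlgebraic ℤ K] in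
theorem mem_M_iff {n : ℤ} {z : F} (hz : z ≠ 0) :
    z ∈ T.M w.D n ↔ z ^ m * f ∈ T.Rg ∧ ∀ j, Low (T.e j (z ^ m * f)) (m * (-n)) :=
  TwoComp.mem_M_iff' w.m_ne w.f_ne w.hD hz

omit [IsAlgClosed K] [FF.FunField K F] [CharZero K] [Algebra.IsAlgebraic ℤ K] in
theorem mem_of_mem_M {n : ℤ} {z : F} (hz : z ∈ T.M w.D n) :
    z ^ m * f ∈ T.Rg ∧ ∀ j, Low (T.e j (z ^ m * f)) (m * (-n)) := by
  rcases eq_or_ne z 0 with rfl | h0
  · rw [zero_pow w.m_ne, zero_mul]
    exact ⟨zero_mem _, fun j => by rw [map_zero]; exact low_zero _⟩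
  · exact (w.mem_M_iff h0).1 hz

include hq hqA

omit [IsAlgClosed K] [FF.FunField K F] in
theorem isInt_all {z : F} (hz : z ^ m * f ∈ T.Rg) :
    (∀ j, IsInt A (w.E j z)) ↔ ∀ j, IsInt A (T.e j (z ^ m * f)) :=
  forall_congr' fun _ => w.isInt_E_iff hq hqA hz

omit [IsAlgClosed K] [FF.FunField K F] in
theorem jatt (n : ℤ) : JAtt A (T.M w.D n) w.E :=
  jatt_of_att fun _ hz h0 j => w.att_E hq hqA ((w.mem_of_mem_M hz).1) h0 j

theorem finrank_N {n : ℕ} (hn : genusFF K F ≤ n) :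
    finrank (ResidueField A) (w.N n) + genusFF K F = 2 * n + 1 := by
  have h1 : finrank (ResidueField A) (redSpace A (T.M w.D n) w.E) = finrank K (T.M w.D n) :=
    finrank_redSpace (w.jatt hq hqA n)
  have h2 : (w.N n).map w.sc = redSpace A (T.M w.D n) w.E := by
    rw [N, Submodule.map_comap_eq, inf_eq_right]
    rintro y ⟨z, hz, hi, hy⟩
    have hz' := w.mem_of_mem_M hz
    have hi' := (w.isInt_all hq hqA hz'.1).1 hi
    refine ⟨fun j => ⟨w.r z j, w.r_mem_O hz'.1 hi hi' j⟩, ?_⟩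
    funext j
    change w.r z j * w.u j ^ (m - 1) = y j
    rw [hy, w.rd_E]
  have h3 : finrank (ResidueField A) (w.N n) = finrank (ResidueField A) ((w.N n).map w.sc) :=
    (Submodule.equivMapOfInjective w.sc w.sc_injective (w.N n)).finrank_eq
  have h4 := TwoComp.finrank_M (T := T) w.D (n := n) (by
    rw [TwoComp.degree_eq_zero w.m_ne w.hD]
    omega)
  rw [TwoComp.degree_eq_zero w.m_ne w.hD] at h4
  rw [h3, h2, h1]
  omega

omit [IsAlgClosed K] [FF.FunField K F] in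
theorem N_le_XO (n : ℤ) : w.N n ≤ XO T n := by
  intro a ha
  obtain ⟨z, hz, hi, hz2⟩ := w.mem_N.1 ha
  have hz' := w.mem_of_mem_M hz
  have hi' := (w.isInt_all hq hqA hz'.1).1 hi
  intro j
  rw [hz2]
  exact w.r_low (hi j) (hi' j) (hz'.2 j)

omit [IsAlgClosed K] [FF.FunField K F] in
theorem N_pow (ν : NodeData T) {n : ℤ} {a : Fin 2 → T.O} (ha : a ∈ w.N n) (i : Fin ν.s) :
    (ν.α i (a 0)) ^ m = (ν.β i (a 1)) ^ m := by
  obtain ⟨z, hz, hi, hz2⟩ := w.mem_N.1 ha
  have hz' := w.mem_of_mem_M hz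
  have hi' := (w.isInt_all hq hqA hz'.1).1 hi
  have h1 := ν.compat _ hz'.1 hi' i
  have h2 : ∀ j, (a j) ^ m = ⟨rd A (T.e j (z ^ m * f)), T.res_O _ hz'.1 hi' j⟩ := by
    intro j
    apply Subtype.ext
    change (a j : LaurentSeries (ResidueField A)) ^ m = _
    rw [hz2, w.r_pow (hi j) (hi' j)]
  rw [← map_pow, ← map_pow, h2, h2]
  exact h1

/-- Step 1: the reductions of `z f^{1/m}` are described by twisted node conditions. -/
theorem exists_zeta (ν : NodeData T) : ∃ ζ : Fin ν.s → ResidueField A, (∀ i, ζ i ^ m = 1) ∧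
    ∃ n₀ : ℕ, ∀ n : ℕ, n₀ ≤ n → ∀ a ∈ XO T n, a ∈ w.N n ↔ ∀ i, ν.α i (a 0) = ζ i * ν.β i (a 1) := by
  obtain ⟨n₁, h1⟩ := exists_XO_dim (T := T)
  obtain ⟨n₂, h2⟩ := exists_surj_low (T := T) ν.α ν.α_surj
  obtain ⟨n₃, h3⟩ := exists_surj_low (T := T) ν.β ν.β_surj
  -- for each large level
  have key : ∀ n : ℕ, n₁ ≤ n → n₂ ≤ n → genusFF K F ≤ n → ∃ ζ : Fin ν.s → ResidueField A,
      (∀ i, ζ i ^ m = 1) ∧ ∀ a ∈ XO T n, a ∈ w.N n ↔ ∀ i, ν.α i (a 0) = ζ i * ν.β i (a 1) := by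
    intro n hn1 hn2 hng
    obtain ⟨hfd, hdim⟩ := h1 n hn1
    have hN := w.finrank_N hq hqA hng
    refine twist_linear (XO T n) (w.N n) (w.N_le_XO hq hqA n)
      (fun i => (ν.α i).toLinearMap.comp (LinearMap.proj 0))
      (fun i => (ν.β i).toLinearMap.comp (LinearMap.proj 1)) w.m_ne ?_ ?_ ?_
    · intro c
      obtain ⟨a, ha, hac⟩ := h2 n hn2 c
      refine ⟨![a, 0], ?_, fun i => ⟨hac i, ?_⟩⟩
      · intro j
        fin_cases j
        · exact ha
        · exact low_zero _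
      · exact map_zero (ν.β i)
    · have := ν.count
      omega
    · intro a ha i
      exact w.N_pow hq hqA ν ha i
  set n₀ := max (max n₁ n₂) (max n₃ (genusFF K F)) with hn₀
  obtain ⟨ζ, hζ, hζN⟩ := key n₀ (by omega) (by omega) (by omega)
  refine ⟨ζ, hζ, n₀, fun n hn a ha => ?_⟩
  obtain ⟨ζ', hζ', hζN'⟩ := key n (by omega) (by omega) (by omega)
  have heq : ζ = ζ' := by
    funext i
    -- an element with `α = ζ`, `β = 1`
    obtain ⟨x, hx, hxc⟩ := h2 n₀ (by omega) ζ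
    obtain ⟨y, hy, hyc⟩ := h3 n₀ (by omega) (fun _ => 1)
    have hmem : (![x, y] : Fin 2 → T.O) ∈ XO T n₀ := by
      intro j
      fin_cases j
      · exact hx
      · exact hy
    have h4 : (![x, y] : Fin 2 → T.O) ∈ w.N n₀ := by
      rw [hζN _ hmem]
      intro i
      change ν.α i x = ζ i * ν.β i y
      rw [hxc, hyc, mul_one]
    have h5 : (![x, y] : Fin 2 → T.O) ∈ w.N n := by
      obtain ⟨z, hz, hz2⟩ := w.mem_N.1 h4
      exact w.mem_N.2 ⟨z, TwoComp.M_mono (by exact_mod_cast hn) hz, hz2⟩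
    have h6 := (hζN' _ (fun j => (hmem j).mono (by
      have : (n₀ : ℤ) ≤ n := by exact_mod_cast hn
      omega))).1 h5 i
    change ν.α i x = ζ' i * ν.β i y at h6
    rw [hxc, hyc, mul_one] at h6
    exact h6
  rw [heq]
  exact hζN' a ha

end Disc

end Tw

end Fermat.Agent.H11Q
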