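import Fermat.Agent.H11Q.Lattice
import Fermat.Agent.H11Q.Attain
import Fermat.Agent.H11Q.LinAlg
import Fermat.Agent.FF.T8
import Fermat.Agent.H18_Places

/-!
# Two component reduction data
-/

set_option autoImplicit false

noncomputable section

open IsLocalRing ModularCurve Module AlgebraicCurve

attribute [-instance] HahnSeries.instModule HahnSeries.instSMul HahnSeries.instDistribMulAction
  HahnSeries.instSMulZeroClass

namespace Fermat.Agent.H11Q

/-! ### lower bounds for exponents -/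

section Low

variable {R : Type*} [CommRing R]

/-- the exponents are `≥ n` -/
def Low (x : LaurentSeries R) (n : ℤ) : Prop := ∀ i < n, x.coeff i = 0

theorem Low.mono {x : LaurentSeries R} {n m : ℤ} (h : Low x n) (hm : m ≤ n) : Low x m :=
  fun i hi => h i (hi.trans_le hm)

theorem low_zero (n : ℤ) : Low (0 : LaurentSeries R) n := fun _ _ => rfl

theorem Low.add {x y : LaurentSeries R} {n : ℤ} (hx : Low x n) (hy : Low y n) : Low (x + y) n :=
  fun i hi => by rw [HahnSeries.coeff_add, hx i hi, hy i hi, add_zero]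

theorem Low.neg {x : LaurentSeries R} {n : ℤ} (hx : Low x n) : Low (-x) n :=
  fun i hi => by rw [HahnSeries.coeff_neg, hx i hi, neg_zero]

theorem Low.sub {x y : LaurentSeries R} {n : ℤ} (hx : Low x n) (hy : Low y n) : Low (x - y) n := by
  rw [sub_eq_add_neg]; exact hx.add hy.neg

theorem Low.mul {x y : LaurentSeries R} {n m : ℤ} (hx : Low x n) (hy : Low y m) :
    Low (x * y) (n + m) := by
  intro i hi
  rw [HahnSeries.coeff_mul]
  refine Finset.sum_eq_zero fun p hp => ?_
  rw [Finset.mem_antidiagonal] at hp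
  rcases lt_or_ge p.1 n with h | h
  · rw [hx _ h, zero_mul]
  · rw [hy p.2 (by have := hp.2.2; omega), mul_zero]

theorem low_one : Low (1 : LaurentSeries R) 0 := fun i hi => by
  rw [HahnSeries.coeff_one, if_neg hi.ne]

theorem Low.pow {x : LaurentSeries R} {n : ℤ} (hx : Low x n) (m : ℕ) : Low (x ^ m) (m * n) := by
  induction m with
  | zero => rw [pow_zero, Nat.cast_zero, zero_mul]; exact low_one
  | succ m ih =>
    rw [pow_succ]
    convert ih.mul hx using 1
    push_cast
    ring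

theorem low_iff {x : LaurentSeries R} (h0 : x ≠ 0) {n : ℤ} : Low x n ↔ n ≤ x.order := by
  constructor
  · intro h
    by_contra hlt
    rw [not_le] at hlt
    exact h0 (HahnSeries.coeff_order_eq_zero.1 (h _ hlt))
  · intro h i hi
    exact HahnSeries.coeff_eq_zero_of_lt_order (hi.trans_le h)

theorem low_of_pow [IsDomain R] {x : LaurentSeries R} {n : ℤ} {m : ℕ} (hm : m ≠ 0)
    (h : Low (x ^ m) (m * n)) : Low x n := by
  rcases eq_or_ne x 0 with rfl | h0
  · exact low_zero n
  · rw [low_iff (pow_ne_zero _ h0), HahnSeries.order_pow, nsmul_eq_mul] at h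
    rw [low_iff h0]
    exact le_of_mul_le_mul_left h (by exact_mod_cast Nat.pos_of_ne_zero hm)

theorem Low.smul {K : Type*} [Field K] {x : LaurentSeries K} {n : ℤ} (hx : Low x n) (c : K) :
    Low (c • x) n := fun i hi => by rw [coeff_smul', hx i hi, mul_zero]

theorem Low.rd {K : Type*} [Field K] {A : ValuationSubring K} {x : LaurentSeries K} {n : ℤ}
    (hx : Low x n) : Low (rd A x) n := fun i hi => by rw [rd_coeff, hx i hi, resid_zero]

end Low

/-- Reduction data with two components. -/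
structure TwoComp (K : Type*) [Field K] (A : ValuationSubring K) (F : Type*) [Field F]
    [Algebra K F] where
  /-- the two cusps -/
  P : Fin 2 → Place K F
  P_ne : P 0 ≠ P 1
  /-- the expansions at the two cusps -/
  e : Fin 2 → F →ₐ[K] LaurentSeries K
  order_e : ∀ j z, z ≠ 0 → (e j z).order = (P j).ord z
  nice : ∀ z : F, (∀ v : Place K F, v ≠ P 0 → v ≠ P 1 → z ∈ v.toValuationSubring) →
    ∀ j, NumF (e j z) ∧ Bdd A (e j z)
  /-- function field of the components -/
  κ : Subfield (LaurentSeries (ResidueField A))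
  /-- functions with only poles at the cusp -/
  O : Subalgebra (ResidueField A) (LaurentSeries (ResidueField A))
  O_le : ∀ a ∈ O, a ∈ κ
  O_int : ∀ a ∈ κ, (∃ p : Polynomial (LaurentSeries (ResidueField A)), p.Monic ∧
    (∀ i, p.coeff i ∈ O) ∧ p.eval a = 0) → a ∈ O
  O_const : ∀ a ∈ O, Low a 0 → ∃ c : ResidueField A, a = algebraMap _ _ c
  /-- genus of the components -/
  g' : ℕ
  O_dim : ∃ n₀ : ℕ, ∀ n : ℕ, n₀ ≤ n → ∀ L : Submodule (ResidueField A) (LaurentSeries (ResidueField A)),
    (∀ a, a ∈ L ↔ a ∈ O ∧ Low a (-n)) →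
      FiniteDimensional (ResidueField A) L ∧ finrank (ResidueField A) L + g' = n + 1
  res_κ : ∀ z : F, (∀ v : Place K F, v ≠ P 0 → v ≠ P 1 → z ∈ v.toValuationSubring) →
    ∀ j, IsInt A (e j z) → rd A (e j z) ∈ κ
  res_O : ∀ z : F, (∀ v : Place K F, v ≠ P 0 → v ≠ P 1 → z ∈ v.toValuationSubring) →
    (∀ j, IsInt A (e j z)) → ∀ j, rd A (e j z) ∈ O

namespace TwoComp

variable {K : Type*} [Field K] {A : ValuationSubring K} {F : Type*} [Field F] [Algebra K F]
variable (T : TwoComp K A F)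

/-- functions with poles only at the two cusps -/
def Rg : Subalgebra K F where
  carrier := {z | ∀ v : Place K F, v ≠ T.P 0 → v ≠ T.P 1 → z ∈ v.toValuationSubring}
  mul_mem' := fun ha hb v h0 h1 => mul_mem (ha v h0 h1) (hb v h0 h1)
  add_mem' := fun ha hb v h0 h1 => add_mem (ha v h0 h1) (hb v h0 h1)
  algebraMap_mem' := fun c v _ _ => v.algebraMap_mem' c

theorem O_root : ∀ a ∈ T.κ, ∀ m : ℕ, m ≠ 0 → a ^ m ∈ T.O → a ∈ T.O := by
  intro a ha m hm h
  refine T.O_int a ha ⟨Polynomial.X ^ m - Polynomial.C (a ^ m),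
    Polynomial.monic_X_pow_sub_C _ hm, fun i => ?_, ?_⟩
  · rw [Polynomial.coeff_sub, Polynomial.coeff_X_pow, Polynomial.coeff_C]
    refine sub_mem ?_ ?_
    · split_ifs
      · exact one_mem _
      · exact zero_mem _
    · split_ifs
      · exact h
      · exact zero_mem _
  · rw [Polynomial.eval_sub, Polynomial.eval_pow, Polynomial.eval_X, Polynomial.eval_C, sub_self]

variable {T}

theorem mem_Rg_iff {z : F} :
    z ∈ T.Rg ↔ ∀ v : Place K F, v ≠ T.P 0 → v ≠ T.P 1 → z ∈ v.toValuationSubring := Iff.rfl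

theorem mem_Rg_iff_ord {z : F} :
    z ∈ T.Rg ↔ ∀ v : Place K F, v ≠ T.P 0 → v ≠ T.P 1 → 0 ≤ v.ord z := by
  rw [mem_Rg_iff]
  exact forall_congr' fun v => by rw [H18.mem_iff]

theorem mem_Rg_of_pow {z : F} {m : ℕ} (hm : m ≠ 0) (h : z ^ m ∈ T.Rg) : z ∈ T.Rg := by
  rw [mem_Rg_iff_ord] at h ⊢
  intro v h0 h1
  have := h v h0 h1
  rw [H18.ord_pow] at this
  have hm' : (0 : ℤ) < m := by exact_mod_cast Nat.pos_of_ne_zero hm
  by_contra hlt
  rw [not_le] at hlt
  nlinarith

theorem e_injective (j : Fin 2) : Function.Injective (T.e j) := (T.e j).toRingHom.injective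

theorem e_ne_zero {j : Fin 2} {z : F} (hz : z ≠ 0) : T.e j z ≠ 0 := by
  intro h
  exact hz (T.e_injective j (by rw [h, map_zero]))

theorem e_smul (j : Fin 2) (c : K) (z : F) : T.e j (c • z) = c • T.e j z := by
  rw [map_smul]

theorem low_e_iff {j : Fin 2} {z : F} (hz : z ≠ 0) {n : ℤ} :
    Low (T.e j z) n ↔ n ≤ (T.P j).ord z := by
  rw [low_iff (T.e_ne_zero hz), T.order_e j z hz]

/-- the polar divisor `n (P₀ + P₁)` -/
def C (T : TwoComp K A F) (n : ℤ) : Divisor K F :=
  Finsupp.single (T.P 0) n + Finsupp.single (T.P 1) n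

theorem C_apply_self (n : ℤ) (j : Fin 2) : T.C n (T.P j) = n := by
  unfold C
  fin_cases j
  · change (Finsupp.single (T.P 0) n + Finsupp.single (T.P 1) n : Divisor K F) (T.P 0) = n
    rw [Finsupp.add_apply, Finsupp.single_eq_same, Finsupp.single_eq_of_ne T.P_ne, add_zero]
  · change (Finsupp.single (T.P 0) n + Finsupp.single (T.P 1) n : Divisor K F) (T.P 1) = n
    rw [Finsupp.add_apply, Finsupp.single_eq_same, Finsupp.single_eq_of_ne T.P_ne.symm, zero_add]

theorem C_apply_ne (n : ℤ) {v : Place K F} (h0 : v ≠ T.P 0) (h1 : v ≠ T.P 1) : T.C n v = 0 := by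
  unfold C
  rw [Finsupp.add_apply, Finsupp.single_eq_of_ne h0, Finsupp.single_eq_of_ne h1, add_zero]

/-- functions `z` with `div z + D + n (P₀ + P₁) ≥ 0` -/
def M (T : TwoComp K A F) (D : Divisor K F) (n : ℤ) : Submodule K F :=
  riemannRochSpace (D + T.C n)

theorem mem_M_iff {D : Divisor K F} {n : ℤ} {z : F} (hz : z ≠ 0) :
    z ∈ T.M D n ↔ (∀ v : Place K F, v ≠ T.P 0 → v ≠ T.P 1 → 0 ≤ v.ord z + D v) ∧
      ∀ j, -n ≤ (T.P j).ord z + D (T.P j) := by
  unfold M
  rw [mem_riemannRochSpace_iff]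
  constructor
  · intro h
    refine ⟨fun v h0 h1 => ?_, fun j => ?_⟩
    · have := (h v).resolve_left hz
      rw [Finsupp.add_apply, C_apply_ne n h0 h1] at this
      omega
    · have := (h (T.P j)).resolve_left hz
      rw [Finsupp.add_apply, C_apply_self] at this
      omega
  · rintro ⟨h1, h2⟩ v
    right
    rw [Finsupp.add_apply]
    by_cases h : v ≠ T.P 0 ∧ v ≠ T.P 1
    · have := h1 v h.1 h.2
      rw [C_apply_ne n h.1 h.2]
      omega
    · have : ∃ j, v = T.P j := by
        by_contra hcon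
        push Not at hcon
        exact h ⟨hcon 0, hcon 1⟩
      obtain ⟨j, rfl⟩ := this
      have := h2 j
      rw [C_apply_self]
      omega

theorem mem_M_iff' {D : Divisor K F} {n : ℤ} {m : ℕ} (hm : m ≠ 0) {f : F} (hf : f ≠ 0)
    (hD : ∀ v, (m : ℤ) * D v = v.ord f) {z : F} (hz : z ≠ 0) :
    z ∈ T.M D n ↔ z ^ m * f ∈ T.Rg ∧ ∀ j, Low (T.e j (z ^ m * f)) (m * (-n)) := by
  have hm' : (0 : ℤ) < m := by exact_mod_cast Nat.pos_of_ne_zero hm
  have hord : ∀ v : Place K F, v.ord (z ^ m * f) = m * (v.ord z + D v) := by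
    intro v
    rw [v.ord_mul (pow_ne_zero _ hz) hf, H18.ord_pow, ← hD, mul_add]
  rw [mem_M_iff hz, mem_Rg_iff_ord]
  refine and_congr (forall_congr' fun v => forall_congr' fun _ => forall_congr' fun _ => ?_)
    (forall_congr' fun j => ?_)
  · rw [hord]
    constructor
    · intro h; positivity
    · intro h
      exact nonneg_of_mul_nonneg_right h hm'
  · rw [low_e_iff (mul_ne_zero (pow_ne_zero _ hz) hf), hord]
    constructor
    · intro h
      exact mul_le_mul_of_nonneg_left h hm'.le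
    · intro h
      exact le_of_mul_le_mul_left h hm'

theorem M_mono {D : Divisor K F} {n n' : ℤ} (h : n ≤ n') : T.M D n ≤ T.M D n' := by
  intro z hz
  rcases eq_or_ne z 0 with rfl | h0
  · exact Submodule.zero_mem _
  · rw [mem_M_iff h0] at hz ⊢
    exact ⟨hz.1, fun j => le_trans (by omega) (hz.2 j)⟩

section RR

variable [IsAlgClosed K] [CharZero K] [FF.FunField K F]

instance (D : Divisor K F) (n : ℤ) : FiniteDimensional K (T.M D n) := FF.L_finite _

theorem degree_C (n : ℤ) : Divisor.degree (T.C n) = 2 * n := by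
  unfold C
  rw [map_add, Divisor.degree_single, Divisor.degree_single, FF.deg_eq_one, FF.deg_eq_one]
  push_cast
  ring

theorem finrank_M (D : Divisor K F) {n : ℤ}
    (hn : 2 * (genusFF K F : ℤ) ≤ Divisor.degree D + 2 * n) :
    (finrank K (T.M D n) : ℤ) + genusFF K F = Divisor.degree D + 2 * n + 1 := by
  have h1 : Divisor.degree (D + T.C n) = Divisor.degree D + 2 * n := by
    rw [map_add, degree_C]
  have h2 : FF.hh (D + T.C n) = 0 := FF.hh_eq_zero_of_degree_ge (by rw [h1]; exact hn)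
  have h3 := FF.riemannRoch (D + T.C n)
  rw [h2, h1] at h3
  change ((finrank K (riemannRochSpace (D + T.C n)) : ℕ) : ℤ) + _ = _
  have h4 : ((finrank K (riemannRochSpace (D + T.C n)) : ℕ) : ℤ) = FF.ell (D + T.C n) := rfl
  rw [h4]
  push_cast at h3
  linarith

theorem degree_eq_zero {D : Divisor K F} {m : ℕ} (hm : m ≠ 0) {f : F}
    (hD : ∀ v, (m : ℤ) * D v = v.ord f) : Divisor.degree D = 0 := by
  have h1 : (m : ℤ) • D = FF.div f := by
    ext v
    rw [Finsupp.smul_apply, smul_eq_mul, hD, FF.div_apply]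
  have h2 := congrArg Divisor.degree h1
  rw [map_zsmul, FF.degree_div, smul_eq_mul] at h2
  rcases mul_eq_zero.1 h2 with h | h
  · exact absurd (by exact_mod_cast h) hm
  · exact h

theorem exists_D {m : ℕ} {f : F} (hf : ∀ v : Place K F, (m : ℤ) ∣ v.ord f) :
    ∃ D : Divisor K F, ∀ v, (m : ℤ) * D v = v.ord f := by
  refine ⟨(FF.div f).mapRange (fun n => n / m) (by simp), fun v => ?_⟩
  rw [Finsupp.mapRange_apply, FF.div_apply]
  exact Int.mul_ediv_cancel' (hf v)

end RR

section Att

variable [CharZero K] [Algebra.IsAlgebraic ℤ K] {q : ℕ} (hq : q.Prime)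
  (hqA : (q : K) ∈ A.nonunits)

include hq hqA

theorem att_e {z : F} (hz : z ∈ T.Rg) (h0 : z ≠ 0) (j : Fin 2) : Att A (T.e j z) :=
  att_of_numF_bdd hq hqA (T.nice z hz j).1 (T.nice z hz j).2 (T.e_ne_zero h0)

end Att

end TwoComp

end Fermat.Agent.H11Q
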